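/-
Program M1 (S44, row 38), chapter BASE, brick `AdjoinUnif34` (helper34).

ABSTRACT CHART BASE CHANGE (Mathlib + helper43's `NormalAdjoin43`).

`B` an integrally closed domain with fraction field `F₁` (the chart `B_i(K)` in `F_K`), `F₂ / F₁`
finite separable (`F_L / F_K`), `ϖ ∈ F₂` a root of a monic `E ∈ B[X]` which is *Eisenstein with
respect to `π ∈ B`* (`π ∣` lower coefficients, `E(0) = π * unit`), `V` a valuation subring of `F₁`
containing `B` in which `π` is a uniformiser (the Gauss ring `O1(K)`), `F₂ = F₁(ϖ)`, `B / π B`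
reduced, and `π ^ m / E'(ϖ)` integral over `B` for some `m`.  Then

* `irreducible_of_eisenstein` : Eisenstein's criterion at `V`, in field form;
* `minpoly_eq_of_eisenstein`  : `minpoly B ϖ = E`;
* `mem_adjoin_of_eisenstein`  : the integral closure of `B` in `F₂` is `B[ϖ]`;
* `exists_eq_add_mul_of_eisenstein` : every `z ∈ F₂` integral over `B` is `b + ϖ z'`, `b ∈ B`,
  `z' ∈ B[ϖ]` (the input `decomp` of `Node/BaseNode25.RamBase`).
-/
import Mathlib
import Fermat.Agent.M1.Base.NormalAdjoin43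

set_option autoImplicit false
set_option linter.unusedSectionVars false
set_option linter.unusedVariables false

namespace Fermat.Agent.M1.Base.AdjoinUnif34

open Polynomial IsLocalRing

section Irred

variable {F₁ : Type*} [Field F₁] (V : ValuationSubring F₁)

/-- an element of `V` which is a unit of `V` has its inverse in `V`. -/
theorem inv_mem_of_isUnit {x : V} (hx : IsUnit x) : ((x : F₁))⁻¹ ∈ V := by
  obtain ⟨y, hy⟩ := hx.exists_right_inv
  have h1 : (x : F₁) * (y : F₁) = 1 := by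
    have := congrArg (fun t : V => (t : F₁)) hy
    simpa using this
  rw [inv_eq_of_mul_eq_one_right h1]
  exact y.2

/-- **Eisenstein's criterion** at a valuation subring `V` of `F₁` with uniformiser `π`, for a
monic polynomial over `F₁` with coefficients in `V`: field form. -/
theorem irreducible_of_eisenstein {π : F₁} (hπV : π ∈ V) (hπ : π⁻¹ ∉ V)
    (hunif : ∀ z ∈ V, z⁻¹ ∉ V → ∃ c ∈ V, z = π * c)
    {E : F₁[X]} (hE : E.Monic) (hdeg : 0 < E.natDegree)
    (hlow : ∀ i < E.natDegree, ∃ c ∈ V, E.coeff i = π * c)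
    (h0 : ∃ w ∈ V, w⁻¹ ∈ V ∧ w ≠ 0 ∧ E.coeff 0 = π * w) : Irreducible E := by
  classical
  have hπ0 : π ≠ 0 := by
    rintro rfl
    exact hπ (by rw [inv_zero]; exact V.zero_mem)
  -- coefficients lie in `V`
  have hcoeff : ∀ i, E.coeff i ∈ V := by
    intro i
    rcases lt_trichotomy i E.natDegree with h | h | h
    · obtain ⟨c, hc, hic⟩ := hlow i h
      rw [hic]; exact V.mul_mem _ _ hπV hc
    · rw [h, hE.coeff_natDegree]; exact V.one_mem
    · rw [coeff_eq_zero_of_natDegree_lt h]; exact V.zero_mem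
  have hl : E ∈ lifts (algebraMap V F₁) := by
    rw [lifts_iff_coeff_lifts]
    intro i
    exact ⟨⟨E.coeff i, hcoeff i⟩, rfl⟩
  obtain ⟨EV, hEV, hEVdeg, hEVm⟩ := lifts_and_natDegree_eq_and_monic hl hE
  have hEVcoeff : ∀ i, ((EV.coeff i : V) : F₁) = E.coeff i := by
    intro i
    rw [← hEV, coeff_map]; rfl
  set πV : V := ⟨π, hπV⟩ with hπVdef
  have hπVmem : πV ∈ maximalIdeal V := by
    rw [mem_maximalIdeal, mem_nonunits_iff]
    intro hu
    exact hπ (inv_mem_of_isUnit V hu)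
  have hmax : maximalIdeal V = Ideal.span {πV} := by
    apply le_antisymm
    · intro z hz
      rw [Ideal.mem_span_singleton]
      by_cases hz0 : z = 0
      · rw [hz0]; exact dvd_zero _
      · have hzinv : ((z : F₁))⁻¹ ∉ V := by
          intro hinv
          rw [mem_maximalIdeal, mem_nonunits_iff] at hz
          apply hz
          refine IsUnit.of_mul_eq_one ⟨(z : F₁)⁻¹, hinv⟩ ?_
          apply Subtype.ext
          show (z : F₁) * (z : F₁)⁻¹ = 1
          exact mul_inv_cancel₀ (fun h => hz0 (Subtype.ext h))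
        obtain ⟨c, hc, hzc⟩ := hunif z z.2 hzinv
        exact ⟨⟨c, hc⟩, Subtype.ext hzc⟩
    · rw [Ideal.span_le, Set.singleton_subset_iff]
      exact hπVmem
  have heis : EV.IsEisensteinAt (maximalIdeal V) := by
    refine ⟨?_, ?_, ?_⟩
    · rw [hEVm.leadingCoeff]
      exact fun h1 => (maximalIdeal.isMaximal V).ne_top ((Ideal.eq_top_iff_one _).mpr h1)
    · intro i hi
      rw [hEVdeg] at hi
      obtain ⟨c, hc, hic⟩ := hlow i hi
      rw [hmax, Ideal.mem_span_singleton]
      exact ⟨⟨c, hc⟩, Subtype.ext (by rw [hEVcoeff, hic]; rfl)⟩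
    · rw [hmax, Ideal.span_singleton_pow, Ideal.mem_span_singleton]
      rintro ⟨d, hd⟩
      obtain ⟨w, hw, hwinv, hw0, h0w⟩ := h0
      have h1 : π * w = π ^ 2 * (d : F₁) := by
        rw [← h0w, ← hEVcoeff, hd]; rfl
      have h2 : w = π * (d : F₁) := by
        apply mul_left_cancel₀ hπ0
        rw [h1]; ring
      have h3 : π⁻¹ = (d : F₁) * w⁻¹ := by
        rw [h2, mul_inv, mul_comm π⁻¹, ← mul_assoc, mul_inv_cancel₀, one_mul]
        intro hd0
        rw [hd0, mul_zero] at h2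
        exact hw0 h2
      exact hπ (h3 ▸ V.mul_mem _ _ d.2 hwinv)
  have hirrV : Irreducible EV :=
    heis.irreducible (maximalIdeal.isMaximal V).isPrime hEVm.isPrimitive (by rw [hEVdeg]; exact hdeg)
  rw [← hEV]
  exact (hEVm.irreducible_iff_irreducible_map_fraction_map (K := F₁)).mp hirrV

end Irred

section Main

variable {B F₁ F₂ : Type*} [CommRing B] [IsDomain B] [IsIntegrallyClosed B] [Field F₁] [Field F₂]
  [Algebra B F₁] [IsFractionRing B F₁] [Algebra F₁ F₂] [Algebra B F₂] [IsScalarTower B F₁ F₂]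
  [FiniteDimensional F₁ F₂] [Algebra.IsSeparable F₁ F₂]

/-- The image of an Eisenstein polynomial over `B` is irreducible over `F₁`. -/
theorem irreducible_map_of_eisenstein (V : ValuationSubring F₁)
    (hBV : ∀ b : B, algebraMap B F₁ b ∈ V)
    {π : B} (hπ : (algebraMap B F₁ π)⁻¹ ∉ V)
    (hunif : ∀ z ∈ V, z⁻¹ ∉ V → ∃ c ∈ V, z = algebraMap B F₁ π * c)
    {E : B[X]} (hE : E.Monic) (hdeg : 0 < E.natDegree)
    (hlow : ∀ i < E.natDegree, π ∣ E.coeff i) {w : Bˣ} (h0 : E.coeff 0 = π * w) :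
    Irreducible (E.map (algebraMap B F₁)) := by
  have hinj : Function.Injective (algebraMap B F₁) := IsFractionRing.injective B F₁
  apply irreducible_of_eisenstein V (hBV π) hπ hunif (hE.map _)
  · rw [hE.natDegree_map]; exact hdeg
  · intro i hi
    rw [hE.natDegree_map] at hi
    obtain ⟨c, hc⟩ := hlow i hi
    exact ⟨algebraMap B F₁ c, hBV c, by rw [coeff_map, hc, map_mul]⟩
  · refine ⟨algebraMap B F₁ w, hBV _, ?_, ?_, by rw [coeff_map, h0, map_mul]⟩
    · have : (algebraMap B F₁ w)⁻¹ = algebraMap B F₁ ((w⁻¹ : Bˣ) : B) := by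
        apply inv_eq_of_mul_eq_one_right
        rw [← map_mul, Units.mul_inv, map_one]
      rw [this]; exact hBV _
    · intro h
      exact w.ne_zero (hinj (by rw [h, map_zero]))

/-- `minpoly B ϖ = E` for a root `ϖ` of an Eisenstein polynomial. -/
theorem minpoly_eq_of_eisenstein (V : ValuationSubring F₁)
    (hBV : ∀ b : B, algebraMap B F₁ b ∈ V)
    {π : B} (hπ : (algebraMap B F₁ π)⁻¹ ∉ V)
    (hunif : ∀ z ∈ V, z⁻¹ ∉ V → ∃ c ∈ V, z = algebraMap B F₁ π * c)
    {E : B[X]} (hE : E.Monic) (hdeg : 0 < E.natDegree)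
    (hlow : ∀ i < E.natDegree, π ∣ E.coeff i) {w : Bˣ} (h0 : E.coeff 0 = π * w)
    {ϖ : F₂} (hroot : aeval ϖ E = 0) :
    minpoly B ϖ = E ∧ minpoly F₁ ϖ = E.map (algebraMap B F₁) := by
  have hinj : Function.Injective (algebraMap B F₁) := IsFractionRing.injective B F₁
  have hirr := irreducible_map_of_eisenstein V hBV hπ hunif hE hdeg hlow h0
  have hint : IsIntegral B ϖ := ⟨E, hE, by rwa [← aeval_def]⟩
  have h1 : E.map (algebraMap B F₁) = minpoly F₁ ϖ :=
    minpoly.eq_of_irreducible_of_monic hirr (by rw [aeval_map_algebraMap, hroot]) (hE.map _)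
  have h2 : minpoly F₁ ϖ = (minpoly B ϖ).map (algebraMap B F₁) :=
    minpoly.isIntegrallyClosed_eq_field_fractions' F₁ hint
  refine ⟨?_, h1.symm⟩
  apply Polynomial.map_injective _ hinj
  rw [← h2, h1]

/-- **Abstract chart base change**: the integral closure of `B` in `F₂ = F₁(ϖ)` is `B[ϖ]`. -/
theorem mem_adjoin_of_eisenstein (V : ValuationSubring F₁)
    (hBV : ∀ b : B, algebraMap B F₁ b ∈ V)
    {π : B} (hπ : (algebraMap B F₁ π)⁻¹ ∉ V)
    (hunif : ∀ z ∈ V, z⁻¹ ∉ V → ∃ c ∈ V, z = algebraMap B F₁ π * c)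
    {E : B[X]} (hE : E.Monic) (hdeg : 0 < E.natDegree)
    (hlow : ∀ i < E.natDegree, π ∣ E.coeff i) {w : Bˣ} (h0 : E.coeff 0 = π * w)
    (hred : ∀ (x : B) (m : ℕ), π ∣ x ^ m → π ∣ x)
    {ϖ : F₂} (hroot : aeval ϖ E = 0) (hgen : IntermediateField.adjoin F₁ {ϖ} = ⊤)
    (hy : ∃ (m : ℕ) (y : F₂), IsIntegral B y ∧
      y * aeval ϖ (derivative E) = algebraMap B F₂ (π ^ m))
    (z : F₂) (hz : IsIntegral B z) : z ∈ Algebra.adjoin B ({ϖ} : Set F₂) := by
  classical
  have hinj : Function.Injective (algebraMap B F₁) := IsFractionRing.injective B F₁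
  obtain ⟨hminB, hminF⟩ := minpoly_eq_of_eisenstein (F₂ := F₂) V hBV hπ hunif hE hdeg hlow h0 hroot
  have hint : IsIntegral B ϖ := ⟨E, hE, by rwa [← aeval_def]⟩
  have hintF : IsIntegral F₁ ϖ := hint.tower_top
  have hπ0 : π ≠ 0 := by
    rintro rfl
    exact hπ (by rw [map_zero, inv_zero]; exact V.zero_mem)
  -- the power basis
  obtain ⟨pb, hpb⟩ : ∃ pb : PowerBasis F₁ F₂, pb.gen = ϖ := by
    refine ⟨(IntermediateField.adjoin.powerBasis hintF).map
      ((IntermediateField.equivOfEq hgen).trans IntermediateField.topEquiv), ?_⟩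
    rw [PowerBasis.map_gen, IntermediateField.adjoin.powerBasis_gen]
    rfl
  subst hpb
  apply NormalAdjoin43.mem_adjoin_of_isIntegral pb hint
  · -- `ϖ ≠ 0`
    intro h
    rw [h] at hroot
    have h1 : algebraMap B F₂ (E.coeff 0) = 0 := by
      rw [← hroot, ← coeff_zero_eq_aeval_zero']
    rw [h0, IsScalarTower.algebraMap_apply B F₁ F₂, map_eq_zero_iff _ (algebraMap F₁ F₂).injective,
      map_eq_zero_iff _ hinj] at h1
    exact hπ0 ((Units.mul_left_eq_zero w).mp h1)
  · -- reducedness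
    intro x m hx
    rw [hminB, h0, Units.mul_right_dvd] at hx ⊢
    exact hred x m hx
  · -- `ϖ ^ N ∈ a₀ B[ϖ]`
    refine ⟨(minpoly B pb.gen).natDegree, ?_⟩
    apply NormalAdjoin43.gen_pow_mem_of_dvd_coeff hint
    intro i hi
    rw [hminB] at hi ⊢
    rw [h0, Units.mul_right_dvd]
    exact hlow i hi
  · -- the discriminant
    obtain ⟨m, y, hyint, hy⟩ := hy
    set n := Module.finrank F₁ F₂ with hn
    have hdiscr := Algebra.discr_powerBasis_eq_norm F₁ pb
    rw [hminF, derivative_map, aeval_map_algebraMap] at hdiscr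
    have hnorm : Algebra.norm F₁ y * Algebra.norm F₁ (aeval pb.gen (derivative E)) =
        algebraMap B F₁ (π ^ m) ^ n := by
      rw [← map_mul, hy, IsScalarTower.algebraMap_apply B F₁ F₂, Algebra.norm_algebraMap]
    have hNint : IsIntegral B (Algebra.norm F₁ y) := Algebra.isIntegral_norm F₁ hyint
    obtain ⟨d₀, hd₀⟩ := IsIntegrallyClosed.isIntegral_iff.mp hNint
    refine ⟨m * n, (-1) ^ (n * (n - 1) / 2) * d₀ * (w : B) ^ (m * n), ?_⟩
    rw [hdiscr, hminB, h0, map_mul, map_mul, map_pow, map_pow, map_neg, map_one, hd₀, mul_pow,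
      map_mul, map_pow, map_pow]
    have hsq : ((-1 : F₁) ^ (n * (n - 1) / 2)) * ((-1 : F₁) ^ (n * (n - 1) / 2)) = 1 := by
      rw [← mul_pow]; simp
    have hpow : algebraMap B F₁ π ^ (m * n) = algebraMap B F₁ (π ^ m) ^ n := by
      rw [map_pow, pow_mul]
    rw [hpow, ← hnorm]
    linear_combination (Algebra.norm F₁ y * Algebra.norm F₁ (aeval pb.gen (derivative E)) *
      algebraMap B F₁ (w : B) ^ (m * n)) * hsq
  · exact hz

/-- **The decomposition** `z = b + ϖ z'`. -/
theorem exists_eq_add_mul_of_eisenstein (V : ValuationSubring F₁)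
    (hBV : ∀ b : B, algebraMap B F₁ b ∈ V)
    {π : B} (hπ : (algebraMap B F₁ π)⁻¹ ∉ V)
    (hunif : ∀ z ∈ V, z⁻¹ ∉ V → ∃ c ∈ V, z = algebraMap B F₁ π * c)
    {E : B[X]} (hE : E.Monic) (hdeg : 0 < E.natDegree)
    (hlow : ∀ i < E.natDegree, π ∣ E.coeff i) {w : Bˣ} (h0 : E.coeff 0 = π * w)
    (hred : ∀ (x : B) (m : ℕ), π ∣ x ^ m → π ∣ x)
    {ϖ : F₂} (hroot : aeval ϖ E = 0) (hgen : IntermediateField.adjoin F₁ {ϖ} = ⊤)
    (hy : ∃ (m : ℕ) (y : F₂), IsIntegral B y ∧
      y * aeval ϖ (derivative E) = algebraMap B F₂ (π ^ m))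
    (z : F₂) (hz : IsIntegral B z) :
    ∃ (b : B) (z' : F₂), IsIntegral B z' ∧ z = algebraMap B F₂ b + ϖ * z' := by
  have hint : IsIntegral B ϖ := ⟨E, hE, by rwa [← aeval_def]⟩
  have hmem := mem_adjoin_of_eisenstein V hBV hπ hunif hE hdeg hlow h0 hred hroot hgen hy z hz
  obtain ⟨b, a', ha'⟩ := NormalAdjoin43.exists_eq_add_gen_mul ϖ ⟨z, hmem⟩
  refine ⟨b, (a' : F₂), ?_, ?_⟩
  · have hle : Algebra.adjoin B ({ϖ} : Set F₂) ≤ integralClosure B F₂ := by
      rw [Algebra.adjoin_le_iff]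
      intro s hs
      rw [Set.mem_singleton_iff.mp hs]
      exact hint
    exact hle a'.2
  · have := congrArg (fun t : Algebra.adjoin B ({ϖ} : Set F₂) => (t : F₂)) ha'
    simpa using this

end Main

end Fermat.Agent.M1.Base.AdjoinUnif34
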