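/-
Program M1 (S44, row 38), chapter BASE, brick `ChartDecomp34` (helper34).

ABSTRACT CHART DECOMPOSITION `B_i(L) = B_i(K) + ϖ B_i(L)` (Mathlib + `AdjoinUnif34`), in the
vocabulary of `NodalCore13.NodalTwoChartModel` (raw hypotheses, so that this file is Mathlib-only).

* `isIntegral_of_monic_of_coeff_isIntegral` : a root of a monic polynomial with integral
  coefficients is integral;
* `isIntegral_subalgebra_of_coeff_mem`, `exists_monic_of_isIntegral_subalgebra` : integrality over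
  a subalgebra `B ⊆ F₁` of an element of an extension field `F₂`, in polynomial form;
* `dvd_of_dvd_pow_of_sat` : `B / π B` is reduced for a `π`-saturated chart;
* `exists_eq_add_mul` (**Theorem A**) : `z ∈ F₂` integral over the chart `B ⊆ F₁` is
  `b + ϖ z'` with `b ∈ B` and `z'` integral over `B` (`ϖ` a root of an Eisenstein polynomial over
  the base ring `R₁`, `F₂ = F₁(ϖ)`);
* `isIntegral_adjoin_of_isIntegral_adjoin` (**Theorem B**) : if `R₂` is integral over `R₁` then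
  everything integral over `R₂[t]` is integral over `R₁[t]`;  `isIntegral_chart_of_…` : hence over
  every subalgebra containing `R₁[t]`;  `isIntegral_adjoin_map` : the converse direction
  `B_i(K) → B_i(L)`.
-/
import Mathlib
import Fermat.Agent.M1.Base.AdjoinUnif34

set_option autoImplicit false
set_option linter.unusedSectionVars false
set_option linter.unusedVariables false
set_option linter.style.haveILetI false

namespace Fermat.Agent.M1.Base.ChartDecomp34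

open Polynomial

section Tools

variable {R₀ F : Type*} [CommRing R₀] [CommRing F] [Algebra R₀ F]

/-- A root of a monic polynomial whose coefficients are integral over `R₀` is integral over
`R₀`. -/
theorem isIntegral_of_monic_of_coeff_isIntegral {P : F[X]} (hP : P.Monic)
    (hc : ∀ i, IsIntegral R₀ (P.coeff i)) {x : F} (hx : P.eval x = 0) : IsIntegral R₀ x := by
  have hl : P ∈ lifts (algebraMap (integralClosure R₀ F) F) := by
    rw [lifts_iff_coeff_lifts]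
    intro i
    exact ⟨⟨P.coeff i, hc i⟩, rfl⟩
  obtain ⟨Q, hQ, -, hQm⟩ := lifts_and_natDegree_eq_and_monic hl hP
  have hxC : IsIntegral (integralClosure R₀ F) x := ⟨Q, hQm, by rw [← eval_map, hQ, hx]⟩
  exact isIntegral_trans x hxC

end Tools

section Sub

variable {R₁ F₁ F₂ : Type*} [CommRing R₁] [Field F₁] [Field F₂] [Algebra R₁ F₁] [Algebra F₁ F₂]

/-- integrality over a subalgebra of `F₁` of an element of `F₂`, from a monic polynomial over
`F₁` with coefficients in the subalgebra. -/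
theorem isIntegral_subalgebra_of_coeff_mem (B : Subalgebra R₁ F₁) {P : F₁[X]} (hP : P.Monic)
    (hc : ∀ i, P.coeff i ∈ B) {z : F₂} (hz : aeval z P = 0) : IsIntegral ↥B z := by
  have hl : P ∈ lifts (algebraMap ↥B F₁) := by
    rw [lifts_iff_coeff_lifts]
    intro i
    exact ⟨⟨P.coeff i, hc i⟩, rfl⟩
  obtain ⟨Q, hQ, -, hQm⟩ := lifts_and_natDegree_eq_and_monic hl hP
  refine ⟨Q, hQm, ?_⟩
  have h1 : (algebraMap ↥B F₂) = (algebraMap F₁ F₂).comp (algebraMap ↥B F₁) := rfl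
  rw [h1, ← eval₂_map, hQ, ← aeval_def]
  exact hz

theorem exists_monic_of_isIntegral_subalgebra (B : Subalgebra R₁ F₁) {z : F₂}
    (hz : IsIntegral ↥B z) :
    ∃ P : F₁[X], P.Monic ∧ (∀ i, P.coeff i ∈ B) ∧ aeval z P = 0 := by
  obtain ⟨p, hp, hpz⟩ := hz
  refine ⟨p.map (algebraMap ↥B F₁), hp.map _, fun i => ?_, ?_⟩
  · rw [coeff_map]; exact (p.coeff i).2
  · have h1 : (algebraMap ↥B F₂) = (algebraMap F₁ F₂).comp (algebraMap ↥B F₁) := rfl
    rw [aeval_def, eval₂_map, ← h1]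
    exact hpz

/-- integrality passes to a larger subalgebra. -/
theorem isIntegral_subalgebra_mono {B B' : Subalgebra R₁ F₁} (hle : B ≤ B') {z : F₂}
    (hz : IsIntegral ↥B z) : IsIntegral ↥B' z := by
  obtain ⟨P, hP, hc, hPz⟩ := exists_monic_of_isIntegral_subalgebra B hz
  exact isIntegral_subalgebra_of_coeff_mem B' hP (fun i => hle (hc i)) hPz

end Sub

section Reduced

variable {R₁ F₁ : Type*} [CommRing R₁] [Field F₁] [Algebra R₁ F₁]

/-- **`B / π B` is reduced** for a chart `B` which is `π`-saturated in `O1 ⊓ O2`. -/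
theorem dvd_of_dvd_pow_of_sat (π : R₁) (B : Subalgebra R₁ F₁) (O1 O2 : ValuationSubring F₁)
    (le1 : ∀ x ∈ B, x ∈ O1) (le2 : ∀ x ∈ B, x ∈ O2)
    (nonunit1 : (algebraMap R₁ F₁ π)⁻¹ ∉ O1) (nonunit2 : (algebraMap R₁ F₁ π)⁻¹ ∉ O2)
    (unif1 : ∀ x ∈ O1, x⁻¹ ∉ O1 → ∃ c ∈ O1, x = algebraMap R₁ F₁ π * c)
    (unif2 : ∀ x ∈ O2, x⁻¹ ∉ O2 → ∃ c ∈ O2, x = algebraMap R₁ F₁ π * c)
    (sat : ∀ b ∈ B, ∀ c : F₁, c ∈ O1 → c ∈ O2 → b = algebraMap R₁ F₁ π * c → c ∈ B)
    (x : ↥B) (m : ℕ) (h : algebraMap R₁ ↥B π ∣ x ^ m) : algebraMap R₁ ↥B π ∣ x := by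
  set p : F₁ := algebraMap R₁ F₁ π with hp
  have hp0 : p ≠ 0 := by
    intro h0
    exact nonunit1 (by rw [h0, inv_zero]; exact O1.zero_mem)
  obtain ⟨c, hc⟩ := h
  have hcF : ((x : F₁)) ^ m = p * (c : F₁) := by
    have := congrArg (fun t : ↥B => (t : F₁)) hc
    simpa using this
  by_cases hx0 : (x : F₁) = 0
  · have : x = 0 := Subtype.ext hx0
    rw [this]; exact dvd_zero _
  -- `x` is not a unit of `O_j`
  have key : ∀ (O : ValuationSubring F₁), (∀ y ∈ B, y ∈ O) → p⁻¹ ∉ O →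
      (∀ y ∈ O, y⁻¹ ∉ O → ∃ c ∈ O, y = p * c) → ∃ d ∈ O, (x : F₁) = p * d := by
    intro O le nonunit unif
    apply unif _ (le _ x.2)
    intro hinv
    apply nonunit
    have hc0 : (c : F₁) ≠ 0 := by
      intro hc0
      rw [hc0, mul_zero] at hcF
      exact pow_ne_zero m hx0 hcF
    have h1 : p⁻¹ = (c : F₁) * ((x : F₁)⁻¹) ^ m := by
      rw [inv_pow, hcF, mul_inv, mul_comm p⁻¹, ← mul_assoc, mul_inv_cancel₀ hc0, one_mul]
    rw [h1]
    exact O.mul_mem _ _ (le _ c.2) (pow_mem hinv m)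
  obtain ⟨d1, hd1, hxd1⟩ := key O1 le1 nonunit1 unif1
  obtain ⟨d2, hd2, hxd2⟩ := key O2 le2 nonunit2 unif2
  have hd : d1 = d2 := mul_left_cancel₀ hp0 (hxd1.symm.trans hxd2)
  have hdB : d1 ∈ B := sat _ x.2 d1 hd1 (hd ▸ hd2) hxd1
  exact ⟨⟨d1, hdB⟩, Subtype.ext hxd1⟩

end Reduced

section TheoremA

variable {R₁ F₁ F₂ : Type*} [CommRing R₁] [Field F₁] [Field F₂] [Algebra R₁ F₁] [Algebra F₁ F₂]
  [Algebra R₁ F₂] [IsScalarTower R₁ F₁ F₂] [FiniteDimensional F₁ F₂] [Algebra.IsSeparable F₁ F₂]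

/-- **Theorem A (abstract chart decomposition).**  `B ⊆ F₁` an integrally closed chart with
fraction field `F₁`, contained in two valuation rings `O1, O2` with uniformiser `π` and
`π`-saturated in `O1 ⊓ O2`; `ϖ ∈ F₂` a root of an Eisenstein polynomial `E` over `R₁`,
`F₂ = F₁(ϖ)`, `π ^ m / E'(ϖ)` integral over `R₁`.  Then every `z ∈ F₂` integral over `B` is
`b + ϖ z'` with `b ∈ B` and `z'` integral over `B`. -/
theorem exists_eq_add_mul (π : R₁) (B : Subalgebra R₁ F₁) (O1 O2 : ValuationSubring F₁)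
    (intcl : ∀ x : F₁, IsIntegral B x → x ∈ B)
    (frac : ∀ x : F₁, ∃ a ∈ B, ∃ b ∈ B, b ≠ 0 ∧ x * b = a)
    (le1 : ∀ x ∈ B, x ∈ O1) (le2 : ∀ x ∈ B, x ∈ O2)
    (nonunit1 : (algebraMap R₁ F₁ π)⁻¹ ∉ O1) (nonunit2 : (algebraMap R₁ F₁ π)⁻¹ ∉ O2)
    (unif1 : ∀ x ∈ O1, x⁻¹ ∉ O1 → ∃ c ∈ O1, x = algebraMap R₁ F₁ π * c)
    (unif2 : ∀ x ∈ O2, x⁻¹ ∉ O2 → ∃ c ∈ O2, x = algebraMap R₁ F₁ π * c)
    (sat : ∀ b ∈ B, ∀ c : F₁, c ∈ O1 → c ∈ O2 → b = algebraMap R₁ F₁ π * c → c ∈ B)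
    {E : R₁[X]} (hE : E.Monic) (hdeg : 0 < E.natDegree)
    (hlow : ∀ i < E.natDegree, π ∣ E.coeff i) {w : R₁ˣ} (h0 : E.coeff 0 = π * w)
    {ϖ : F₂} (hroot : aeval ϖ E = 0) (hgen : IntermediateField.adjoin F₁ {ϖ} = ⊤)
    (hy : ∃ (m : ℕ) (y : F₂), IsIntegral R₁ y ∧
      y * aeval ϖ (derivative E) = algebraMap R₁ F₂ (π ^ m))
    (z : F₂) (hz : IsIntegral ↥B z) :
    ∃ b ∈ B, ∃ z' : F₂, IsIntegral ↥B z' ∧ z = algebraMap F₁ F₂ b + ϖ * z' := by
  haveI hfracB : IsFractionRing ↥B F₁ := by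
    refine IsFractionRing.of_field ↥B F₁ fun x => ?_
    obtain ⟨a, ha, b, hb, hb0, hab⟩ := frac x
    refine ⟨⟨a, ha⟩, ⟨b, hb⟩, ?_⟩
    show x = a / b
    rw [eq_div_iff hb0, hab]
  haveI hicB : IsIntegrallyClosed ↥B := by
    refine (isIntegrallyClosed_iff F₁).mpr fun {x} hx => ?_
    exact ⟨⟨x, intcl x hx⟩, rfl⟩
  haveI : IsScalarTower R₁ ↥B F₂ := IsScalarTower.of_algebraMap_eq (fun r => by
    rw [IsScalarTower.algebraMap_apply R₁ F₁ F₂]; rfl)
  haveI : IsScalarTower ↥B F₁ F₂ := IsScalarTower.of_algebraMap_eq (fun r => rfl)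
  have hEB : (E.map (algebraMap R₁ ↥B)).Monic := hE.map _
  have hdegB : (E.map (algebraMap R₁ ↥B)).natDegree = E.natDegree := hE.natDegree_map _
  have hlowB : ∀ i < (E.map (algebraMap R₁ ↥B)).natDegree,
      algebraMap R₁ ↥B π ∣ (E.map (algebraMap R₁ ↥B)).coeff i := by
    intro i hi
    rw [hdegB] at hi
    rw [coeff_map]
    exact map_dvd _ (hlow i hi)
  have h0B : (E.map (algebraMap R₁ ↥B)).coeff 0 =
      algebraMap R₁ ↥B π * ((Units.map (algebraMap R₁ ↥B).toMonoidHom w : (↥B)ˣ) : ↥B) := by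
    rw [coeff_map, h0, map_mul]; rfl
  have hrootB : aeval ϖ (E.map (algebraMap R₁ ↥B)) = 0 := by
    rw [aeval_map_algebraMap]; exact hroot
  have hyB : ∃ (m : ℕ) (y : F₂), IsIntegral ↥B y ∧
      y * aeval ϖ (derivative (E.map (algebraMap R₁ ↥B))) =
        algebraMap ↥B F₂ (algebraMap R₁ ↥B π ^ m) := by
    obtain ⟨m, y, hyint, hyeq⟩ := hy
    refine ⟨m, y, hyint.tower_top, ?_⟩
    rw [derivative_map, aeval_map_algebraMap, hyeq, ← map_pow,
      ← IsScalarTower.algebraMap_apply R₁ ↥B F₂]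
  obtain ⟨b, z', hz', hzz'⟩ := AdjoinUnif34.exists_eq_add_mul_of_eisenstein (B := ↥B) O1
    (fun b => le1 b b.2) (π := algebraMap R₁ ↥B π) nonunit1 unif1 hEB (by rw [hdegB]; exact hdeg)
    hlowB h0B
    (dvd_of_dvd_pow_of_sat π B O1 O2 le1 le2 nonunit1 nonunit2 unif1 unif2 sat)
    hrootB hgen hyB z hz
  exact ⟨b, b.2, z', hz', hzz'⟩

end TheoremA

section TheoremB

variable {R₁ R₂ F₁ F₂ : Type*} [CommRing R₁] [CommRing R₂] [Field F₁] [Field F₂] [Algebra R₁ R₂]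
  [Algebra R₁ F₁] [Algebra R₂ F₂] [Algebra F₁ F₂] [Algebra R₁ F₂] [IsScalarTower R₁ F₁ F₂]
  [IsScalarTower R₁ R₂ F₂]

/-- **Theorem B.**  If `R₂` is integral over `R₁`, then everything in `F₂` integral over
`R₂[t]` is integral over `R₁[t]`. -/
theorem isIntegral_adjoin_of_isIntegral_adjoin (hint : ∀ r : R₂, IsIntegral R₁ r) (t : F₁)
    {z : F₂} (hz : IsIntegral (Algebra.adjoin R₂ {algebraMap F₁ F₂ t}) z) :
    IsIntegral (Algebra.adjoin R₁ {t}) z := by
  haveI : IsScalarTower R₁ (Algebra.adjoin R₁ {t}) F₂ := IsScalarTower.of_algebraMap_eq (fun r => by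
    rw [IsScalarTower.algebraMap_apply R₁ F₁ F₂]; rfl)
  have key : ∀ s ∈ Algebra.adjoin R₂ {algebraMap F₁ F₂ t},
      IsIntegral (Algebra.adjoin R₁ {t}) s := by
    intro s hs
    induction hs using Algebra.adjoin_induction with
    | mem x hx =>
      rw [Set.mem_singleton_iff.mp hx]
      exact isIntegral_algebraMap (R := Algebra.adjoin R₁ {t})
        (x := ⟨t, Algebra.self_mem_adjoin_singleton R₁ t⟩)
    | algebraMap r =>
      have h1 : IsIntegral R₁ (algebraMap R₂ F₂ r) := (hint r).algebraMap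
      exact h1.tower_top
    | add x y _ _ hx hy => exact hx.add hy
    | mul x y _ _ hx hy => exact hx.mul hy
  obtain ⟨p, hp, hpz⟩ := hz
  apply isIntegral_of_monic_of_coeff_isIntegral
    (P := p.map (algebraMap (Algebra.adjoin R₂ {algebraMap F₁ F₂ t}) F₂)) (hp.map _)
  · intro i
    rw [coeff_map]
    exact key _ (p.coeff i).2
  · rw [eval_map]; exact hpz

/-- hence over every subalgebra of `F₁` containing `R₁[t]` (e.g. the chart). -/
theorem isIntegral_subalgebra_of_isIntegral_adjoin (hint : ∀ r : R₂, IsIntegral R₁ r) (t : F₁)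
    (B : Subalgebra R₁ F₁) (hB : Algebra.adjoin R₁ {t} ≤ B)
    {z : F₂} (hz : IsIntegral (Algebra.adjoin R₂ {algebraMap F₁ F₂ t}) z) : IsIntegral ↥B z :=
  isIntegral_subalgebra_mono hB (isIntegral_adjoin_of_isIntegral_adjoin hint t hz)

/-- the image of an element integral over `R₁[t]` is integral over `R₂[t]`. -/
theorem isIntegral_adjoin_map (t : F₁) {x : F₁} (hx : IsIntegral (Algebra.adjoin R₁ {t}) x) :
    IsIntegral (Algebra.adjoin R₂ {algebraMap F₁ F₂ t}) (algebraMap F₁ F₂ x) := by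
  have key : ∀ a ∈ Algebra.adjoin R₁ {t},
      algebraMap F₁ F₂ a ∈ Algebra.adjoin R₂ {algebraMap F₁ F₂ t} := by
    intro a ha
    induction ha using Algebra.adjoin_induction with
    | mem x hx =>
      rw [Set.mem_singleton_iff.mp hx]
      exact Algebra.self_mem_adjoin_singleton R₂ _
    | algebraMap r =>
      rw [← IsScalarTower.algebraMap_apply R₁ F₁ F₂, IsScalarTower.algebraMap_apply R₁ R₂ F₂]
      exact Subalgebra.algebraMap_mem _ _
    | add x y _ _ hx hy => rw [map_add]; exact Subalgebra.add_mem _ hx hy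
    | mul x y _ _ hx hy => rw [map_mul]; exact Subalgebra.mul_mem _ hx hy
  obtain ⟨p, hp, hpx⟩ := hx
  apply isIntegral_subalgebra_of_coeff_mem (R₁ := R₂) (F₁ := F₂) (F₂ := F₂)
    (Algebra.adjoin R₂ {algebraMap F₁ F₂ t})
    (P := (p.map (algebraMap (Algebra.adjoin R₁ {t}) F₁)).map (algebraMap F₁ F₂))
    ((hp.map _).map _)
  · intro i
    rw [coeff_map, coeff_map]
    exact key _ (p.coeff i).2
  · rw [aeval_map_algebraMap, aeval_algebraMap_apply, aeval_def, eval₂_map]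
    have h1 : (algebraMap F₁ F₁).comp (algebraMap (Algebra.adjoin R₁ {t}) F₁) =
        algebraMap (Algebra.adjoin R₁ {t}) F₁ := rfl
    rw [h1, hpx, map_zero]

end TheoremB

end Fermat.Agent.M1.Base.ChartDecomp34
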