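/-
Program M1 (S44, row 38), chapter BASE, brick `ChartBCAbs34` (helper34).

ABSTRACT CHART BASE CHANGE between two `NodalCore13.NodalTwoChartModel`s.

`R₁ ⊂ R₂` (`R₂` a DVR integral over `R₁`), `F₁ ⊂ F₂` fields, a nodal two-chart model over `R₁`
in `F₁` (with fraction-field data) and one over `R₂` in `F₂` for the same `t`; `π₂` is a root of
an Eisenstein polynomial `E` over `R₁` (w.r.t. `π₁`), `π₁ = unit * π₂ ^ e`, `F₂ = F₁(π₂)`, the
Gauss rings of `F₁` map into those of `F₂`.  Then (`Concl`):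

* `decomp0/decomp1` : every `z ∈ B_i(F₂)` is `b + π₂ z'` with `b ∈ B_i(F₁)`, `z' ∈ B_i(F₂)`;
* `map0/map1` : `B_i(F₁) → B_i(F₂)`;
* `compat1/compat2` : `O_j(F₂) ∩ F₁ = O_j(F₁)`.
(the inputs `map_mem`, `decomp`, `compat_j` of `Node/BaseNode25.RamBase` / `BridgeL25`.)
-/
import Mathlib
import Fermat.Agent.ES.N34.NodalCore13
import Fermat.Agent.M1.Base.ChartDecomp34

set_option autoImplicit false
set_option linter.unusedSectionVars false
set_option linter.unusedVariables false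
set_option linter.style.haveILetI false

namespace Fermat.Agent.M1.Base.ChartBCAbs34

open Polynomial
open Fermat.Agent.ES.N34.NodalCore13

/-! ### Compatibility of valuation rings -/

section Val

/-- a valuation ring `V₂` of `F₂` which contains the image of a valuation ring `V₁` of `F₁` with
uniformiser `p`, and in which `p` is not a unit, restricts to `V₁`. -/
theorem comap_eq_of_le {F₁ F₂ : Type*} [Field F₁] [Field F₂] (φ : F₁ →+* F₂)
    (V₁ : ValuationSubring F₁) (V₂ : ValuationSubring F₂) (p : F₁)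
    (hmono : ∀ z ∈ V₁, φ z ∈ V₂)
    (hunif : ∀ x ∈ V₁, x⁻¹ ∉ V₁ → ∃ c ∈ V₁, x = p * c)
    (hp : (φ p)⁻¹ ∉ V₂) (z : F₁) : φ z ∈ V₂ ↔ z ∈ V₁ := by
  refine ⟨fun hz => ?_, hmono z⟩
  by_contra hzV
  have hz0 : z ≠ 0 := by
    rintro rfl
    exact hzV V₁.zero_mem
  have hinv : z⁻¹ ∈ V₁ := (V₁.mem_or_inv_mem z).resolve_left hzV
  obtain ⟨c, hc, hzc⟩ := hunif z⁻¹ hinv (by rwa [inv_inv])
  apply hp
  have h1 : φ z * (φ p * φ c) = 1 := by
    rw [← map_mul, ← map_mul, ← hzc, mul_inv_cancel₀ hz0, map_one]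
  have h2 : (φ p)⁻¹ = φ z * φ c := by
    apply inv_eq_of_mul_eq_one_right
    rw [← h1]; ring
  rw [h2]
  exact V₂.mul_mem _ _ hz (hmono c hc)

/-- a power of a non-unit times a nonzero element of `V` is a non-unit. -/
theorem inv_mul_pow_not_mem {F : Type*} [Field F] (V : ValuationSubring F) {a b : F}
    (ha : a ∈ V) (ha0 : a ≠ 0) (hb : b ∈ V) (hbn : b⁻¹ ∉ V) {e : ℕ} (he : 0 < e) :
    (a * b ^ e)⁻¹ ∉ V := by
  intro h
  apply hbn
  have hb0 : b ≠ 0 := by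
    rintro rfl
    exact hbn (by rw [inv_zero]; exact V.zero_mem)
  obtain ⟨e', rfl⟩ : ∃ e', e = e' + 1 := ⟨e - 1, by omega⟩
  have h1 : b⁻¹ = a * b ^ e' * (a * b ^ (e' + 1))⁻¹ := by
    rw [pow_succ, mul_inv, mul_inv]
    field_simp
  rw [h1]
  exact V.mul_mem _ _ (V.mul_mem _ _ ha (pow_mem hb e')) h

end Val

section LemmaC

variable {R₁ R₂ F₁ F₂ : Type*} [CommRing R₁] [CommRing R₂] [Field F₁] [Field F₂] [Algebra R₁ R₂]
  [Algebra R₁ F₁] [Algebra R₂ F₂] [Algebra F₁ F₂] [Algebra R₁ F₂] [IsScalarTower R₁ F₁ F₂]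
  [IsScalarTower R₁ R₂ F₂]

/-- an element of `F₂` integral over a chart `B ⊆ F₁` (itself integral over `R₁[t]`) is integral
over `R₂[t]`. -/
theorem isIntegral_adjoin_of_isIntegral_chart (t : F₁) (B : Subalgebra R₁ F₁)
    (hB : ∀ x ∈ B, IsIntegral (Algebra.adjoin R₁ {t}) x) {z : F₂} (hz : IsIntegral ↥B z) :
    IsIntegral (Algebra.adjoin R₂ {algebraMap F₁ F₂ t}) z := by
  obtain ⟨P, hP, hc, hPz⟩ := ChartDecomp34.exists_monic_of_isIntegral_subalgebra B hz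
  apply ChartDecomp34.isIntegral_of_monic_of_coeff_isIntegral (P := P.map (algebraMap F₁ F₂))
    (hP.map _)
  · intro i
    rw [coeff_map]
    exact ChartDecomp34.isIntegral_adjoin_map t (hB _ (hc i))
  · rw [eval_map, ← aeval_def]
    exact hPz

/-- membership in an integrally closed chart `B' ∋ t'` from integrality over `R₂[t']`. -/
theorem mem_of_isIntegral_adjoin {t' : F₂} (B' : Subalgebra R₂ F₂) (ht' : t' ∈ B')
    (intcl : ∀ x : F₂, IsIntegral B' x → x ∈ B') {z : F₂}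
    (hz : IsIntegral (Algebra.adjoin R₂ {t'}) z) : z ∈ B' := by
  apply intcl
  have hle : Algebra.adjoin R₂ {t'} ≤ B' := by
    rw [Algebra.adjoin_le_iff]
    intro x hx
    rw [Set.mem_singleton_iff.mp hx]
    exact ht'
  exact ChartDecomp34.isIntegral_subalgebra_mono (F₂ := F₂) hle hz

end LemmaC

/-! ### The bundle -/

section Main

variable {R₁ R₂ F₁ F₂ : Type*} [CommRing R₁] [CommRing R₂] [IsDomain R₂]
  [IsDiscreteValuationRing R₂] [Field F₁] [Field F₂] [Algebra R₁ R₂]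
  [Algebra R₁ F₁] [Algebra R₂ F₂] [Algebra F₁ F₂] [Algebra R₁ F₂] [IsScalarTower R₁ F₁ F₂]
  [IsScalarTower R₁ R₂ F₂] [CharZero F₁]

/-- **The conclusions of chart base change.** -/
structure Concl (B0 B1 : Subalgebra R₁ F₁) (O1 O2 : ValuationSubring F₁)
    (B0' B1' : Subalgebra R₂ F₂) (O1' O2' : ValuationSubring F₂) (ϖ : F₂) : Prop where
  decomp0 : ∀ z ∈ B0', ∃ b ∈ B0, ∃ z' ∈ B0', z = algebraMap F₁ F₂ b + ϖ * z'
  decomp1 : ∀ z ∈ B1', ∃ b ∈ B1, ∃ z' ∈ B1', z = algebraMap F₁ F₂ b + ϖ * z'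
  map0 : ∀ b ∈ B0, algebraMap F₁ F₂ b ∈ B0'
  map1 : ∀ b ∈ B1, algebraMap F₁ F₂ b ∈ B1'
  compat1 : ∀ z : F₁, algebraMap F₁ F₂ z ∈ O1' ↔ z ∈ O1
  compat2 : ∀ z : F₁, algebraMap F₁ F₂ z ∈ O2' ↔ z ∈ O2

/-- **Abstract chart base change.** -/
theorem chartBC {π₁ : R₁} {π₂ : R₂} (hirr : Irreducible π₂) {t : F₁}
    {B0 B1 : Subalgebra R₁ F₁} {O1 O2 : ValuationSubring F₁}
    {B0' B1' : Subalgebra R₂ F₂} {O1' O2' : ValuationSubring F₂}
    (DK : NodalTwoChartModel R₁ F₁ π₁ t B0 B1 O1 O2)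
    (frac0 : ∀ x : F₁, ∃ a ∈ B0, ∃ b ∈ B0, b ≠ 0 ∧ x * b = a)
    (frac1 : ∀ x : F₁, ∃ a ∈ B1, ∃ b ∈ B1, b ≠ 0 ∧ x * b = a)
    (DL : NodalTwoChartModel R₂ F₂ π₂ (algebraMap F₁ F₂ t) B0' B1' O1' O2')
    (hint : ∀ r : R₂, IsIntegral R₁ r)
    {e : ℕ} (he : 0 < e) {E : R₁[X]} (hEm : E.Monic) (hEdeg : E.natDegree = e)
    (hroot : E.eval₂ (algebraMap R₁ R₂) π₂ = 0)
    (hder : (derivative E).eval₂ (algebraMap R₁ R₂) π₂ ≠ 0)
    (hlow : ∀ i < e, π₁ ∣ E.coeff i) {w : R₁ˣ} (h0 : E.coeff 0 = π₁ * w)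
    {u : R₂ˣ} (hπe : algebraMap R₁ R₂ π₁ = u * π₂ ^ e)
    (hgen : IntermediateField.adjoin F₁ {algebraMap R₂ F₂ π₂} = ⊤)
    (hmono1 : ∀ z ∈ O1, algebraMap F₁ F₂ z ∈ O1') (hmono2 : ∀ z ∈ O2, algebraMap F₁ F₂ z ∈ O2') :
    Concl B0 B1 O1 O2 B0' B1' O1' O2' (algebraMap R₂ F₂ π₂) := by
  classical
  set ϖ : F₂ := algebraMap R₂ F₂ π₂ with hϖ
  have hmapRL : algebraMap R₁ F₂ = (algebraMap R₂ F₂).comp (algebraMap R₁ R₂) :=
    IsScalarTower.algebraMap_eq R₁ R₂ F₂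
  have haeval : ∀ p : R₁[X], aeval ϖ p = algebraMap R₂ F₂ (p.eval₂ (algebraMap R₁ R₂) π₂) := by
    intro p
    rw [aeval_def, hmapRL, hϖ, ← hom_eval₂]
  have hrootF : aeval ϖ E = 0 := by rw [haeval, hroot, map_zero]
  have hintϖ : IsIntegral F₁ ϖ := by
    have h1 : IsIntegral R₁ ϖ := ⟨E, hEm, by rw [← aeval_def]; exact hrootF⟩
    exact h1.tower_top
  haveI hfinF : FiniteDimensional F₁ F₂ := by
    haveI h1 : FiniteDimensional F₁ (IntermediateField.adjoin F₁ {ϖ}) :=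
      IntermediateField.adjoin.finiteDimensional hintϖ
    rw [hgen] at h1
    exact Module.Finite.equiv (IntermediateField.topEquiv (F := F₁) (E := F₂)).toLinearEquiv
  haveI : Algebra.IsSeparable F₁ F₂ := inferInstance
  -- the element `π₁ ^ m / E'(π₂)`
  have hy : ∃ (m : ℕ) (y : F₂), IsIntegral R₁ y ∧
      y * aeval ϖ (derivative E) = algebraMap R₁ F₂ (π₁ ^ m) := by
    set d : R₂ := (derivative E).eval₂ (algebraMap R₁ R₂) π₂ with hd
    obtain ⟨k, u', hu'⟩ := IsDiscreteValuationRing.eq_unit_mul_pow_irreducible hder hirr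
    have hek : k ≤ e * k := Nat.le_mul_of_pos_left k he
    refine ⟨k, algebraMap R₂ F₂ ((u : R₂) ^ k * ((u'⁻¹ : R₂ˣ) : R₂) * π₂ ^ (e * k - k)),
      (hint _).algebraMap, ?_⟩
    rw [haeval, ← hd, ← map_mul, IsScalarTower.algebraMap_apply R₁ R₂ F₂, map_pow]
    congr 1
    rw [hπe, hu', mul_pow, ← pow_mul]
    have h1 : π₂ ^ (e * k) = π₂ ^ (e * k - k) * π₂ ^ k := by
      rw [← _root_.pow_add, Nat.sub_add_cancel hek]
    rw [h1]
    have h2 : ((u'⁻¹ : R₂ˣ) : R₂) * (u' : R₂) = 1 := Units.inv_mul u'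
    linear_combination ((u : R₂) ^ k * π₂ ^ (e * k - k) * π₂ ^ k) * h2
  have hEdeg' : 0 < E.natDegree := by rw [hEdeg]; exact he
  have hlow' : ∀ i < E.natDegree, π₁ ∣ E.coeff i := by
    intro i hi; exact hlow i (by rw [← hEdeg]; exact hi)
  have htinv : algebraMap F₁ F₂ t⁻¹ = (algebraMap F₁ F₂ t)⁻¹ := map_inv₀ _ _
  -- the uniformiser of `R₁` is not a unit of `O_j'`
  have hconst1 : ∀ r : R₂, algebraMap R₂ F₂ r ∈ O1' :=
    fun r => DL.le_O1_0 _ (Subalgebra.algebraMap_mem _ r)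
  have hconst2 : ∀ r : R₂, algebraMap R₂ F₂ r ∈ O2' :=
    fun r => DL.le_O2_0 _ (Subalgebra.algebraMap_mem _ r)
  have hu0 : algebraMap R₂ F₂ (u : R₂) ≠ 0 := by
    intro h
    have h2 : algebraMap R₂ F₂ ((u : R₂) * ((u⁻¹ : R₂ˣ) : R₂)) = 0 := by
      rw [map_mul, h, zero_mul]
    rw [Units.mul_inv, map_one] at h2
    exact one_ne_zero h2
  have hpi_eq : algebraMap F₁ F₂ (algebraMap R₁ F₁ π₁) =
      algebraMap R₂ F₂ (u : R₂) * algebraMap R₂ F₂ π₂ ^ e := by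
    rw [← IsScalarTower.algebraMap_apply R₁ F₁ F₂, IsScalarTower.algebraMap_apply R₁ R₂ F₂, hπe,
      map_mul, map_pow]
  have hpi1 : (algebraMap F₁ F₂ (algebraMap R₁ F₁ π₁))⁻¹ ∉ O1' := by
    rw [hpi_eq]
    exact inv_mul_pow_not_mem _ (hconst1 _) hu0 (hconst1 _) DL.pi_nonunit1 he
  have hpi2 : (algebraMap F₁ F₂ (algebraMap R₁ F₁ π₁))⁻¹ ∉ O2' := by
    rw [hpi_eq]
    exact inv_mul_pow_not_mem _ (hconst2 _) hu0 (hconst2 _) DL.pi_nonunit2 he
  refine ⟨?_, ?_, ?_, ?_,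
    comap_eq_of_le (algebraMap F₁ F₂) O1 O1' _ hmono1 DK.unif1 hpi1,
    comap_eq_of_le (algebraMap F₁ F₂) O2 O2' _ hmono2 DK.unif2 hpi2⟩
  · -- decomp0
    intro z hz
    have hz' : IsIntegral (Algebra.adjoin R₂ {algebraMap F₁ F₂ t}) z := DL.int0 z hz
    have hzB : IsIntegral ↥B0 z :=
      ChartDecomp34.isIntegral_subalgebra_of_isIntegral_adjoin hint t B0
        (by
          rw [Algebra.adjoin_le_iff]
          intro x hx
          rw [Set.mem_singleton_iff.mp hx]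
          exact DK.t_mem) hz'
    obtain ⟨b, hb, z', hz'int, hzz'⟩ := ChartDecomp34.exists_eq_add_mul π₁ B0 O1 O2 DK.intcl0
      frac0 DK.le_O1_0 DK.le_O2_0 DK.pi_nonunit1 DK.pi_nonunit2 DK.unif1 DK.unif2 DK.sat0 hEm
      hEdeg' hlow' h0 hrootF hgen hy z hzB
    refine ⟨b, hb, z', ?_, hzz'⟩
    exact mem_of_isIntegral_adjoin B0' DL.t_mem DL.intcl0
      (isIntegral_adjoin_of_isIntegral_chart (R₂ := R₂) t B0 DK.int0 hz'int)
  · -- decomp1
    intro z hz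
    have hz' : IsIntegral (Algebra.adjoin R₂ {algebraMap F₁ F₂ t⁻¹}) z := by
      rw [htinv]; exact DL.int1 z hz
    have hzB : IsIntegral ↥B1 z :=
      ChartDecomp34.isIntegral_subalgebra_of_isIntegral_adjoin hint t⁻¹ B1
        (by
          rw [Algebra.adjoin_le_iff]
          intro x hx
          rw [Set.mem_singleton_iff.mp hx]
          exact DK.tinv_mem) hz'
    obtain ⟨b, hb, z', hz'int, hzz'⟩ := ChartDecomp34.exists_eq_add_mul π₁ B1 O1 O2 DK.intcl1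
      frac1 DK.le_O1_1 DK.le_O2_1 DK.pi_nonunit1 DK.pi_nonunit2 DK.unif1 DK.unif2 DK.sat1 hEm
      hEdeg' hlow' h0 hrootF hgen hy z hzB
    refine ⟨b, hb, z', ?_, hzz'⟩
    have h1 := isIntegral_adjoin_of_isIntegral_chart (R₂ := R₂) (F₂ := F₂) t⁻¹ B1 DK.int1 hz'int
    rw [htinv] at h1
    exact mem_of_isIntegral_adjoin B1' DL.tinv_mem DL.intcl1 h1
  · -- map0
    intro b hb
    exact mem_of_isIntegral_adjoin B0' DL.t_mem DL.intcl0
      (ChartDecomp34.isIntegral_adjoin_map (R₂ := R₂) (F₂ := F₂) t (DK.int0 b hb))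
  · -- map1
    intro b hb
    have h1 := ChartDecomp34.isIntegral_adjoin_map (R₂ := R₂) (F₂ := F₂) t⁻¹ (DK.int1 b hb)
    rw [htinv] at h1
    exact mem_of_isIntegral_adjoin B1' DL.tinv_mem DL.intcl1 h1

end Main

end Fermat.Agent.M1.Base.ChartBCAbs34
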