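/-
M1 (S44), chapter BASE (helper73), RAT-NODES part 2 (abstract, Mathlib only): **adjoining a root of
unity of invertible order to an integrally closed domain gives the integral closure.**

`B` an integrally closed domain with fraction field `F₁`, `F₂ = F₁(ζ)` a finite separable extension
with power basis `pb`, `pb.gen ^ m = 1` and `m` a unit of `B`.  Then the discriminant of `pb` is a
unit of `B` (`exists_discr_inv`) and every element of `F₂` integral over `B` lies in `B[ζ]`
(`mem_adjoin_of_isIntegral`, via Mathlib's `Algebra.discr_mul_isIntegral_mem_adjoin`).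
-/
import Mathlib

set_option autoImplicit false
set_option linter.unusedSectionVars false
set_option linter.style.haveILetI false

namespace Fermat.Agent.M1.Base.EtaleAdjoin73

open Polynomial

variable {B F₁ F₂ : Type*} [CommRing B] [IsDomain B] [IsIntegrallyClosed B] [Field F₁] [Field F₂]
  [Algebra B F₁] [IsFractionRing B F₁] [Algebra F₁ F₂] [Algebra B F₂] [IsScalarTower B F₁ F₂]

omit [IsDomain B] [IsIntegrallyClosed B] [IsFractionRing B F₁] [IsScalarTower B F₁ F₂] in
/-- A root of unity is integral. -/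
theorem isIntegral_of_pow_eq_one {ζ : F₂} {m : ℕ} (hm : m ≠ 0) (hζ : ζ ^ m = 1) :
    IsIntegral B ζ := by
  refine ⟨X ^ m - C 1, monic_X_pow_sub_C 1 hm, ?_⟩
  rw [eval₂_sub, eval₂_pow, eval₂_X, eval₂_C, map_one, hζ, sub_self]

omit [IsDomain B] [IsIntegrallyClosed B] [IsFractionRing B F₁] [IsScalarTower B F₁ F₂] in
/-- Polynomial expressions in an integral element are integral. -/
theorem isIntegral_aeval {ζ : F₂} (hint : IsIntegral B ζ) (p : B[X]) :
    IsIntegral B (aeval ζ p) := by
  have hle : Algebra.adjoin B ({ζ} : Set F₂) ≤ integralClosure B F₂ :=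
    Algebra.adjoin_le (Set.singleton_subset_iff.mpr hint)
  exact hle (aeval_mem_adjoin_singleton B ζ)

variable [Algebra.IsSeparable F₁ F₂]

/-- **The discriminant of a power basis generated by a root of unity of invertible order is a
unit.** -/
theorem exists_discr_inv (pb : PowerBasis F₁ F₂) {m : ℕ} (hm : IsUnit (m : B))
    (hζ : pb.gen ^ m = 1) : ∃ u : B, algebraMap B F₁ u * Algebra.discr F₁ pb.basis = 1 := by
  have hinj : Function.Injective (algebraMap B F₁) := IsFractionRing.injective B F₁
  have hm0 : m ≠ 0 := by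
    rintro rfl
    rw [Nat.cast_zero] at hm
    exact not_isUnit_zero hm
  set ζ := pb.gen with hζdef
  have hint : IsIntegral B ζ := isIntegral_of_pow_eq_one hm0 hζ
  haveI : Module.Finite F₁ F₂ := pb.finite
  haveI : FaithfulSMul B F₂ := by
    rw [faithfulSMul_iff_algebraMap_injective, IsScalarTower.algebraMap_eq B F₁ F₂]
    exact (algebraMap F₁ F₂).injective.comp hinj
  set f₀ := minpoly B ζ with hf₀
  have hroot : aeval ζ (X ^ m - C (1 : B)) = 0 := by
    rw [map_sub, map_pow, aeval_X, aeval_C, map_one, hζ, sub_self]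
  obtain ⟨g₀, hg₀⟩ := minpoly.isIntegrallyClosed_dvd hint hroot
  -- differentiate and evaluate at `ζ`
  have hder : C (m : B) * X ^ (m - 1) = derivative f₀ * g₀ + f₀ * derivative g₀ := by
    rw [← derivative_mul, ← hg₀, derivative_sub, derivative_X_pow, derivative_C, sub_zero,
      map_natCast]
  have hev : (m : F₂) * ζ ^ (m - 1) = aeval ζ (derivative f₀) * aeval ζ g₀ := by
    have := congrArg (aeval ζ) hder
    rw [map_mul, map_pow, aeval_X, aeval_C, map_natCast, map_add, map_mul, map_mul,
      minpoly.aeval, zero_mul, add_zero] at this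
    exact this
  -- norms
  set N := Algebra.norm F₁ (S := F₂) with hN
  have hNa := Algebra.isIntegral_norm F₁ (isIntegral_aeval hint (derivative f₀))
  have hNb := Algebra.isIntegral_norm F₁ (isIntegral_aeval hint g₀)
  have hNc := Algebra.isIntegral_norm F₁ hint
  obtain ⟨a, ha⟩ := IsIntegrallyClosed.isIntegral_iff.mp hNa
  obtain ⟨b, hb⟩ := IsIntegrallyClosed.isIntegral_iff.mp hNb
  obtain ⟨c, hc⟩ := IsIntegrallyClosed.isIntegral_iff.mp hNc
  set n := Module.finrank F₁ F₂ with hn
  have hcm : c ^ m = 1 := by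
    apply hinj
    rw [map_pow, hc, ← map_pow, hζ, map_one, map_one]
  have hab : a * b = (m : B) ^ n * c ^ (m - 1) := by
    apply hinj
    have hmm : ((m : F₂)) = algebraMap F₁ F₂ (m : F₁) := by rw [map_natCast]
    have hNm : Algebra.norm F₁ (m : F₂) = (m : F₁) ^ n := by
      rw [hmm, Algebra.norm_algebraMap]
    have hBm : algebraMap B F₁ (m : B) = (m : F₁) := map_natCast _ m
    calc algebraMap B F₁ (a * b)
        = Algebra.norm F₁ (aeval ζ (derivative f₀)) * Algebra.norm F₁ (aeval ζ g₀) := by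
          rw [map_mul, ha, hb]
      _ = Algebra.norm F₁ ((m : F₂) * ζ ^ (m - 1)) := by rw [← map_mul, ← hev]
      _ = (m : F₁) ^ n * (Algebra.norm F₁ ζ) ^ (m - 1) := by rw [map_mul, map_pow, hNm]
      _ = algebraMap B F₁ ((m : B) ^ n * c ^ (m - 1)) := by
          rw [map_mul, map_pow, map_pow, hc, hBm]
  have hcu : IsUnit c := by
    refine IsUnit.of_mul_eq_one (c ^ (m - 1)) ?_
    rw [← pow_succ', Nat.sub_add_cancel (Nat.one_le_iff_ne_zero.mpr hm0), hcm]
  have hau : IsUnit a := by
    have h1 : IsUnit (a * b) := by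
      rw [hab]
      exact (hm.pow n).mul (hcu.pow (m - 1))
    exact isUnit_of_mul_isUnit_left h1
  obtain ⟨a', ha'⟩ := hau.exists_right_inv
  -- the discriminant
  have hmin : minpoly F₁ ζ = f₀.map (algebraMap B F₁) :=
    minpoly.isIntegrallyClosed_eq_field_fractions' F₁ hint
  have hdisc : Algebra.discr F₁ pb.basis = (-1) ^ (n * (n - 1) / 2) * algebraMap B F₁ a := by
    rw [Algebra.discr_powerBasis_eq_norm, ← hζdef, hmin, derivative_map, aeval_map_algebraMap, ha]
  refine ⟨(-1) ^ (n * (n - 1) / 2) * a', ?_⟩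
  rw [hdisc, map_mul, map_pow, map_neg, map_one]
  have h1 : algebraMap B F₁ a' * algebraMap B F₁ a = 1 := by
    rw [← map_mul, mul_comm, ha', map_one]
  have h2 : ((-1 : F₁) ^ (n * (n - 1) / 2)) * (-1) ^ (n * (n - 1) / 2) = 1 := by
    rw [← mul_pow, neg_one_mul, neg_neg, one_pow]
  calc (-1 : F₁) ^ (n * (n - 1) / 2) * algebraMap B F₁ a' *
        ((-1) ^ (n * (n - 1) / 2) * algebraMap B F₁ a)
      = ((-1 : F₁) ^ (n * (n - 1) / 2) * (-1) ^ (n * (n - 1) / 2)) *
          (algebraMap B F₁ a' * algebraMap B F₁ a) := by ring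
    _ = 1 := by rw [h1, h2, one_mul]

/-- **`B[ζ]` is the integral closure of `B` in `F₂ = F₁(ζ)`** for a root of unity `ζ` of
invertible order. -/
theorem mem_adjoin_of_isIntegral (pb : PowerBasis F₁ F₂) {m : ℕ} (hm : IsUnit (m : B))
    (hζ : pb.gen ^ m = 1) {z : F₂} (hz : IsIntegral B z) :
    z ∈ Algebra.adjoin B ({pb.gen} : Set F₂) := by
  have hm0 : m ≠ 0 := by
    rintro rfl
    rw [Nat.cast_zero] at hm
    exact not_isUnit_zero hm
  have hint : IsIntegral B pb.gen := isIntegral_of_pow_eq_one hm0 hζ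
  haveI : Module.Finite F₁ F₂ := pb.finite
  obtain ⟨u, hu⟩ := exists_discr_inv pb hm hζ
  have h1 : Algebra.discr F₁ pb.basis • z ∈ Algebra.adjoin B ({pb.gen} : Set F₂) :=
    Algebra.discr_mul_isIntegral_mem_adjoin F₁ hint hz
  have h2 : z = u • (Algebra.discr F₁ pb.basis • z) := by
    rw [← algebraMap_smul F₁ u, smul_smul, hu, one_smul]
  rw [h2]
  exact Subalgebra.smul_mem _ h1 u

end Fermat.Agent.M1.Base.EtaleAdjoin73
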