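/-
M1 (S44), chapter BASE (helper73), RAT-NODES part 3 (abstract): **generation of the chart over an
unramified cyclotomic base change.**

`B₁ ⊆ F₁` an integrally closed chart with fraction field `F₁` in which `m` is invertible,
`F₂ = F₁(ζ)` with `ζ ∈ R₂`, `ζ ^ m = 1`.  If `z ∈ F₂` becomes integral over `B₁` after multiplication
by a unit `s` of `R₂`, then `z` lies in the subring of `F₂` generated by `R₂` and the image of `B₁`
(= the hypothesis `gen` of `RatNodes73.EtaleBC`).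
-/
import Mathlib
import Fermat.Agent.M1.Base.EtaleAdjoin73

set_option autoImplicit false
set_option linter.unusedSectionVars false
set_option linter.style.haveILetI false

namespace Fermat.Agent.M1.Base.EtaleGen73

open Polynomial

variable {R₁ R₂ F₁ F₂ : Type*} [CommRing R₁] [CommRing R₂] [Field F₁] [Field F₂]
  [Algebra R₁ F₁] [Algebra R₂ F₂] [Algebra F₁ F₂] [CharZero F₁]

/-- **Generation.** -/
theorem mem_closure_of_isIntegral (B₁ : Subalgebra R₁ F₁)
    (intcl : ∀ x : F₁, IsIntegral B₁ x → x ∈ B₁)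
    (frac : ∀ x : F₁, ∃ a ∈ B₁, ∃ b ∈ B₁, b ≠ 0 ∧ x * b = a)
    (ζ : R₂) {m : ℕ} (hζ : ζ ^ m = 1) (hm : ∃ u ∈ B₁, (m : F₁) * u = 1)
    (hgenF : IntermediateField.adjoin F₁ {algebraMap R₂ F₂ ζ} = ⊤)
    {z : F₂} {s s' : R₂} (hs : s' * s = 1)
    (hsz : IsIntegral ↥B₁ (algebraMap R₂ F₂ s * z)) :
    z ∈ Subring.closure (Set.range (algebraMap R₂ F₂) ∪ algebraMap F₁ F₂ '' (B₁ : Set F₁)) := by
  classical
  set T : Subring F₂ :=
    Subring.closure (Set.range (algebraMap R₂ F₂) ∪ algebraMap F₁ F₂ '' (B₁ : Set F₁)) with hT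
  have hR : ∀ r : R₂, algebraMap R₂ F₂ r ∈ T := fun r =>
    Subring.subset_closure (Or.inl ⟨r, rfl⟩)
  have hB : ∀ b ∈ B₁, algebraMap F₁ F₂ b ∈ T := fun b hb =>
    Subring.subset_closure (Or.inr ⟨b, hb, rfl⟩)
  -- instances on the chart
  haveI hfrac : IsFractionRing ↥B₁ F₁ := by
    refine IsFractionRing.of_field ↥B₁ F₁ fun x => ?_
    obtain ⟨a, ha, b, hb, hb0, hab⟩ := frac x
    refine ⟨⟨a, ha⟩, ⟨b, hb⟩, ?_⟩
    show x = a / b
    rw [eq_div_iff hb0, hab]
  haveI hic : IsIntegrallyClosed ↥B₁ := by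
    refine (isIntegrallyClosed_iff F₁).mpr fun {x} hx => ?_
    exact ⟨⟨x, intcl x hx⟩, rfl⟩
  -- the root of unity
  set ζ' : F₂ := algebraMap R₂ F₂ ζ with hζ'
  have hζ'm : ζ' ^ m = 1 := by rw [hζ', ← map_pow, hζ, map_one]
  have hm0 : m ≠ 0 := by
    rintro rfl
    obtain ⟨u, -, hu⟩ := hm
    rw [Nat.cast_zero, zero_mul] at hu
    exact zero_ne_one hu
  have hintζ : IsIntegral F₁ ζ' := by
    refine ⟨X ^ m - C 1, monic_X_pow_sub_C 1 hm0, ?_⟩
    rw [eval₂_sub, eval₂_pow, eval₂_X, eval₂_C, map_one, hζ'm, sub_self]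
  haveI hfinF : FiniteDimensional F₁ F₂ := by
    haveI h1 : FiniteDimensional F₁ (IntermediateField.adjoin F₁ {ζ'}) :=
      IntermediateField.adjoin.finiteDimensional hintζ
    rw [hgenF] at h1
    exact Module.Finite.equiv (IntermediateField.topEquiv (F := F₁) (E := F₂)).toLinearEquiv
  haveI : Algebra.IsSeparable F₁ F₂ := inferInstance
  -- the power basis generated by `ζ'`
  let e : (IntermediateField.adjoin F₁ {ζ'}) ≃ₐ[F₁] F₂ :=
    (IntermediateField.equivOfEq hgenF).trans IntermediateField.topEquiv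
  let pb : PowerBasis F₁ F₂ := (IntermediateField.adjoin.powerBasis hintζ).map e
  have hpbgen : pb.gen = ζ' := by
    show e (IntermediateField.adjoin.powerBasis hintζ).gen = ζ'
    rw [IntermediateField.adjoin.powerBasis_gen]
    rfl
  have hunit : IsUnit ((m : ℕ) : ↥B₁) := by
    obtain ⟨u, hu, hmu⟩ := hm
    refine IsUnit.of_mul_eq_one (⟨u, hu⟩ : ↥B₁) ?_
    apply Subtype.ext
    push_cast
    exact hmu
  have h1 : algebraMap R₂ F₂ s * z ∈ Algebra.adjoin ↥B₁ ({pb.gen} : Set F₂) :=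
    EtaleAdjoin73.mem_adjoin_of_isIntegral pb hunit (by rw [hpbgen]; exact hζ'm) hsz
  -- `B₁[ζ'] ⊆ T`
  have h2 : ∀ y ∈ Algebra.adjoin ↥B₁ ({pb.gen} : Set F₂), y ∈ T := by
    intro y hy
    induction hy using Algebra.adjoin_induction with
    | mem x hx =>
      rw [Set.mem_singleton_iff.mp hx, hpbgen]
      exact hR ζ
    | algebraMap b => exact hB _ b.2
    | add x y _ _ hx hy => exact T.add_mem hx hy
    | mul x y _ _ hx hy => exact T.mul_mem hx hy
  have h3 : z = algebraMap R₂ F₂ s' * (algebraMap R₂ F₂ s * z) := by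
    rw [← mul_assoc, ← map_mul, hs, map_one, one_mul]
  rw [h3]
  exact T.mul_mem (hR s') (h2 _ h1)

end Fermat.Agent.M1.Base.EtaleGen73
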