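/-
M1 (S44) / ORD (S33), chapter BASE, RAT-NODES second seat (helper56): **the inertia part of
`L₀ ⊔ ℚ⟮z⟯`** for an inertia-fixed `z` (e.g. a root of unity of order prime to the residue
characteristic): `inertiaPart A (L₀ ⊔ ℚ⟮z⟯) = inertiaPart A L₀ ⊔ ℚ⟮z⟯` (the lemma asked for in
helper73's RAT-NODES plan: the cyclotomic enlargement of the field of the `L`-assembly does not change
the inertia group and enlarges the inertial subfield by `z` only).

* `inf_fixedField_inertia_sup_adjoin` (raw form over `Qbar`, no heavy imports): for `N` normal over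
  `ℚ` and `z` fixed by the inertia group `I_A`:
  `(N ⊔ ℚ⟮z⟯) ⊓ fixedField I_A = (N ⊓ fixedField I_A) ⊔ ℚ⟮z⟯`; both sides are `rfl`-equal to
  `InertField27.inertiaPart A _` (see `Base/InertiaPartSupInst56` for that literal form).
* `inf_fixedField_sup_adjoin` (Mathlib only, any fields `k ⊆ E`): for an intermediate field `N` stable
  under a subgroup `S` of `E ≃ₐ[k] E` and `z` integral over `k` fixed by `S`:
  `(N ⊔ k⟮z⟯) ⊓ fixedField S = (N ⊓ fixedField S) ⊔ k⟮z⟯`.
  Proof: `x = Σ_{j<d} a_j z^j` with unique `a_j ∈ N` (`d = deg minpoly_N z`); `τ x = Σ τ(a_j) z^j`.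
-/
import Mathlib
import Fermat.Prelude.Def_FLTPrelim_Ramification
import Fermat.Agent.Lib.FrobeniusExists

set_option autoImplicit false

open Polynomial IntermediateField

namespace Fermat.Agent.M1.Base.InertiaPartSup56

section Core

variable {k E : Type*} [Field k] [Field E] [Algebra k E]

/-- The restriction to a stable intermediate field of an automorphism. -/
def resHom (N : IntermediateField k E) (τ : E ≃ₐ[k] E) (h : ∀ x ∈ N, τ x ∈ N) : ↥N →+* ↥N where
  toFun a := ⟨τ a, h a a.2⟩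
  map_one' := Subtype.ext (by simp)
  map_mul' a b := Subtype.ext (by simp)
  map_zero' := Subtype.ext (by simp)
  map_add' a b := Subtype.ext (by simp)

@[simp] theorem coe_resHom (N : IntermediateField k E) (τ : E ≃ₐ[k] E) (h : ∀ x ∈ N, τ x ∈ N)
    (a : ↥N) : ((resHom N τ h a : ↥N) : E) = τ a := rfl

/-- `τ (Q(z)) = (τQ)(τ z)` for `Q ∈ N[X]`. -/
theorem apply_aeval (N : IntermediateField k E) (τ : E ≃ₐ[k] E) (h : ∀ x ∈ N, τ x ∈ N)
    (Q : (↥N)[X]) (z : E) :
    τ (aeval z Q) = aeval (τ z) (Q.map (resHom N τ h)) := by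
  rw [aeval_def, aeval_def, eval₂_map]
  have h1 : τ (eval₂ (algebraMap (↥N) E) z Q) =
      eval₂ ((τ : E →+* E).comp (algebraMap (↥N) E)) (τ z) Q :=
    Polynomial.hom_eval₂ Q (algebraMap (↥N) E) (τ : E →+* E) z
  rw [h1]
  rfl

/-- Every element of `N ⊔ k⟮z⟯` is a polynomial in `z` with coefficients in `N` of degree less than
the degree of the minimal polynomial of `z` over `N`. -/
theorem exists_aeval_eq_of_mem_sup (N : IntermediateField k E) {z : E} (hz : IsIntegral k z)
    {x : E} (hx : x ∈ N ⊔ k⟮z⟯) :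
    ∃ Q : (↥N)[X], Q.degree < (minpoly (↥N) z).degree ∧ aeval z Q = x := by
  have hzN : IsIntegral (↥N) z := hz.tower_top
  -- `x ∈ N⟮z⟯`
  have hle : N ⊔ k⟮z⟯ ≤ ((↥N)⟮z⟯).restrictScalars k := by
    refine sup_le ?_ ?_
    · intro y hy
      rw [IntermediateField.mem_restrictScalars]
      exact ((↥N)⟮z⟯).algebraMap_mem ⟨y, hy⟩
    · rw [IntermediateField.adjoin_simple_le_iff, IntermediateField.mem_restrictScalars]
      exact IntermediateField.mem_adjoin_simple_self (↥N) z
  have hx1 : x ∈ (↥N)⟮z⟯ := (IntermediateField.mem_restrictScalars k).mp (hle hx)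
  have hx2 : x ∈ Algebra.adjoin (↥N) ({z} : Set E) := by
    rw [← IntermediateField.adjoin_simple_toSubalgebra_of_isAlgebraic hzN.isAlgebraic]
    exact hx1
  rw [Algebra.adjoin_singleton_eq_range_aeval] at hx2
  obtain ⟨P, rfl⟩ := hx2
  refine ⟨P %ₘ minpoly (↥N) z, degree_modByMonic_lt _ (minpoly.monic hzN), ?_⟩
  exact aeval_modByMonic_eq_self_of_root (minpoly.aeval (↥N) z)

/-- **The fixed part of `N ⊔ k⟮z⟯`** under a group of automorphisms stabilising `N` and fixing `z`. -/
theorem inf_fixedField_sup_adjoin (N : IntermediateField k E) (S : Subgroup (E ≃ₐ[k] E))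
    (hN : ∀ τ ∈ S, ∀ x ∈ N, τ x ∈ N) (z : E) (hz : IsIntegral k z) (hfix : ∀ τ ∈ S, τ z = z) :
    (N ⊔ k⟮z⟯) ⊓ IntermediateField.fixedField S =
      (N ⊓ IntermediateField.fixedField S) ⊔ k⟮z⟯ := by
  have hzF : z ∈ IntermediateField.fixedField S :=
    (IntermediateField.mem_fixedField_iff _ _).mpr hfix
  apply le_antisymm
  · rintro x ⟨hx, hxS⟩
    have hxS' : ∀ τ ∈ S, τ x = x := (IntermediateField.mem_fixedField_iff _ _).mp hxS
    obtain ⟨Q, hQ, rfl⟩ := exists_aeval_eq_of_mem_sup N hz hx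
    -- the coefficients of `Q` are fixed
    have hcoeff : ∀ i, (Q.coeff i : E) ∈ N ⊓ IntermediateField.fixedField S := by
      intro i
      refine ⟨(Q.coeff i).2, (IntermediateField.mem_fixedField_iff _ _).mpr fun τ hτ => ?_⟩
      have h1 : aeval z (Q.map (resHom N τ (hN τ hτ)) - Q) = 0 := by
        rw [map_sub, sub_eq_zero]
        have := apply_aeval N τ (hN τ hτ) Q z
        rw [hfix τ hτ, hxS' τ hτ] at this
        exact this.symm
      have h2 : Q.map (resHom N τ (hN τ hτ)) - Q = 0 := by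
        by_contra hne
        have hle := minpoly.degree_le_of_ne_zero (↥N) z hne h1
        have hlt : (Q.map (resHom N τ (hN τ hτ)) - Q).degree < (minpoly (↥N) z).degree :=
          lt_of_le_of_lt (degree_sub_le _ _) (max_lt (lt_of_le_of_lt degree_map_le hQ) hQ)
        exact absurd hle (not_le.mpr hlt)
      have h3 : (Q.map (resHom N τ (hN τ hτ))).coeff i = Q.coeff i := by
        rw [sub_eq_zero.mp h2]
      rw [coeff_map] at h3
      have := congrArg (fun a : ↥N => (a : E)) h3
      simpa using this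
    rw [aeval_eq_sum_range]
    refine sum_mem fun i _ => ?_
    rw [Algebra.smul_def]
    refine mul_mem ?_ (pow_mem ?_ i)
    · exact (le_sup_left : N ⊓ IntermediateField.fixedField S ≤ _) (hcoeff i)
    · exact (le_sup_right : k⟮z⟯ ≤ (N ⊓ IntermediateField.fixedField S) ⊔ k⟮z⟯)
        (IntermediateField.mem_adjoin_simple_self k z)
  · refine sup_le (le_inf (inf_le_left.trans le_sup_left) inf_le_right) (le_inf le_sup_right ?_)
    rw [IntermediateField.adjoin_simple_le_iff]
    exact hzF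

end Core

/-! ### Over `Qbar`, for the inertia group of a valuation subring -/

section Qbar

open Fermat.Agent.Lib.FrobeniusExists

/-- A normal subfield of `Qbar` is stable under every automorphism. -/
theorem map_mem_of_normal (N : IntermediateField ℚ Qbar) [hN : Normal ℚ N] (τ : Qbar ≃ₐ[ℚ] Qbar)
    {x : Qbar} (hx : x ∈ N) : τ x ∈ N := by
  have hQ : Normal ℚ Qbar := isGalois_Qbar.to_normal
  have h := (IntermediateField.normal_iff_forall_map_le' (F := ℚ) (K := N) (L := Qbar)).mp hN τ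
  exact h ⟨x, hx, rfl⟩

/-- **The inertia part of `N ⊔ ℚ⟮z⟯`** (`N` normal over `ℚ`, `z` fixed by the inertia group of `A`),
raw form: `inertiaPart A (N ⊔ ℚ⟮z⟯) = inertiaPart A N ⊔ ℚ⟮z⟯`. -/
theorem inf_fixedField_inertia_sup_adjoin (A : ValuationSubring Qbar)
    (N : IntermediateField ℚ Qbar) [Normal ℚ N] (z : Qbar)
    (hz : ∀ τ ∈ A.inertiaSubgroupIn ℚ, τ z = z) :
    (N ⊔ ℚ⟮z⟯) ⊓ IntermediateField.fixedField (A.inertiaSubgroupIn ℚ) =
      (N ⊓ IntermediateField.fixedField (A.inertiaSubgroupIn ℚ)) ⊔ ℚ⟮z⟯ :=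
  inf_fixedField_sup_adjoin N (A.inertiaSubgroupIn ℚ)
    (fun τ _ _ hx => map_mem_of_normal N τ hx) z (isIntegral_Qbar.isIntegral z) hz

end Qbar

end Fermat.Agent.M1.Base.InertiaPartSup56
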