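/-
M1 (S44) / ORD (S33), chapter BASE, RAT-NODES second seat (helper56): the inertia-part lemma of
`Base/InertiaPartSup56` in the literal vocabulary of `ES/P36/InertField27`:

* `inertiaPart_sup_adjoin A N z hz : inertiaPart A (N ⊔ ℚ⟮z⟯) = inertiaPart A N ⊔ ℚ⟮z⟯`
  (`N` normal over `ℚ`, `z` fixed by the inertia group of `A`);
* `inertiaPart_sup_adjoin_rootOfUnity hq hA hm hz`: the same for a root of unity `z ^ m = 1` of order
  prime to the residue characteristic `q` of `A` (`ZetaUnr26.inertia_fixes_rootOfUnity`);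
* `normal_sup_adjoin_rootOfUnity`: `N ⊔ ℚ⟮z⟯` is again normal over `ℚ` (`z` a primitive root of unity).
-/
import Mathlib
import Fermat.Agent.M1.Base.InertiaPartSup56
import Fermat.Agent.ES.P36.InertField27
import Fermat.Agent.ES.P36.ZetaUnr26

set_option autoImplicit false

open IntermediateField

namespace Fermat.Agent.M1.Base.InertiaPartSupInst56

open Fermat.Agent.RED.Interface4 Fermat.Agent.ES.P36.InertField27
  Fermat.Agent.M1.Base.InertiaPartSup56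

/-- **`inertiaPart A (N ⊔ ℚ⟮z⟯) = inertiaPart A N ⊔ ℚ⟮z⟯`** for `N` normal over `ℚ` and `z` fixed by
the inertia group of `A`. -/
theorem inertiaPart_sup_adjoin (A : ValuationSubring Qbar) (N : IntermediateField ℚ Qbar)
    [Normal ℚ N] (z : Qbar) (hz : ∀ τ ∈ A.inertiaSubgroupIn ℚ, τ z = z) :
    inertiaPart A (N ⊔ ℚ⟮z⟯) = inertiaPart A N ⊔ ℚ⟮z⟯ :=
  inf_fixedField_inertia_sup_adjoin A N z hz

/-- The same for a root of unity of order prime to the residue characteristic. -/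
theorem inertiaPart_sup_adjoin_rootOfUnity {A : ValuationSubring Qbar} {q : ℕ} (hq : q.Prime)
    (hA : A.LiesOverPrime q) (N : IntermediateField ℚ Qbar) [Normal ℚ N] {m : ℕ} (hm : ¬ q ∣ m)
    {z : Qbar} (hz : z ^ m = 1) :
    inertiaPart A (N ⊔ ℚ⟮z⟯) = inertiaPart A N ⊔ ℚ⟮z⟯ :=
  inertiaPart_sup_adjoin A N z fun _ hτ =>
    Fermat.Agent.ES.P36.ZetaUnr26.inertia_fixes_rootOfUnity hq hA hm hz hτ

/-- `N ⊔ ℚ⟮z⟯` is stable under every automorphism of `Qbar` when `N` is normal and `z` is a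
primitive root of unity. -/
theorem sup_adjoin_rootOfUnity_stable (N : IntermediateField ℚ Qbar) [Normal ℚ N] {m : ℕ}
    (hm : m ≠ 0) {z : Qbar} (hz : IsPrimitiveRoot z m) (σ : Qbar ≃ₐ[ℚ] Qbar) :
    ∀ x ∈ N ⊔ ℚ⟮z⟯, σ x ∈ N ⊔ ℚ⟮z⟯ := by
  intro x hx
  have hle : N ⊔ ℚ⟮z⟯ ≤ (N ⊔ ℚ⟮z⟯).comap (σ : Qbar →ₐ[ℚ] Qbar) := by
    refine sup_le (fun y hy => ?_) (fun y hy => ?_)
    · exact (le_sup_left : N ≤ N ⊔ ℚ⟮z⟯) (map_mem_of_normal N σ hy)
    · exact (le_sup_right : ℚ⟮z⟯ ≤ N ⊔ ℚ⟮z⟯)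
        (Fermat.Agent.ES.P36.ZetaUnr26.adjoin_rootOfUnity_stable hm hz σ y hy)
  exact hle hx

/-- `N ⊔ ℚ⟮z⟯` is normal over `ℚ`. -/
theorem normal_sup_adjoin_rootOfUnity (N : IntermediateField ℚ Qbar) [Normal ℚ N] {m : ℕ}
    (hm : m ≠ 0) {z : Qbar} (hz : IsPrimitiveRoot z m) : Normal ℚ ↥(N ⊔ ℚ⟮z⟯) := by
  have hQ : Normal ℚ Qbar := Fermat.Agent.Lib.FrobeniusExists.isGalois_Qbar.to_normal
  refine (IntermediateField.normal_iff_forall_map_le' (F := ℚ) (K := N ⊔ ℚ⟮z⟯) (L := Qbar)).mpr ?_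
  rintro σ _ ⟨x, hx, rfl⟩
  exact sup_adjoin_rootOfUnity_stable N hm hz σ x hx

end Fermat.Agent.M1.Base.InertiaPartSupInst56
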