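/-
Program M1 (S44, row 38), chapter BASE, brick `NormalAdjoin43` (helper43).

PURPOSE.  The nodal model of `X₀(pM'')` over `R_L = A ∩ L` (`L` ramified at `p`) is the BASE CHANGE
of the regular model over the inertial field `K = L^{I_A}`:  `B_i(L) = B_i(K)[π_L]`.  This file
contains the commutative algebra behind that statement (Mathlib only, no completions, no Serre
criterion).

* `dvd_pow_of_isIntegral_mul_eq` : if `u` is integral over `A` and `t * u = w ∈ A`, then `t ∣ w ^ m`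
  in `A` for some `m` (scale the roots of an integral equation of `u` by `t`).
* `mem_range_of_isIntegral` (**Lemma N**) : `A` a subring of a field `F`, `t ∈ A`, `t ≠ 0`,
  `A / t A` reduced, and the integral closure of `A` in `F` contained in `A[1/t]`.  Then `A` is
  integrally closed in `F`.
* `exists_eq_add_gen_mul`, `coeff_zero_dvd_of_gen_dvd`, `gen_dvd_coeff_zero` : the structure of
  `B[ϖ]` modulo `ϖ` for `B` integrally closed (`B[ϖ]/ϖ = B/(E(0))`, `E = minpoly B ϖ`).
* `mem_adjoin_of_isIntegral` (**main theorem**) : `B` an integrally closed domain with fraction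
  field `F₁`, `F₂ = F₁(ϖ)` finite separable, `ϖ` integral over `B` with minimal polynomial `E`,
  `a₀ = E(0)`.  If `B/(a₀)` is reduced, `ϖ ^ N ∈ a₀ B[ϖ]` for some `N` (Eisenstein-type), and the
  discriminant of `1, ϖ, …` divides a power of `a₀`, then `B[ϖ]` is the integral closure of `B` in `F₂`.
* `gen_pow_mem_of_dvd_coeff` : the hypothesis `ϖ ^ N ∈ a₀ B[ϖ]` from `a₀ ∣` all lower coefficients
  of `E` (`N = deg E`).
* `integralClosure_eq_adjoin` : the equality of subalgebras.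
-/
import Mathlib

set_option autoImplicit false

namespace Fermat.Agent.M1.Base.NormalAdjoin43

open Polynomial

section LemmaN

variable {A F : Type*} [CommRing A] [Field F] [Algebra A F]

/-- If `u` is integral over `A` and `t * u = w` with `t, w ∈ A`, then `t ∣ w ^ m` in `A` for some
`m` (`m` = degree of an integral equation of `u`). -/
theorem dvd_pow_of_isIntegral_mul_eq (hinj : Function.Injective (algebraMap A F)) (t w : A)
    (u : F) (hu : IsIntegral A u) (hw : algebraMap A F t * u = algebraMap A F w) :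
    ∃ m : ℕ, t ∣ w ^ m := by
  obtain ⟨p, hpm, hp⟩ := hu
  have hq : eval₂ (algebraMap A F) (algebraMap A F t * u) (scaleRoots p t) = 0 :=
    scaleRoots_eval₂_eq_zero (algebraMap A F) hp
  rw [hw, eval₂_at_apply] at hq
  have hq' : (scaleRoots p t).eval w = 0 := hinj (by rw [hq, map_zero])
  refine ⟨p.natDegree, ?_⟩
  have hsum : (scaleRoots p t).eval w = (∑ i ∈ Finset.range p.natDegree,
      p.coeff i * t ^ (p.natDegree - i) * w ^ i) + w ^ p.natDegree := by
    rw [eval_eq_sum_range, natDegree_scaleRoots, Finset.sum_range_succ]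
    congr 1
    · refine Finset.sum_congr rfl fun i _ => ?_
      rw [coeff_scaleRoots]
    · rw [coeff_scaleRoots, hpm.coeff_natDegree, Nat.sub_self, pow_zero, one_mul, one_mul]
  have hdvd : t ∣ ∑ i ∈ Finset.range p.natDegree, p.coeff i * t ^ (p.natDegree - i) * w ^ i := by
    refine Finset.dvd_sum fun i hi => ?_
    have hi' : i < p.natDegree := Finset.mem_range.mp hi
    exact Dvd.dvd.mul_right (Dvd.dvd.mul_left (dvd_pow_self t (by omega)) _) _
  have : w ^ p.natDegree = -(∑ i ∈ Finset.range p.natDegree,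
      p.coeff i * t ^ (p.natDegree - i) * w ^ i) := by
    rw [hsum] at hq'
    exact eq_neg_of_add_eq_zero_right hq'
  rw [this]
  exact (dvd_neg).mpr hdvd

/-- **Lemma N.**  `A ⊆ F` (injective structure map), `t ∈ A`, `t ≠ 0`, `A/tA` reduced
(`t ∣ w ^ m → t ∣ w`), and every element of `F` integral over `A` lies in `A[1/t]`.
Then every element of `F` integral over `A` lies in `A`. -/
theorem mem_range_of_isIntegral (hinj : Function.Injective (algebraMap A F)) (t : A) (ht : t ≠ 0)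
    (hred : ∀ (w : A) (m : ℕ), t ∣ w ^ m → t ∣ w)
    (haway : ∀ z : F, IsIntegral A z →
      ∃ (n : ℕ) (w : A), z * algebraMap A F t ^ n = algebraMap A F w)
    (z : F) (hz : IsIntegral A z) : z ∈ (algebraMap A F).range := by
  classical
  have hex := haway z hz
  obtain ⟨w, hw⟩ := Nat.find_spec hex
  rcases Nat.eq_zero_or_pos (Nat.find hex) with h0 | hpos
  · refine ⟨w, ?_⟩
    rw [← hw, h0, pow_zero, mul_one]
  · exfalso
    obtain ⟨k, hk⟩ : ∃ k, Nat.find hex = k + 1 := ⟨Nat.find hex - 1, by omega⟩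
    have htF : algebraMap A F t ≠ 0 := fun h => ht (hinj (by rw [h, map_zero]))
    have hu : IsIntegral A (z * algebraMap A F t ^ k) :=
      hz.mul (isIntegral_algebraMap.pow k)
    have hw' : algebraMap A F t * (z * algebraMap A F t ^ k) = algebraMap A F w := by
      rw [← hw, hk, pow_succ]; ring
    obtain ⟨m, hm⟩ := dvd_pow_of_isIntegral_mul_eq hinj t w _ hu hw'
    obtain ⟨w', hw'eq⟩ := hred w m hm
    have hk' : z * algebraMap A F t ^ k = algebraMap A F w' := by
      apply mul_left_cancel₀ htF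
      rw [hw', hw'eq, map_mul]
    exact Nat.find_min hex (by omega : k < Nat.find hex) ⟨w', hk'⟩

end LemmaN

section Adjoin

variable {B S : Type*} [CommRing B] [CommRing S] [Algebra B S]

/-- the generator as an element of `B[ϖ]`. -/
def genA (ϖ : S) : Algebra.adjoin B ({ϖ} : Set S) :=
  ⟨ϖ, Algebra.subset_adjoin (Set.mem_singleton ϖ)⟩

@[simp] theorem coe_genA (ϖ : S) : ((genA ϖ : Algebra.adjoin B ({ϖ} : Set S)) : S) = ϖ := rfl

/-- every element of `B[ϖ]` is `b + ϖ a'`. -/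
theorem exists_eq_add_gen_mul (ϖ : S) (a : Algebra.adjoin B ({ϖ} : Set S)) :
    ∃ (b : B) (a' : Algebra.adjoin B ({ϖ} : Set S)),
      a = algebraMap B (Algebra.adjoin B ({ϖ} : Set S)) b + genA ϖ * a' := by
  obtain ⟨a, ha⟩ := a
  rw [Algebra.adjoin_singleton_eq_range_aeval] at ha
  obtain ⟨p, rfl⟩ := ha
  refine ⟨p.coeff 0, ⟨aeval ϖ p.divX, ?_⟩, ?_⟩
  · rw [Algebra.adjoin_singleton_eq_range_aeval]; exact ⟨_, rfl⟩
  · apply Subtype.ext
    show aeval ϖ p = algebraMap B S (p.coeff 0) + ϖ * aeval ϖ p.divX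
    conv_lhs => rw [← divX_mul_X_add p]
    rw [map_add, map_mul, aeval_X, aeval_C]
    ring

variable [IsDomain B] [IsIntegrallyClosed B] [IsDomain S] [Module.IsTorsionFree B S]

/-- `B ∩ ϖ B[ϖ] ⊆ a₀ B`, `a₀ = E(0)`. -/
theorem coeff_zero_dvd_of_gen_dvd {ϖ : S} (hint : IsIntegral B ϖ) (b : B)
    (h : genA ϖ ∣ algebraMap B (Algebra.adjoin B ({ϖ} : Set S)) b) :
    (minpoly B ϖ).coeff 0 ∣ b := by
  obtain ⟨⟨c, hc⟩, hbc⟩ := h
  rw [Algebra.adjoin_singleton_eq_range_aeval] at hc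
  obtain ⟨q, rfl⟩ := hc
  have hbc' : algebraMap B S b = ϖ * aeval ϖ q := congrArg Subtype.val hbc
  have hroot : aeval ϖ (X * q - C b) = 0 := by
    rw [map_sub, map_mul, aeval_X, aeval_C, hbc', sub_self]
  obtain ⟨s, hs⟩ := minpoly.isIntegrallyClosed_dvd hint hroot
  have h0 : (X * q - C b).coeff 0 = ((minpoly B ϖ) * s).coeff 0 := by rw [hs]
  rw [coeff_sub, coeff_X_mul_zero, coeff_C_zero, zero_sub, mul_coeff_zero] at h0
  exact ⟨-s.coeff 0, by rw [mul_neg, ← h0, neg_neg]⟩

omit [IsDomain B] [IsIntegrallyClosed B] [IsDomain S] [Module.IsTorsionFree B S] in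
/-- `a₀ ∈ ϖ B[ϖ]`. -/
theorem gen_dvd_coeff_zero {ϖ : S} :
    genA ϖ ∣ algebraMap B (Algebra.adjoin B ({ϖ} : Set S)) ((minpoly B ϖ).coeff 0) := by
  refine ⟨⟨-aeval ϖ (minpoly B ϖ).divX, ?_⟩, ?_⟩
  · rw [Algebra.adjoin_singleton_eq_range_aeval]
    exact ⟨-(minpoly B ϖ).divX, by rw [map_neg]; rfl⟩
  · apply Subtype.ext
    show algebraMap B S ((minpoly B ϖ).coeff 0) = ϖ * -aeval ϖ (minpoly B ϖ).divX
    have h := minpoly.aeval B ϖ
    conv_lhs at h => rw [← divX_mul_X_add (minpoly B ϖ)]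
    rw [map_add, map_mul, aeval_X, aeval_C] at h
    linear_combination h

/-- **`B[ϖ]/ϖ` is reduced if `B/(a₀)` is.** -/
theorem gen_dvd_of_gen_dvd_pow {ϖ : S} (hint : IsIntegral B ϖ)
    (hred : ∀ (w : B) (m : ℕ), (minpoly B ϖ).coeff 0 ∣ w ^ m → (minpoly B ϖ).coeff 0 ∣ w)
    (w : Algebra.adjoin B ({ϖ} : Set S)) (m : ℕ) (h : genA ϖ ∣ w ^ m) : genA ϖ ∣ w := by
  obtain ⟨b, a', rfl⟩ := exists_eq_add_gen_mul ϖ w
  set bA := algebraMap B (Algebra.adjoin B ({ϖ} : Set S)) b with hbA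
  -- `ϖ ∣ (b + ϖ a')^m - b^m`
  have h1 : genA ϖ ∣ (bA + genA ϖ * a') ^ m - bA ^ m := by
    have := sub_dvd_pow_sub_pow (bA + genA ϖ * a') bA m
    refine dvd_trans ?_ this
    exact ⟨a', by ring⟩
  have h2 : genA ϖ ∣ bA ^ m := by
    have := dvd_sub h h1
    simpa using this
  have h3 : (minpoly B ϖ).coeff 0 ∣ b ^ m := by
    apply coeff_zero_dvd_of_gen_dvd hint
    rw [map_pow]; exact h2
  obtain ⟨b', rfl⟩ := hred b m h3
  have h4 : genA ϖ ∣ bA := by
    rw [hbA, map_mul]
    exact Dvd.dvd.mul_right gen_dvd_coeff_zero _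
  exact dvd_add h4 (dvd_mul_right _ _)

omit [IsDomain B] [IsIntegrallyClosed B] [IsDomain S] [Module.IsTorsionFree B S] in
/-- Eisenstein-type hypothesis: if `a₀` divides all lower coefficients of `E` then
`ϖ ^ deg E ∈ a₀ B[ϖ]`. -/
theorem gen_pow_mem_of_dvd_coeff {ϖ : S} (hint : IsIntegral B ϖ)
    (hdvd : ∀ i < (minpoly B ϖ).natDegree, (minpoly B ϖ).coeff 0 ∣ (minpoly B ϖ).coeff i) :
    ∃ c ∈ Algebra.adjoin B ({ϖ} : Set S),
      ϖ ^ (minpoly B ϖ).natDegree = algebraMap B S ((minpoly B ϖ).coeff 0) * c := by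
  classical
  set E := minpoly B ϖ with hE
  choose! c hc using hdvd
  refine ⟨-∑ i ∈ Finset.range E.natDegree, algebraMap B S (c i) * ϖ ^ i, ?_, ?_⟩
  · refine Subalgebra.neg_mem _ (Subalgebra.sum_mem _ fun i _ => ?_)
    exact Subalgebra.mul_mem _ (Subalgebra.algebraMap_mem _ _)
      (Subalgebra.pow_mem _ (Algebra.subset_adjoin (Set.mem_singleton ϖ)) _)
  · have h := minpoly.aeval B ϖ
    rw [← hE, aeval_eq_sum_range, Finset.sum_range_succ, (minpoly.monic hint).coeff_natDegree,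
      one_smul] at h
    have h' : ∑ i ∈ Finset.range E.natDegree, E.coeff i • ϖ ^ i =
        algebraMap B S (E.coeff 0) * ∑ i ∈ Finset.range E.natDegree, algebraMap B S (c i) * ϖ ^ i := by
      rw [Finset.mul_sum]
      refine Finset.sum_congr rfl fun i hi => ?_
      rw [Algebra.smul_def, hc i (Finset.mem_range.mp hi), map_mul]
      ring
    rw [h'] at h
    linear_combination h

end Adjoin

section Main

variable {B F₁ F₂ : Type*} [CommRing B] [IsDomain B] [IsIntegrallyClosed B] [Field F₁] [Field F₂]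
  [Algebra B F₁] [IsFractionRing B F₁] [Algebra F₁ F₂] [Algebra B F₂] [IsScalarTower B F₁ F₂]
  [Algebra.IsSeparable F₁ F₂]

/-- **Main theorem.**  `B[ϖ]` is integrally closed in `F₂ = F₁(ϖ)`. -/
theorem mem_adjoin_of_isIntegral (pb : PowerBasis F₁ F₂) (hint : IsIntegral B pb.gen)
    (hgen : pb.gen ≠ 0)
    (hred : ∀ (w : B) (m : ℕ),
      (minpoly B pb.gen).coeff 0 ∣ w ^ m → (minpoly B pb.gen).coeff 0 ∣ w)
    (hpow : ∃ (N : ℕ), ∃ c ∈ Algebra.adjoin B ({pb.gen} : Set F₂),
      pb.gen ^ N = algebraMap B F₂ ((minpoly B pb.gen).coeff 0) * c)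
    (hdisc : ∃ (n : ℕ) (d : B), algebraMap B F₁ d * Algebra.discr F₁ pb.basis =
      algebraMap B F₁ ((minpoly B pb.gen).coeff 0 ^ n))
    (z : F₂) (hz : IsIntegral B z) : z ∈ Algebra.adjoin B ({pb.gen} : Set F₂) := by
  have : FaithfulSMul B F₂ := by
    rw [faithfulSMul_iff_algebraMap_injective, IsScalarTower.algebraMap_eq B F₁ F₂]
    exact (algebraMap F₁ F₂).injective.comp (IsFractionRing.injective B F₁)
  have : Module.Finite F₁ F₂ := pb.finite
  set ϖ := pb.gen with hϖ
  set A := Algebra.adjoin B ({ϖ} : Set F₂) with hA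
  have hinj : Function.Injective (algebraMap A F₂) := Subtype.val_injective
  have ht : (genA ϖ : A) ≠ 0 := fun h => hgen (congrArg Subtype.val h)
  -- the integral closure lies in `A[1/ϖ]`
  have haway : ∀ z : F₂, IsIntegral A z →
      ∃ (n : ℕ) (w : A), z * algebraMap A F₂ (genA ϖ) ^ n = algebraMap A F₂ w := by
    intro z hzA
    have : Algebra.IsIntegral B A :=
      Algebra.IsIntegral.adjoin (fun s hs => by rw [Set.mem_singleton_iff.mp hs]; exact hint)
    have hzB : IsIntegral B z := isIntegral_trans z hzA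
    have h1 : Algebra.discr F₁ pb.basis • z ∈ A :=
      Algebra.discr_mul_isIntegral_mem_adjoin F₁ hint hzB
    obtain ⟨n, d, hd⟩ := hdisc
    obtain ⟨N, c, hc, hcN⟩ := hpow
    -- `a₀^n z ∈ A`
    have h2 : algebraMap B F₂ ((minpoly B ϖ).coeff 0 ^ n) * z ∈ A := by
      have : algebraMap B F₂ ((minpoly B ϖ).coeff 0 ^ n) * z =
          d • (Algebra.discr F₁ pb.basis • z) := by
        rw [IsScalarTower.algebraMap_apply B F₁ F₂, ← hd, ← algebraMap_smul F₁ d, smul_smul,
          Algebra.smul_def]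
      rw [this]
      exact Subalgebra.smul_mem _ h1 d
    refine ⟨N * n, ⟨z * ϖ ^ (N * n), ?_⟩, rfl⟩
    have : z * ϖ ^ (N * n) = (algebraMap B F₂ ((minpoly B ϖ).coeff 0 ^ n) * z) * c ^ n := by
      rw [pow_mul, hcN, mul_pow, map_pow]; ring
    rw [this]
    exact Subalgebra.mul_mem _ h2 (Subalgebra.pow_mem _ hc n)
  have hzA : IsIntegral A z := hz.tower_top
  obtain ⟨w, hw⟩ := mem_range_of_isIntegral hinj (genA ϖ) ht
    (gen_dvd_of_gen_dvd_pow hint hred) haway z hzA
  rw [← hw]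
  exact w.2

/-- `integralClosure B F₂ = B[ϖ]`. -/
theorem integralClosure_eq_adjoin (pb : PowerBasis F₁ F₂) (hint : IsIntegral B pb.gen)
    (hgen : pb.gen ≠ 0)
    (hred : ∀ (w : B) (m : ℕ),
      (minpoly B pb.gen).coeff 0 ∣ w ^ m → (minpoly B pb.gen).coeff 0 ∣ w)
    (hpow : ∃ (N : ℕ), ∃ c ∈ Algebra.adjoin B ({pb.gen} : Set F₂),
      pb.gen ^ N = algebraMap B F₂ ((minpoly B pb.gen).coeff 0) * c)
    (hdisc : ∃ (n : ℕ) (d : B), algebraMap B F₁ d * Algebra.discr F₁ pb.basis =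
      algebraMap B F₁ ((minpoly B pb.gen).coeff 0 ^ n)) :
    integralClosure B F₂ = Algebra.adjoin B ({pb.gen} : Set F₂) := by
  apply le_antisymm
  · intro z hz
    exact mem_adjoin_of_isIntegral pb hint hgen hred hpow hdisc z hz
  · rw [Algebra.adjoin_le_iff]
    intro s hs
    rw [Set.mem_singleton_iff.mp hs]
    exact hint

end Main

end Fermat.Agent.M1.Base.NormalAdjoin43
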