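/-
M1 (row 38, S44), chapter BASE / MOD — helper43.

ABSTRACT TRANSFER OF THE NODAL MODEL ALONG A TOTALLY RAMIFIED BASE CHANGE (model half).

`R₁ ⊆ R₂` discrete valuation rings with the same residue field (`π₁ = u π₂ ^ e`), `F₁ ⊆ F₂` the
function fields (`ι : F₁ →+* F₂`), charts `Ba ⊆ F₁`, `Bb ⊆ F₂` with the one-step decomposition
`Bb = ι Ba + π₂ Bb` (helper34's `ChartBC34.Concl.decomp_i`, from `Base/AdjoinUnif34`), Gauss rings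
`O_j¹ = ι⁻¹ O_j²` (`compat_j`).

* `sat_of_decomp` : the chart `Bb` is `π₂`-saturated in `O_1² ⊓ O_2²` (the special fibre of the
  base-changed model is still reduced, with the same two components);
* `nodalNumData_of_baseChange` : the bundle `NodalNumData` over `R₂`, given the chart-generic facts
  over `R₂` (`ChartN26.ChartInputs`, generic in the number field) in the form `model₂`, and the
  closed-point fields `smooth_i`, `node_i` over `R₂` (helper53's `Base/PointBC53`).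
-/
import Mathlib
import Fermat.Agent.ES.N34.NumData13

set_option autoImplicit false

namespace Fermat.Agent.M1.Base.NumDataBC43

open Fermat.Agent.ES.N34.NodalCore13 Fermat.Agent.ES.N34.NodalCL13
  Fermat.Agent.ES.N34.NumData13

section Sat

variable {R₁ F₁ R₂ F₂ : Type*} [CommRing R₁] [Field F₁] [Algebra R₁ F₁]
  [CommRing R₂] [Field F₂] [Algebra R₂ F₂]

/-- An element of `F₁` which becomes divisible by `π₂` in `O_j²` is divisible by `π₁` in `O_j¹`. -/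
theorem exists_eq_mul_of_map_eq (ι : F₁ →+* F₂) {π₁ : R₁} {π₂ : R₂}
    {Oa : ValuationSubring F₁} {Ob : ValuationSubring F₂}
    (compat : ∀ z : F₁, ι z ∈ Ob ↔ z ∈ Oa)
    (pi_mem : algebraMap R₂ F₂ π₂ ∈ Ob) (nonunit : (algebraMap R₂ F₂ π₂)⁻¹ ∉ Ob)
    (unif : ∀ x ∈ Oa, x⁻¹ ∉ Oa → ∃ c ∈ Oa, x = algebraMap R₁ F₁ π₁ * c)
    {b₀ : F₁} {w : F₂} (hw : w ∈ Ob) (h : ι b₀ = algebraMap R₂ F₂ π₂ * w) :
    ∃ c ∈ Oa, b₀ = algebraMap R₁ F₁ π₁ * c := by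
  rcases eq_or_ne b₀ 0 with rfl | hb0
  · exact ⟨0, Oa.zero_mem, by rw [mul_zero]⟩
  have hmem : b₀ ∈ Oa := (compat b₀).mp (by rw [h]; exact Ob.mul_mem _ _ pi_mem hw)
  refine unif b₀ hmem (fun hinv => nonunit ?_)
  have hinv2 : ι b₀⁻¹ ∈ Ob := (compat _).mpr hinv
  have hιb0 : ι b₀ ≠ 0 := (map_ne_zero ι).mpr hb0
  have hπ0 : algebraMap R₂ F₂ π₂ ≠ 0 := by
    intro h0
    rw [h0, zero_mul] at h
    exact hιb0 h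
  have hw0 : w ≠ 0 := by
    intro h0
    rw [h0, mul_zero] at h
    exact hιb0 h
  have : (algebraMap R₂ F₂ π₂)⁻¹ = w * ι b₀⁻¹ := by
    rw [map_inv₀, h, mul_inv, mul_comm (algebraMap R₂ F₂ π₂)⁻¹ w⁻¹, ← mul_assoc,
      mul_inv_cancel₀ hw0, one_mul]
  rw [this]
  exact Ob.mul_mem _ _ hw hinv2

/-- **Saturation goes up**: the base-changed chart is `π₂`-saturated in `O_1² ⊓ O_2²`. -/
theorem sat_of_decomp (ι : F₁ →+* F₂) {π₁ : R₁} {π₂ : R₂}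
    {Ba : Subalgebra R₁ F₁} {Bb : Subalgebra R₂ F₂}
    {O1a O2a : ValuationSubring F₁} {O1b O2b : ValuationSubring F₂}
    (map : ∀ b ∈ Ba, ι b ∈ Bb)
    (decomp : ∀ z ∈ Bb, ∃ b ∈ Ba, ∃ z' ∈ Bb, z = ι b + algebraMap R₂ F₂ π₂ * z')
    (eis : ∃ u : R₂, ∃ e : ℕ, 0 < e ∧
      ι (algebraMap R₁ F₁ π₁) = algebraMap R₂ F₂ u * algebraMap R₂ F₂ π₂ ^ e)
    (compat1 : ∀ z : F₁, ι z ∈ O1b ↔ z ∈ O1a) (compat2 : ∀ z : F₁, ι z ∈ O2b ↔ z ∈ O2a)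
    (le1 : ∀ x ∈ Bb, x ∈ O1b) (le2 : ∀ x ∈ Bb, x ∈ O2b)
    (nonunit1 : (algebraMap R₂ F₂ π₂)⁻¹ ∉ O1b) (nonunit2 : (algebraMap R₂ F₂ π₂)⁻¹ ∉ O2b)
    (pi1_ne : algebraMap R₁ F₁ π₁ ≠ 0)
    (unif1 : ∀ x ∈ O1a, x⁻¹ ∉ O1a → ∃ c ∈ O1a, x = algebraMap R₁ F₁ π₁ * c)
    (unif2 : ∀ x ∈ O2a, x⁻¹ ∉ O2a → ∃ c ∈ O2a, x = algebraMap R₁ F₁ π₁ * c)
    (sat₁ : ∀ b ∈ Ba, ∀ c : F₁, c ∈ O1a → c ∈ O2a → b = algebraMap R₁ F₁ π₁ * c → c ∈ Ba) :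
    ∀ b ∈ Bb, ∀ c : F₂, c ∈ O1b → c ∈ O2b → b = algebraMap R₂ F₂ π₂ * c → c ∈ Bb := by
  intro b hb c hc1 hc2 hbc
  have hπB : algebraMap R₂ F₂ π₂ ∈ Bb := Bb.algebraMap_mem π₂
  have hπ0 : algebraMap R₂ F₂ π₂ ≠ 0 := by
    intro h0
    apply nonunit1
    rw [h0, inv_zero]; exact O1b.zero_mem
  obtain ⟨b₀, hb₀, z', hz', hbz⟩ := decomp b hb
  have hι : ι b₀ = algebraMap R₂ F₂ π₂ * (c - z') := by
    rw [mul_sub, ← hbc, hbz]; ring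
  obtain ⟨c1, hc1m, hbc1⟩ := exists_eq_mul_of_map_eq ι compat1 (le1 _ hπB) nonunit1 unif1
    (sub_mem hc1 (le1 _ hz')) hι
  obtain ⟨c2, hc2m, hbc2⟩ := exists_eq_mul_of_map_eq ι compat2 (le2 _ hπB) nonunit2 unif2
    (sub_mem hc2 (le2 _ hz')) hι
  have hc12 : c1 = c2 := mul_left_cancel₀ pi1_ne (hbc1.symm.trans hbc2)
  have hc₀ : c1 ∈ Ba := sat₁ b₀ hb₀ c1 hc1m (hc12 ▸ hc2m) hbc1
  obtain ⟨u, e, he, heis⟩ := eis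
  obtain ⟨k, rfl⟩ : ∃ k, e = k + 1 := ⟨e - 1, by omega⟩
  have hc : c = algebraMap R₂ F₂ u * algebraMap R₂ F₂ π₂ ^ k * ι c1 + z' := by
    apply mul_left_cancel₀ hπ0
    rw [← hbc, hbz, hbc1, map_mul, heis]
    ring
  rw [hc]
  exact Bb.add_mem (Bb.mul_mem (Bb.mul_mem (Bb.algebraMap_mem u) (Bb.pow_mem hπB k))
    (map _ hc₀)) hz'

end Sat

section Bundle

variable {R₁ K₁ F₁ R₂ K₂ F₂ : Type*} [CommRing R₁] [Field K₁] [Field F₁] [Algebra R₁ K₁]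
  [Algebra K₁ F₁] [Algebra R₁ F₁]
  [CommRing R₂] [Field K₂] [Field F₂] [Algebra R₂ K₂] [Algebra K₂ F₂] [Algebra R₂ F₂]

/-- **The nodal model over the ramified base** from the nodal model over the inertial base. -/
theorem nodalNumData_of_baseChange (ι : F₁ →+* F₂) {π₁ : R₁} {π₂ : R₂} {t₁ : F₁} {t₂ : F₂}
    {B0a B1a : Subalgebra R₁ F₁} {B0b B1b : Subalgebra R₂ F₂}
    {O1a O2a : ValuationSubring F₁} {O1b O2b : ValuationSubring F₂}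
    (N₁ : NodalNumData R₁ K₁ F₁ π₁ t₁ B0a B1a O1a O2a)
    (map0 : ∀ b ∈ B0a, ι b ∈ B0b) (map1 : ∀ b ∈ B1a, ι b ∈ B1b)
    (decomp0 : ∀ z ∈ B0b, ∃ b ∈ B0a, ∃ z' ∈ B0b, z = ι b + algebraMap R₂ F₂ π₂ * z')
    (decomp1 : ∀ z ∈ B1b, ∃ b ∈ B1a, ∃ z' ∈ B1b, z = ι b + algebraMap R₂ F₂ π₂ * z')
    (eis : ∃ u : R₂, ∃ e : ℕ, 0 < e ∧
      ι (algebraMap R₁ F₁ π₁) = algebraMap R₂ F₂ u * algebraMap R₂ F₂ π₂ ^ e)
    (compat1 : ∀ z : F₁, ι z ∈ O1b ↔ z ∈ O1a) (compat2 : ∀ z : F₁, ι z ∈ O2b ↔ z ∈ O2a)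
    (le1_0 : ∀ x ∈ B0b, x ∈ O1b) (le2_0 : ∀ x ∈ B0b, x ∈ O2b)
    (le1_1 : ∀ x ∈ B1b, x ∈ O1b) (le2_1 : ∀ x ∈ B1b, x ∈ O2b)
    (nonunit1 : (algebraMap R₂ F₂ π₂)⁻¹ ∉ O1b) (nonunit2 : (algebraMap R₂ F₂ π₂)⁻¹ ∉ O2b)
    (model₂ :
      (∀ b ∈ B0b, ∀ c : F₂, c ∈ O1b → c ∈ O2b → b = algebraMap R₂ F₂ π₂ * c → c ∈ B0b) →
      (∀ b ∈ B1b, ∀ c : F₂, c ∈ O1b → c ∈ O2b → b = algebraMap R₂ F₂ π₂ * c → c ∈ B1b) →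
      NodalTwoChartModel R₂ F₂ π₂ t₂ B0b B1b O1b O2b)
    (noeth0 : IsNoetherianRing B0b) (noeth1 : IsNoetherianRing B1b)
    (frac0 : ∀ x : F₂, ∃ a ∈ B0b, ∃ b ∈ B0b, b ≠ 0 ∧ x * b = a)
    (frac1 : ∀ x : F₂, ∃ a ∈ B1b, ∃ b ∈ B1b, b ≠ 0 ∧ x * b = a)
    (fracR : IsFractionRing R₂ K₂)
    (dvrR : ∀ r : R₂, r ≠ 0 → ∃ (k : ℕ) (v : R₂ˣ), r = π₂ ^ k * v)
    (algClosed : ∀ y : F₂, IsAlgebraic K₂ y → ∃ c : K₂, algebraMap K₂ F₂ c = y)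
    (smooth0 : ∀ 𝔪 : Ideal B0b, 𝔪.IsMaximal → algebraMap R₂ B0b π₂ ∈ 𝔪 →
      OffBranch π₂ B0b O1b 𝔪 ∨ OffBranch π₂ B0b O2b 𝔪 → SmoothAt π₂ B0b 𝔪)
    (smooth1 : ∀ 𝔪 : Ideal B1b, 𝔪.IsMaximal → algebraMap R₂ B1b π₂ ∈ 𝔪 →
      OffBranch π₂ B1b O1b 𝔪 ∨ OffBranch π₂ B1b O2b 𝔪 → SmoothAt π₂ B1b 𝔪)
    (node0 : ∀ 𝔪 : Ideal B0b, 𝔪.IsMaximal → algebraMap R₂ B0b π₂ ∈ 𝔪 →
      ¬ OffBranch π₂ B0b O1b 𝔪 → ¬ OffBranch π₂ B0b O2b 𝔪 → NodeCoords π₂ B0b 𝔪)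
    (node1 : ∀ 𝔪 : Ideal B1b, 𝔪.IsMaximal → algebraMap R₂ B1b π₂ ∈ 𝔪 →
      ¬ OffBranch π₂ B1b O1b 𝔪 → ¬ OffBranch π₂ B1b O2b 𝔪 → NodeCoords π₂ B1b 𝔪) :
    NodalNumData R₂ K₂ F₂ π₂ t₂ B0b B1b O1b O2b :=
  { model := model₂
      (sat_of_decomp ι map0 decomp0 eis compat1 compat2 le1_0 le2_0 nonunit1 nonunit2
        N₁.model.pi_ne N₁.model.unif1 N₁.model.unif2 N₁.model.sat0)
      (sat_of_decomp ι map1 decomp1 eis compat1 compat2 le1_1 le2_1 nonunit1 nonunit2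
        N₁.model.pi_ne N₁.model.unif1 N₁.model.unif2 N₁.model.sat1)
    noeth0 := noeth0
    noeth1 := noeth1
    frac0 := frac0
    frac1 := frac1
    fracR := fracR
    dvrR := dvrR
    smooth0 := smooth0
    smooth1 := smooth1
    node0 := node0
    node1 := node1
    algClosed := algClosed }

end Bundle

end Fermat.Agent.M1.Base.NumDataBC43
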