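/-
M1 (S44), chapter BASE (helper53): **closed points of a chart under a totally ramified base change.**

`B¹ ⊆ F₁` a chart over `R₁` (uniformiser `π₁`), `B² ⊆ F₂` the chart over `R₂` (uniformiser `π₂`,
`π₁ = u π₂ ^ e`), `ι : F₁ → F₂`, with `ι B¹ ⊆ B²` and `B² = ι B¹ + π₂ B²` (same special fibre).
Then the closed points of the special fibres correspond (`down`), components pass through
corresponding points (`offBranch_iff`), and the local descriptions `SmoothAt`, `NodeCoords` of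
`ES/N34` go up.  These are the fields `smooth0`, `smooth1`, `node0`, `node1` of
`NumData13.NodalNumData` over the ramified base.
-/
import Mathlib
import Fermat.Agent.ES.N34.NumData13

set_option autoImplicit false
set_option linter.unusedSectionVars false
set_option linter.unusedVariables false

namespace Fermat.Agent.M1.Base.PointBC53

open Fermat.Agent.ES.N34.NodalCore13 Fermat.Agent.ES.N34.NodalCL13 Fermat.Agent.ES.N34.NumData13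

variable {R₁ R₂ F₁ F₂ : Type*} [CommRing R₁] [CommRing R₂] [Field F₁] [Field F₂]
  [Algebra R₁ F₁] [Algebra R₂ F₂]

/-- The hypotheses on one chart. -/
structure ChartBC (ι : F₁ →+* F₂) (π₁ : R₁) (π₂ : R₂) (B₁ : Subalgebra R₁ F₁)
    (B₂ : Subalgebra R₂ F₂) : Prop where
  map : ∀ b ∈ B₁, ι b ∈ B₂
  decomp : ∀ z ∈ B₂, ∃ b ∈ B₁, ∃ z' ∈ B₂, z = ι b + algebraMap R₂ F₂ π₂ * z'
  eis : ∃ u ∈ B₂, ∃ e : ℕ, 0 < e ∧ ι (algebraMap R₁ F₁ π₁) = u * algebraMap R₂ F₂ π₂ ^ e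

variable {ι : F₁ →+* F₂} {π₁ : R₁} {π₂ : R₂} {B₁ : Subalgebra R₁ F₁} {B₂ : Subalgebra R₂ F₂}

/-- `ι` restricted to the charts. -/
def chartHom (C : ChartBC ι π₁ π₂ B₁ B₂) : B₁ →+* B₂ where
  toFun b := ⟨ι b, C.map b b.2⟩
  map_one' := Subtype.ext (by simp)
  map_mul' a b := Subtype.ext (by simp)
  map_zero' := Subtype.ext (by simp)
  map_add' a b := Subtype.ext (by simp)

@[simp] theorem coe_chartHom (C : ChartBC ι π₁ π₂ B₁ B₂) (b : B₁) :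
    ((chartHom C b : B₂) : F₂) = ι b := rfl

/-- the closed point of `B¹` under a closed point of `B²`. -/
def down (C : ChartBC ι π₁ π₂ B₁ B₂) (𝔪 : Ideal B₂) : Ideal B₁ := 𝔪.comap (chartHom C)

theorem mem_down (C : ChartBC ι π₁ π₂ B₁ B₂) {𝔪 : Ideal B₂} {b : B₁} :
    b ∈ down C 𝔪 ↔ chartHom C b ∈ 𝔪 := Iff.rfl

/-- `π₂ B² ⊆ 𝔪`. -/
theorem pi_mul_mem {𝔪 : Ideal B₂} (hπ : algebraMap R₂ B₂ π₂ ∈ 𝔪) (z : B₂) :
    algebraMap R₂ B₂ π₂ * z ∈ 𝔪 := 𝔪.mul_mem_right _ hπ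

/-- every element of `B²` is congruent modulo `π₂ B²` to the image of an element of `B¹`. -/
theorem exists_down (C : ChartBC ι π₁ π₂ B₁ B₂) (z : B₂) :
    ∃ (b : B₁) (z' : B₂), z = chartHom C b + algebraMap R₂ B₂ π₂ * z' := by
  obtain ⟨b, hb, z', hz', h⟩ := C.decomp z z.2
  exact ⟨⟨b, hb⟩, ⟨z', hz'⟩, Subtype.ext (by rw [h]; rfl)⟩

/-- the image of `π₁` lies in every ideal containing `π₂`. -/
theorem chartHom_pi_mem (C : ChartBC ι π₁ π₂ B₁ B₂) {𝔪 : Ideal B₂}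
    (hπ : algebraMap R₂ B₂ π₂ ∈ 𝔪) : chartHom C (algebraMap R₁ B₁ π₁) ∈ 𝔪 := by
  obtain ⟨u, hu, e, he, h⟩ := C.eis
  obtain ⟨e', rfl⟩ : ∃ e', e = e' + 1 := ⟨e - 1, by omega⟩
  have : chartHom C (algebraMap R₁ B₁ π₁) =
      (⟨u, hu⟩ : B₂) * (algebraMap R₂ B₂ π₂) ^ e' * algebraMap R₂ B₂ π₂ := by
    apply Subtype.ext
    show ι (algebraMap R₁ F₁ π₁) = _
    rw [h, pow_succ]
    push_cast
    show u * (algebraMap R₂ F₂ π₂ ^ e' * algebraMap R₂ F₂ π₂) =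
      u * algebraMap R₂ F₂ π₂ ^ e' * algebraMap R₂ F₂ π₂
    ring
  rw [this]
  exact 𝔪.mul_mem_left _ hπ

theorem pi_mem_down (C : ChartBC ι π₁ π₂ B₁ B₂) {𝔪 : Ideal B₂}
    (hπ : algebraMap R₂ B₂ π₂ ∈ 𝔪) : algebraMap R₁ B₁ π₁ ∈ down C 𝔪 :=
  chartHom_pi_mem C hπ

/-- **Closed points go down to closed points.** -/
theorem down_isMaximal (C : ChartBC ι π₁ π₂ B₁ B₂) {𝔪 : Ideal B₂} (h𝔪 : 𝔪.IsMaximal)
    (hπ : algebraMap R₂ B₂ π₂ ∈ 𝔪) : (down C 𝔪).IsMaximal := by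
  have h𝔪p : 𝔪.IsPrime := h𝔪.isPrime
  rw [Ideal.isMaximal_iff]
  constructor
  · rw [mem_down, map_one]
    exact fun h1 => h𝔪p.ne_top ((Ideal.eq_top_iff_one 𝔪).mpr h1)
  · intro J x hJ hx hxJ
    rw [mem_down] at hx
    obtain ⟨y, i, hi, hyi⟩ := h𝔪.exists_inv hx
    obtain ⟨c, z', hyc⟩ := exists_down C y
    -- `c * x - 1 ∈ down`
    have hmem : c * x - 1 ∈ down C 𝔪 := by
      rw [mem_down, map_sub, map_mul, map_one]
      have e : chartHom C c * chartHom C x - 1 =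
          -(i + algebraMap R₂ B₂ π₂ * (z' * chartHom C x)) := by
        have h1 : chartHom C c = y - algebraMap R₂ B₂ π₂ * z' := by rw [hyc]; ring
        rw [h1]
        linear_combination hyi
      rw [e]
      exact 𝔪.neg_mem (𝔪.add_mem hi (pi_mul_mem hπ _))
    have : (1 : B₁) = c * x - (c * x - 1) := by ring
    rw [this]
    exact J.sub_mem (J.mul_mem_left _ hxJ) (hJ hmem)

/-- elements of `B¹` outside `down 𝔪` map outside `𝔪`. -/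
theorem chartHom_notMem (C : ChartBC ι π₁ π₂ B₁ B₂) {𝔪 : Ideal B₂} {b : B₁}
    (hb : b ∉ down C 𝔪) : chartHom C b ∉ 𝔪 := hb

/-- every element of `B² ∖ 𝔪` is congruent modulo `π₂ B²` to the image of an element of
`B¹ ∖ down 𝔪`. -/
theorem exists_down_notMem (C : ChartBC ι π₁ π₂ B₁ B₂) {𝔪 : Ideal B₂}
    (hπ : algebraMap R₂ B₂ π₂ ∈ 𝔪) {z : B₂} (hz : z ∉ 𝔪) :
    ∃ (b : B₁) (z' : B₂), b ∉ down C 𝔪 ∧ z = chartHom C b + algebraMap R₂ B₂ π₂ * z' := by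
  obtain ⟨b, z', h⟩ := exists_down C z
  refine ⟨b, z', fun hb => hz ?_, h⟩
  rw [h]
  exact 𝔪.add_mem hb (pi_mul_mem hπ _)

/-- every element of `𝔪` is congruent modulo `π₂ B²` to the image of an element of `down 𝔪`. -/
theorem exists_down_mem (C : ChartBC ι π₁ π₂ B₁ B₂) {𝔪 : Ideal B₂}
    (hπ : algebraMap R₂ B₂ π₂ ∈ 𝔪) {z : B₂} (hz : z ∈ 𝔪) :
    ∃ (b : B₁) (z' : B₂), b ∈ down C 𝔪 ∧ z = chartHom C b + algebraMap R₂ B₂ π₂ * z' := by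
  obtain ⟨b, z', h⟩ := exists_down C z
  refine ⟨b, z', ?_, h⟩
  rw [mem_down]
  have : chartHom C b = z - algebraMap R₂ B₂ π₂ * z' := by rw [h]; ring
  rw [this]
  exact 𝔪.sub_mem hz (pi_mul_mem hπ _)

section Branch

variable {O₁ : ValuationSubring F₁} {O₂ : ValuationSubring F₂}

/-- **A component passes through a closed point iff it passes through the point below.** -/
theorem offBranch_iff (C : ChartBC ι π₁ π₂ B₁ B₂)
    (compat : ∀ z : F₁, ι z ∈ O₂ ↔ z ∈ O₁) (le₂ : ∀ x ∈ B₂, x ∈ O₂)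
    (pi_nonunit₂ : (algebraMap R₂ F₂ π₂)⁻¹ ∉ O₂)
    (unif₁ : ∀ x ∈ O₁, x⁻¹ ∉ O₁ → ∃ c ∈ O₁, x = algebraMap R₁ F₁ π₁ * c)
    {𝔪 : Ideal B₂} (hπ : algebraMap R₂ B₂ π₂ ∈ 𝔪) :
    OffBranch π₂ B₂ O₂ 𝔪 ↔ OffBranch π₁ B₁ O₁ (down C 𝔪) := by
  have hπ₂O : algebraMap R₂ F₂ π₂ ∈ O₂ := le₂ _ (B₂.algebraMap_mem π₂)
  constructor
  · rintro ⟨e₂, he₂, c₂, hc₂, hec⟩
    obtain ⟨b, z', hb, hbz⟩ := exists_down_notMem C hπ he₂
    refine ⟨b, hb, ?_⟩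
    -- `ι b ∈ π₂ O₂`
    have hιb : ι (b : F₁) = algebraMap R₂ F₂ π₂ * (c₂ - (z' : F₂)) := by
      have h1 := congrArg (fun z : B₂ => (z : F₂)) hbz
      simp only [Subalgebra.coe_add, Subalgebra.coe_mul, coe_chartHom] at h1
      have h2 : ((algebraMap R₂ B₂ π₂ : B₂) : F₂) = algebraMap R₂ F₂ π₂ := rfl
      rw [h2, hec] at h1
      linear_combination -h1
    have hc' : c₂ - (z' : F₂) ∈ O₂ := sub_mem hc₂ (le₂ _ z'.2)
    have hbO₁ : (b : F₁) ∈ O₁ := (compat _).mp (by rw [hιb]; exact O₂.mul_mem _ _ hπ₂O hc')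
    apply unif₁ _ hbO₁
    intro hinv
    -- then `ι b` would be a unit of `O₂` lying in `π₂ O₂`
    have hinv₂ : (ι (b : F₁))⁻¹ ∈ O₂ := by
      rw [← map_inv₀]; exact (compat _).mpr hinv
    have hb0 : ι (b : F₁) ≠ 0 := by
      intro h0
      apply hb
      rw [mem_down]
      have : chartHom C b = 0 := Subtype.ext h0
      rw [this]; exact 𝔪.zero_mem
    apply pi_nonunit₂
    have : (algebraMap R₂ F₂ π₂)⁻¹ = (c₂ - (z' : F₂)) * (ι (b : F₁))⁻¹ := by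
      have hp0 : algebraMap R₂ F₂ π₂ ≠ 0 := by
        intro h0
        rw [h0, zero_mul] at hιb
        exact hb0 hιb
      rw [hιb]
      have hc0 : c₂ - (z' : F₂) ≠ 0 := by
        intro h0
        rw [h0, mul_zero] at hιb
        exact hb0 hιb
      field_simp
    rw [this]
    exact O₂.mul_mem _ _ hc' hinv₂
  · rintro ⟨e₁, he₁, c₁, hc₁, hec⟩
    obtain ⟨u, hu, e, he, h⟩ := C.eis
    obtain ⟨e', rfl⟩ : ∃ e', e = e' + 1 := ⟨e - 1, by omega⟩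
    refine ⟨chartHom C e₁, he₁, u * algebraMap R₂ F₂ π₂ ^ e' * ι c₁, ?_, ?_⟩
    · exact O₂.mul_mem _ _ (O₂.mul_mem _ _ (le₂ _ hu) (pow_mem hπ₂O e')) ((compat _).mpr hc₁)
    · rw [coe_chartHom, hec, map_mul, h, pow_succ]; ring

end Branch

/-- **`SmoothAt` goes up.** -/
theorem smoothAt_up (C : ChartBC ι π₁ π₂ B₁ B₂) {𝔪 : Ideal B₂}
    (hπ : algebraMap R₂ B₂ π₂ ∈ 𝔪) (h : SmoothAt π₁ B₁ (down C 𝔪)) : SmoothAt π₂ B₂ 𝔪 := by
  obtain ⟨s, hs, hgen⟩ := h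
  refine ⟨chartHom C s, hs, fun y hy => ?_⟩
  obtain ⟨b, z', hb, hyb⟩ := exists_down_mem C hπ hy
  obtain ⟨d, hd, hdb⟩ := hgen b hb
  refine ⟨chartHom C d, hd, ?_⟩
  -- `ι (d b) ∈ (π₂, ι s)` and `ι d · π₂ z' ∈ (π₂)`
  have h1 : chartHom C (d * b) ∈ Ideal.span {algebraMap R₂ B₂ π₂, chartHom C s} := by
    have hmap : Ideal.span {algebraMap R₁ B₁ π₁, s} ≤
        (Ideal.span {algebraMap R₂ B₂ π₂, chartHom C s}).comap (chartHom C) := by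
      rw [Ideal.span_le]
      intro x hx
      rcases hx with rfl | hx
      · exact chartHom_pi_mem C (Ideal.subset_span (Set.mem_insert _ _))
      · rw [Set.mem_singleton_iff] at hx
        rw [hx]
        exact Ideal.subset_span (Set.mem_insert_of_mem _ (Set.mem_singleton _))
    exact hmap hdb
  have h2 : chartHom C d * y = chartHom C (d * b) +
      algebraMap R₂ B₂ π₂ * (chartHom C d * z') := by
    rw [hyb, map_mul]; ring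
  rw [h2]
  exact Ideal.add_mem _ h1
    (Ideal.mul_mem_right _ _ (Ideal.subset_span (Set.mem_insert _ _)))

/-- **`NodeCoords` goes up.** -/
theorem nodeCoords_up (C : ChartBC ι π₁ π₂ B₁ B₂) {𝔪 : Ideal B₂}
    (hπ : algebraMap R₂ B₂ π₂ ∈ 𝔪) (h : NodeCoords π₁ B₁ (down C 𝔪)) : NodeCoords π₂ B₂ 𝔪 := by
  obtain ⟨x, y, hx, hy, ⟨d, hd, e', hde⟩, hgen⟩ := h
  obtain ⟨u, hu, e, he, heis⟩ := C.eis
  obtain ⟨e₀, rfl⟩ : ∃ e₀, e = e₀ + 1 := ⟨e - 1, by omega⟩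
  refine ⟨chartHom C x, chartHom C y, hx, hy, ⟨chartHom C d, hd,
    (⟨u, hu⟩ : B₂) * algebraMap R₂ B₂ π₂ ^ e₀ * chartHom C e', ?_⟩, fun b hb => ?_⟩
  · have h1 := congrArg (chartHom C) hde
    rw [map_mul, map_mul, map_mul] at h1
    rw [h1]
    have h2 : chartHom C (algebraMap R₁ B₁ π₁) =
        (⟨u, hu⟩ : B₂) * (algebraMap R₂ B₂ π₂) ^ e₀ * algebraMap R₂ B₂ π₂ := by
      apply Subtype.ext
      show ι (algebraMap R₁ F₁ π₁) = _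
      rw [heis, pow_succ]
      push_cast
      show u * (algebraMap R₂ F₂ π₂ ^ e₀ * algebraMap R₂ F₂ π₂) =
        u * algebraMap R₂ F₂ π₂ ^ e₀ * algebraMap R₂ F₂ π₂
      ring
    rw [h2]; ring
  · obtain ⟨b₁, z', hb₁, hbb⟩ := exists_down_mem C hπ hb
    obtain ⟨d', hd', hdb⟩ := hgen b₁ hb₁
    refine ⟨chartHom C d', hd', ?_⟩
    have h1 : chartHom C (d' * b₁) ∈
        Ideal.span {algebraMap R₂ B₂ π₂, chartHom C x, chartHom C y} := by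
      have hmap : Ideal.span {algebraMap R₁ B₁ π₁, x, y} ≤
          (Ideal.span {algebraMap R₂ B₂ π₂, chartHom C x, chartHom C y}).comap (chartHom C) := by
        rw [Ideal.span_le]
        intro w hw
        rcases hw with rfl | rfl | hw
        · exact chartHom_pi_mem C (Ideal.subset_span (Set.mem_insert _ _))
        · exact Ideal.subset_span (Set.mem_insert_of_mem _ (Set.mem_insert _ _))
        · rw [Set.mem_singleton_iff] at hw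
          rw [hw]
          exact Ideal.subset_span
            (Set.mem_insert_of_mem _ (Set.mem_insert_of_mem _ (Set.mem_singleton _)))
      exact hmap hdb
    have h2 : chartHom C d' * b = chartHom C (d' * b₁) +
        algebraMap R₂ B₂ π₂ * (chartHom C d' * z') := by
      rw [hbb, map_mul]; ring
    rw [h2]
    exact Ideal.add_mem _ h1
      (Ideal.mul_mem_right _ _ (Ideal.subset_span (Set.mem_insert _ _)))

section Fields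

variable {O1₁ O2₁ : ValuationSubring F₁} {O1₂ O2₂ : ValuationSubring F₂}

/-- **The field `smooth` of `NodalNumData` goes up** (one chart). -/
theorem smooth_up (C : ChartBC ι π₁ π₂ B₁ B₂)
    (compat1 : ∀ z : F₁, ι z ∈ O1₂ ↔ z ∈ O1₁) (compat2 : ∀ z : F₁, ι z ∈ O2₂ ↔ z ∈ O2₁)
    (le1 : ∀ x ∈ B₂, x ∈ O1₂) (le2 : ∀ x ∈ B₂, x ∈ O2₂)
    (nu1 : (algebraMap R₂ F₂ π₂)⁻¹ ∉ O1₂) (nu2 : (algebraMap R₂ F₂ π₂)⁻¹ ∉ O2₂)
    (unif1 : ∀ x ∈ O1₁, x⁻¹ ∉ O1₁ → ∃ c ∈ O1₁, x = algebraMap R₁ F₁ π₁ * c)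
    (unif2 : ∀ x ∈ O2₁, x⁻¹ ∉ O2₁ → ∃ c ∈ O2₁, x = algebraMap R₁ F₁ π₁ * c)
    (hsm : ∀ 𝔪 : Ideal B₁, 𝔪.IsMaximal → algebraMap R₁ B₁ π₁ ∈ 𝔪 →
      OffBranch π₁ B₁ O1₁ 𝔪 ∨ OffBranch π₁ B₁ O2₁ 𝔪 → SmoothAt π₁ B₁ 𝔪) :
    ∀ 𝔪 : Ideal B₂, 𝔪.IsMaximal → algebraMap R₂ B₂ π₂ ∈ 𝔪 →
      OffBranch π₂ B₂ O1₂ 𝔪 ∨ OffBranch π₂ B₂ O2₂ 𝔪 → SmoothAt π₂ B₂ 𝔪 := by
  intro 𝔪 h𝔪 hπ hoff
  apply smoothAt_up C hπ
  apply hsm _ (down_isMaximal C h𝔪 hπ) (pi_mem_down C hπ)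
  rcases hoff with h | h
  · exact Or.inl ((offBranch_iff C compat1 le1 nu1 unif1 hπ).mp h)
  · exact Or.inr ((offBranch_iff C compat2 le2 nu2 unif2 hπ).mp h)

/-- **The field `node` of `NodalNumData` goes up** (one chart). -/
theorem node_up (C : ChartBC ι π₁ π₂ B₁ B₂)
    (compat1 : ∀ z : F₁, ι z ∈ O1₂ ↔ z ∈ O1₁) (compat2 : ∀ z : F₁, ι z ∈ O2₂ ↔ z ∈ O2₁)
    (le1 : ∀ x ∈ B₂, x ∈ O1₂) (le2 : ∀ x ∈ B₂, x ∈ O2₂)
    (nu1 : (algebraMap R₂ F₂ π₂)⁻¹ ∉ O1₂) (nu2 : (algebraMap R₂ F₂ π₂)⁻¹ ∉ O2₂)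
    (unif1 : ∀ x ∈ O1₁, x⁻¹ ∉ O1₁ → ∃ c ∈ O1₁, x = algebraMap R₁ F₁ π₁ * c)
    (unif2 : ∀ x ∈ O2₁, x⁻¹ ∉ O2₁ → ∃ c ∈ O2₁, x = algebraMap R₁ F₁ π₁ * c)
    (hnd : ∀ 𝔪 : Ideal B₁, 𝔪.IsMaximal → algebraMap R₁ B₁ π₁ ∈ 𝔪 →
      ¬ OffBranch π₁ B₁ O1₁ 𝔪 → ¬ OffBranch π₁ B₁ O2₁ 𝔪 → NodeCoords π₁ B₁ 𝔪) :
    ∀ 𝔪 : Ideal B₂, 𝔪.IsMaximal → algebraMap R₂ B₂ π₂ ∈ 𝔪 →
      ¬ OffBranch π₂ B₂ O1₂ 𝔪 → ¬ OffBranch π₂ B₂ O2₂ 𝔪 → NodeCoords π₂ B₂ 𝔪 := by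
  intro 𝔪 h𝔪 hπ h1 h2
  apply nodeCoords_up C hπ
  exact hnd _ (down_isMaximal C h𝔪 hπ) (pi_mem_down C hπ)
    (fun h => h1 ((offBranch_iff C compat1 le1 nu1 unif1 hπ).mpr h))
    (fun h => h2 ((offBranch_iff C compat2 le2 nu2 unif2 hπ).mpr h))

end Fields

end Fermat.Agent.M1.Base.PointBC53
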