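/-
M1 (row 38, S44), chapter BASE / MOD — helper43.

THE NODAL MODEL OVER A TOTALLY RAMIFIED BASE, final assembly: `Base/NumDataBC43` (model half:
saturation) + helper53's `Base/PointBC53` (closed-point half: `smooth_i`, `node_i`).

Inputs over the ramified base `R₂`: only the chart-generic facts (`model₂`, = `ChartN26.ChartInputs`
which is generic in the number field), `noeth`, `frac`, `fracR`, `dvrR`, `algClosed`, and the
comparison with the inertial base (`map_i`, `decomp_i`, `eis`, `compat_j`, `le_j`, `nonunit_j`)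
which is `ChartBC34.Concl`.
-/
import Mathlib
import Fermat.Agent.M1.Base.NumDataBC43
import Fermat.Agent.M1.Base.PointBC53

set_option autoImplicit false

namespace Fermat.Agent.M1.Base.NumDataBCFull43

open Fermat.Agent.ES.N34.NodalCore13 Fermat.Agent.ES.N34.NodalCL13
  Fermat.Agent.ES.N34.NumData13 Fermat.Agent.M1.Base.NumDataBC43 Fermat.Agent.M1.Base.PointBC53

variable {R₁ K₁ F₁ R₂ K₂ F₂ : Type*} [CommRing R₁] [Field K₁] [Field F₁] [Algebra R₁ K₁]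
  [Algebra K₁ F₁] [Algebra R₁ F₁]
  [CommRing R₂] [Field K₂] [Field F₂] [Algebra R₂ K₂] [Algebra K₂ F₂] [Algebra R₂ F₂]

/-- The one-chart comparison data in helper53's bundled form. -/
theorem chartBC_of (ι : F₁ →+* F₂) {π₁ : R₁} {π₂ : R₂}
    {Ba : Subalgebra R₁ F₁} {Bb : Subalgebra R₂ F₂}
    (map : ∀ b ∈ Ba, ι b ∈ Bb)
    (decomp : ∀ z ∈ Bb, ∃ b ∈ Ba, ∃ z' ∈ Bb, z = ι b + algebraMap R₂ F₂ π₂ * z')
    (eis : ∃ u : R₂, ∃ e : ℕ, 0 < e ∧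
      ι (algebraMap R₁ F₁ π₁) = algebraMap R₂ F₂ u * algebraMap R₂ F₂ π₂ ^ e) :
    ChartBC ι π₁ π₂ Ba Bb where
  map := map
  decomp := decomp
  eis := by
    obtain ⟨u, e, he, h⟩ := eis
    exact ⟨algebraMap R₂ F₂ u, Bb.algebraMap_mem u, e, he, h⟩

/-- **The nodal model over the ramified base** from the nodal model over the inertial base: all
closed-point fields are transferred, only chart-generic facts over `R₂` remain as inputs. -/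
theorem nodalNumData_of_baseChange_full (ι : F₁ →+* F₂) {π₁ : R₁} {π₂ : R₂} {t₁ : F₁} {t₂ : F₂}
    {B0a B1a : Subalgebra R₁ F₁} {B0b B1b : Subalgebra R₂ F₂}
    {O1a O2a : ValuationSubring F₁} {O1b O2b : ValuationSubring F₂}
    (N₁ : NodalNumData R₁ K₁ F₁ π₁ t₁ B0a B1a O1a O2a)
    (map0 : ∀ b ∈ B0a, ι b ∈ B0b) (map1 : ∀ b ∈ B1a, ι b ∈ B1b)
    (decomp0 : ∀ z ∈ B0b, ∃ b ∈ B0a, ∃ z' ∈ B0b, z = ι b + algebraMap R₂ F₂ π₂ * z')
    (decomp1 : ∀ z ∈ B1b, ∃ b ∈ B1a, ∃ z' ∈ B1b, z = ι b + algebraMap R₂ F₂ π₂ * z')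
    (eis : ∃ u : R₂, ∃ e : ℕ, 0 < e ∧
      ι (algebraMap R₁ F₁ π₁) = algebraMap R₂ F₂ u * algebraMap R₂ F₂ π₂ ^ e)
    (compat1 : ∀ z : F₁, ι z ∈ O1b ↔ z ∈ O1a) (compat2 : ∀ z : F₁, ι z ∈ O2b ↔ z ∈ O2a)
    (le1_0 : ∀ x ∈ B0b, x ∈ O1b) (le2_0 : ∀ x ∈ B0b, x ∈ O2b)
    (le1_1 : ∀ x ∈ B1b, x ∈ O1b) (le2_1 : ∀ x ∈ B1b, x ∈ O2b)
    (nonunit1 : (algebraMap R₂ F₂ π₂)⁻¹ ∉ O1b) (nonunit2 : (algebraMap R₂ F₂ π₂)⁻¹ ∉ O2b)
    (model₂ :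
      (∀ b ∈ B0b, ∀ c : F₂, c ∈ O1b → c ∈ O2b → b = algebraMap R₂ F₂ π₂ * c → c ∈ B0b) →
      (∀ b ∈ B1b, ∀ c : F₂, c ∈ O1b → c ∈ O2b → b = algebraMap R₂ F₂ π₂ * c → c ∈ B1b) →
      NodalTwoChartModel R₂ F₂ π₂ t₂ B0b B1b O1b O2b)
    (noeth0 : IsNoetherianRing B0b) (noeth1 : IsNoetherianRing B1b)
    (frac0 : ∀ x : F₂, ∃ a ∈ B0b, ∃ b ∈ B0b, b ≠ 0 ∧ x * b = a)
    (frac1 : ∀ x : F₂, ∃ a ∈ B1b, ∃ b ∈ B1b, b ≠ 0 ∧ x * b = a)
    (fracR : IsFractionRing R₂ K₂)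
    (dvrR : ∀ r : R₂, r ≠ 0 → ∃ (k : ℕ) (v : R₂ˣ), r = π₂ ^ k * v)
    (algClosed : ∀ y : F₂, IsAlgebraic K₂ y → ∃ c : K₂, algebraMap K₂ F₂ c = y) :
    NodalNumData R₂ K₂ F₂ π₂ t₂ B0b B1b O1b O2b :=
  nodalNumData_of_baseChange ι N₁ map0 map1 decomp0 decomp1 eis compat1 compat2
    le1_0 le2_0 le1_1 le2_1 nonunit1 nonunit2 model₂ noeth0 noeth1 frac0 frac1 fracR dvrR algClosed
    (smooth_up (chartBC_of ι map0 decomp0 eis) compat1 compat2 le1_0 le2_0 nonunit1 nonunit2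
      N₁.model.unif1 N₁.model.unif2 N₁.smooth0)
    (smooth_up (chartBC_of ι map1 decomp1 eis) compat1 compat2 le1_1 le2_1 nonunit1 nonunit2
      N₁.model.unif1 N₁.model.unif2 N₁.smooth1)
    (node_up (chartBC_of ι map0 decomp0 eis) compat1 compat2 le1_0 le2_0 nonunit1 nonunit2
      N₁.model.unif1 N₁.model.unif2 N₁.node0)
    (node_up (chartBC_of ι map1 decomp1 eis) compat1 compat2 le1_1 le2_1 nonunit1 nonunit2
      N₁.model.unif1 N₁.model.unif2 N₁.node1)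

end Fermat.Agent.M1.Base.NumDataBCFull43
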