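/-
M1 (S44), chapter BASE (helper73), RAT-NODES part 1 (abstract): **closed points of a chart under an
UNRAMIFIED base change, and rationality of their residue fields.**

`B₁ ⊆ F₁` a chart over `R₁`, `B₂ ⊆ F₂` the chart over `R₂`, `ι : F₁ → F₂`, `φ : R₁ → R₂`
(compatible), the uniformiser of `R₂` is `φ π₁`, and `B₂` is generated as a ring by `R₂` and
`ι B₁` (étale base change: `B₂ = R₂ · ι B₁`).  Then

* closed points of the special fibre of `B₂` lie over closed points of `B₁` (`down`,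
  `down_isMaximal`, `pi_mem_down`), two-branch points over two-branch points (`not_offBranch_down`);
* **`hrat_up`**: if `b ^ (m + 1) - b ∈ down 𝔪` for all `b : B₁` (the residue field at `down 𝔪` is
  contained in `𝔽_{m+1}`-ish: all its nonzero elements are `m`-th roots of unity) and `R₂` contains
  `ζ` with `ζ ^ m = 1` whose powers `ζ ^ j`, `0 < j < m`, stay `≠ 1` modulo `𝔪`, then the residue
  field at `𝔪` is `R₂ / π`:  `∀ z : B₂, ∃ r : R₂, z - algebraMap R₂ B₂ r ∈ 𝔪`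
  (= the literal `hrat` of `Base/ThickRat53.hres_of_residue`).
-/
import Mathlib
import Fermat.Agent.ES.N34.NumData13

set_option autoImplicit false
set_option linter.unusedSectionVars false
set_option linter.style.haveILetI false

namespace Fermat.Agent.M1.Base.RatNodes73

open Fermat.Agent.ES.N34.NodalCore13

variable {R₁ R₂ F₁ F₂ : Type*} [CommRing R₁] [CommRing R₂] [Field F₁] [Field F₂]
  [Algebra R₁ F₁] [Algebra R₂ F₂]

/-- The hypotheses on one chart: unramified (étale) base change. -/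
structure EtaleBC (ι : F₁ →+* F₂) (φ : R₁ →+* R₂) (B₁ : Subalgebra R₁ F₁)
    (B₂ : Subalgebra R₂ F₂) : Prop where
  comm : ∀ r : R₁, ι (algebraMap R₁ F₁ r) = algebraMap R₂ F₂ (φ r)
  map : ∀ b ∈ B₁, ι b ∈ B₂
  gen : ∀ z ∈ B₂, z ∈ Subring.closure (Set.range (algebraMap R₂ F₂) ∪ ι '' (B₁ : Set F₁))

variable {ι : F₁ →+* F₂} {φ : R₁ →+* R₂} {B₁ : Subalgebra R₁ F₁} {B₂ : Subalgebra R₂ F₂}

/-- `ι` restricted to the charts. -/
def chartHom (C : EtaleBC ι φ B₁ B₂) : B₁ →+* B₂ where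
  toFun b := ⟨ι b, C.map b b.2⟩
  map_one' := Subtype.ext (by simp)
  map_mul' a b := Subtype.ext (by simp)
  map_zero' := Subtype.ext (by simp)
  map_add' a b := Subtype.ext (by simp)

@[simp] theorem coe_chartHom (C : EtaleBC ι φ B₁ B₂) (b : B₁) :
    ((chartHom C b : B₂) : F₂) = ι b := rfl

theorem chartHom_algebraMap (C : EtaleBC ι φ B₁ B₂) (r : R₁) :
    chartHom C (algebraMap R₁ B₁ r) = algebraMap R₂ B₂ (φ r) :=
  Subtype.ext (C.comm r)

/-- the closed point of `B₁` under a closed point of `B₂`. -/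
def down (C : EtaleBC ι φ B₁ B₂) (𝔪 : Ideal B₂) : Ideal B₁ := 𝔪.comap (chartHom C)

theorem mem_down (C : EtaleBC ι φ B₁ B₂) {𝔪 : Ideal B₂} {b : B₁} :
    b ∈ down C 𝔪 ↔ chartHom C b ∈ 𝔪 := Iff.rfl

theorem pi_mem_down (C : EtaleBC ι φ B₁ B₂) {π₁ : R₁} {𝔪 : Ideal B₂}
    (hπ : algebraMap R₂ B₂ (φ π₁) ∈ 𝔪) : algebraMap R₁ B₁ π₁ ∈ down C 𝔪 := by
  rw [mem_down, chartHom_algebraMap]
  exact hπ

/-- **Closed points go down to closed points** (finite residue field upstairs). -/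
theorem down_isMaximal (C : EtaleBC ι φ B₁ B₂) {𝔪 : Ideal B₂} (h𝔪 : 𝔪.IsMaximal)
    [Finite (B₂ ⧸ 𝔪)] : (down C 𝔪).IsMaximal := by
  haveI : 𝔪.IsPrime := h𝔪.isPrime
  haveI : (down C 𝔪).IsPrime := Ideal.comap_isPrime (chartHom C) 𝔪
  have hinj : Function.Injective
      (Ideal.quotientMap 𝔪 (chartHom C) (le_refl (down C 𝔪))) :=
    Ideal.quotientMap_injective
  haveI : Finite (B₁ ⧸ down C 𝔪) := Finite.of_injective _ hinj
  exact Ideal.Quotient.maximal_of_isField _ (Finite.isField_of_domain (B₁ ⧸ down C 𝔪))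

section Branch

variable {O₁ : ValuationSubring F₁} {O₂ : ValuationSubring F₂}

/-- A component which misses the point below misses the point above. -/
theorem offBranch_of_down (C : EtaleBC ι φ B₁ B₂) (mono : ∀ z ∈ O₁, ι z ∈ O₂) {π₁ : R₁}
    {𝔪 : Ideal B₂} (h : OffBranch π₁ B₁ O₁ (down C 𝔪)) : OffBranch (φ π₁) B₂ O₂ 𝔪 := by
  obtain ⟨e, he, c, hc, hec⟩ := h
  refine ⟨chartHom C e, he, ι c, mono c hc, ?_⟩
  rw [coe_chartHom, hec, map_mul, C.comm]

/-- **Two-branch points lie over two-branch points.** -/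
theorem not_offBranch_down (C : EtaleBC ι φ B₁ B₂) (mono : ∀ z ∈ O₁, ι z ∈ O₂) {π₁ : R₁}
    {𝔪 : Ideal B₂} (h : ¬ OffBranch (φ π₁) B₂ O₂ 𝔪) : ¬ OffBranch π₁ B₁ O₁ (down C 𝔪) :=
  fun h' => h (offBranch_of_down C mono h')

end Branch

section Rational

/-- The elements of `B₂` which are congruent to a constant modulo `𝔪`, as a subring of `F₂`. -/
def ratSubring (B₂ : Subalgebra R₂ F₂) (𝔪 : Ideal B₂) : Subring F₂ where
  carrier := {z | ∃ (hz : z ∈ B₂) (r : R₂), (⟨z, hz⟩ : B₂) - algebraMap R₂ B₂ r ∈ 𝔪}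
  mul_mem' := by
    rintro x y ⟨hx, r, hr⟩ ⟨hy, s, hs⟩
    refine ⟨B₂.mul_mem hx hy, r * s, ?_⟩
    have : (⟨x * y, B₂.mul_mem hx hy⟩ : B₂) - algebraMap R₂ B₂ (r * s) =
        (⟨x, hx⟩ : B₂) * ((⟨y, hy⟩ : B₂) - algebraMap R₂ B₂ s) +
          algebraMap R₂ B₂ s * ((⟨x, hx⟩ : B₂) - algebraMap R₂ B₂ r) := by
      rw [map_mul]
      apply Subtype.ext
      push_cast
      ring
    rw [this]
    exact 𝔪.add_mem (𝔪.mul_mem_left _ hs) (𝔪.mul_mem_left _ hr)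
  one_mem' := ⟨B₂.one_mem, 1, by
    have : (⟨1, B₂.one_mem⟩ : B₂) - algebraMap R₂ B₂ 1 = 0 := by
      rw [map_one]; exact sub_self _
    rw [this]; exact 𝔪.zero_mem⟩
  add_mem' := by
    rintro x y ⟨hx, r, hr⟩ ⟨hy, s, hs⟩
    refine ⟨B₂.add_mem hx hy, r + s, ?_⟩
    have : (⟨x + y, B₂.add_mem hx hy⟩ : B₂) - algebraMap R₂ B₂ (r + s) =
        ((⟨x, hx⟩ : B₂) - algebraMap R₂ B₂ r) + ((⟨y, hy⟩ : B₂) - algebraMap R₂ B₂ s) := by
      rw [map_add]
      apply Subtype.ext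
      push_cast
      ring
    rw [this]
    exact 𝔪.add_mem hr hs
  zero_mem' := ⟨B₂.zero_mem, 0, by
    have : (⟨0, B₂.zero_mem⟩ : B₂) - algebraMap R₂ B₂ 0 = 0 := by
      rw [map_zero]; exact sub_self _
    rw [this]; exact 𝔪.zero_mem⟩
  neg_mem' := by
    rintro x ⟨hx, r, hr⟩
    refine ⟨B₂.neg_mem hx, -r, ?_⟩
    have : (⟨-x, B₂.neg_mem hx⟩ : B₂) - algebraMap R₂ B₂ (-r) =
        -((⟨x, hx⟩ : B₂) - algebraMap R₂ B₂ r) := by
      rw [map_neg]
      apply Subtype.ext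
      push_cast
      ring
    rw [this]
    exact 𝔪.neg_mem hr

theorem mem_ratSubring {𝔪 : Ideal B₂} {z : F₂} :
    z ∈ ratSubring B₂ 𝔪 ↔ ∃ (hz : z ∈ B₂) (r : R₂), (⟨z, hz⟩ : B₂) - algebraMap R₂ B₂ r ∈ 𝔪 :=
  Iff.rfl

/-- **Rationality from generation**: if the images of the elements of `B₁` are congruent to
constants modulo `𝔪`, so is every element of `B₂`. -/
theorem hrat_of_gen (C : EtaleBC ι φ B₁ B₂) {𝔪 : Ideal B₂}
    (h : ∀ b : B₁, ∃ r : R₂, chartHom C b - algebraMap R₂ B₂ r ∈ 𝔪) :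
    ∀ z : B₂, ∃ r : R₂, z - algebraMap R₂ B₂ r ∈ 𝔪 := by
  have hle : Subring.closure (Set.range (algebraMap R₂ F₂) ∪ ι '' (B₁ : Set F₁)) ≤
      ratSubring B₂ 𝔪 := by
    rw [Subring.closure_le]
    rintro z (⟨r, rfl⟩ | ⟨b, hb, rfl⟩)
    · refine ⟨B₂.algebraMap_mem r, r, ?_⟩
      have : (⟨algebraMap R₂ F₂ r, B₂.algebraMap_mem r⟩ : B₂) - algebraMap R₂ B₂ r = 0 :=
        sub_self _
      rw [this]; exact 𝔪.zero_mem
    · obtain ⟨r, hr⟩ := h ⟨b, hb⟩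
      exact ⟨C.map b hb, r, hr⟩
  intro z
  obtain ⟨hz, r, hr⟩ := hle (C.gen z z.2)
  exact ⟨r, hr⟩

/-- **Rationality goes up** along an unramified base change containing enough roots of unity. -/
theorem hrat_up (C : EtaleBC ι φ B₁ B₂) {𝔪 : Ideal B₂} [h𝔪 : 𝔪.IsPrime] {m : ℕ} (hm : 0 < m)
    (hpow : ∀ b : B₁, b ^ (m + 1) - b ∈ down C 𝔪)
    (ζ : R₂) (hζ : ζ ^ m = 1)
    (hζ' : ∀ j : ℕ, 0 < j → j < m → algebraMap R₂ B₂ (ζ ^ j - 1) ∉ 𝔪) :
    ∀ z : B₂, ∃ r : R₂, z - algebraMap R₂ B₂ r ∈ 𝔪 := by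
  haveI : NeZero m := ⟨hm.ne'⟩
  refine hrat_of_gen C fun b => ?_
  -- work in the domain `B₂ ⧸ 𝔪`
  set mk := Ideal.Quotient.mk 𝔪 with hmk
  set ζb : B₂ ⧸ 𝔪 := mk (algebraMap R₂ B₂ ζ) with hζb
  have hprim : IsPrimitiveRoot ζb m := by
    refine IsPrimitiveRoot.mk_of_lt ζb hm ?_ ?_
    · rw [hζb, ← map_pow, ← map_pow, hζ, map_one, map_one]
    · intro l hl hlm h1
      apply hζ' l hl hlm
      rw [← Ideal.Quotient.eq_zero_iff_mem, map_sub, map_pow, map_one, map_sub, map_pow, map_one,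
        sub_eq_zero]
      exact h1
  set x : B₂ ⧸ 𝔪 := mk (chartHom C b) with hx
  have hxpow : x ^ (m + 1) = x := by
    have := hpow b
    rw [mem_down, map_sub, map_pow, ← Ideal.Quotient.eq_zero_iff_mem, map_sub, map_pow,
      sub_eq_zero] at this
    exact this
  by_cases hx0 : x = 0
  · refine ⟨0, ?_⟩
    rw [map_zero, sub_zero, ← Ideal.Quotient.eq_zero_iff_mem]
    exact hx0
  · have hxm : x ^ m = 1 := by
      have h1 : x * (x ^ m - 1) = 0 := by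
        rw [mul_sub, mul_one, ← pow_succ', hxpow, sub_self]
      rcases mul_eq_zero.mp h1 with h | h
      · exact absurd h hx0
      · exact sub_eq_zero.mp h
    obtain ⟨i, -, hi⟩ := hprim.eq_pow_of_pow_eq_one hxm
    refine ⟨ζ ^ i, ?_⟩
    rw [← Ideal.Quotient.eq_zero_iff_mem, map_sub, map_pow, map_pow, sub_eq_zero]
    exact hi.symm

end Rational

end Fermat.Agent.M1.Base.RatNodes73
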