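/-
M1 (S44), chapter BASE (helper73), RAT-NODES part 0: **closed points of the special fibre of a chart
have finite residue fields**, and a uniform exponent for finitely many of them.

`B ⊆ F` an `R`-subalgebra which is a finite module over `R[t]` (in the `fin0` form of
`NodalCore13.NodalTwoChartModel`), `R / π` finite, `𝔪` a maximal ideal of `B` containing `π` such
that `t ^ (n + 1) - t ∈ 𝔪` for some `n` (`Car/ResidueFin53.exists_pow_sub_mem_of_finite_base`).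
Then `B ⧸ 𝔪` is finite (`finite_quotient`).

For a finite set of maximal ideals with finite residue fields of characteristic `p` there is a
uniform `m > 0`, prime to `p`, with `b ^ (m + 1) - b ∈ 𝔪` for all `b` and all `𝔪` in the set
(`exists_uniform_pow`).
-/
import Mathlib

set_option autoImplicit false
set_option linter.style.haveILetI false

namespace Fermat.Agent.M1.Base.ResFinite73

open Polynomial

section Finite

variable {R F : Type*} [CommRing R] [Field F] [Algebra R F]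

/-- Powers of an element with `x ^ (n + 1) = x` reduce to exponents `≤ n`. -/
theorem exists_le_pow_eq {E : Type*} [Monoid E] {x : E} {n : ℕ} (hn : 0 < n)
    (hx : x ^ (n + 1) = x) (l : ℕ) :
    ∃ j ≤ n, x ^ l = x ^ j := by
  induction l using Nat.strong_induction_on with
  | _ l ih =>
    rcases Nat.lt_or_ge l (n + 1) with h | h
    · exact ⟨l, by omega, rfl⟩
    · obtain ⟨d, rfl⟩ := Nat.exists_eq_add_of_le h
      obtain ⟨j, hj, hjd⟩ := ih (1 + d) (by omega)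
      refine ⟨j, hj, ?_⟩
      rw [pow_add, hx, ← hjd, pow_add, pow_one]

/-- **Finiteness of the residue field at a closed point of the special fibre of a chart.** -/
theorem finite_quotient {π : R} [Finite (R ⧸ (Ideal.span {π} : Ideal R))]
    {B : Subalgebra R F} {t : F} (ht : t ∈ B)
    (fin : ∃ (r : ℕ) (e : Fin r → F), (∀ i, e i ∈ B) ∧
      ∀ x ∈ B, ∃ P : Fin r → R[X], x = ∑ i, aeval t (P i) * e i)
    (𝔪 : Ideal B) (hπ𝔪 : algebraMap R B π ∈ 𝔪)
    (hpow : ∃ n : ℕ, 0 < n ∧ ∃ b ∈ 𝔪, (b : F) = t ^ (n + 1) - t) : Finite (B ⧸ 𝔪) := by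
  classical
  obtain ⟨r, e, he, hgen⟩ := fin
  obtain ⟨n, hn, b, hb, hbt⟩ := hpow
  set T : B := ⟨t, ht⟩ with hT
  set tb : B ⧸ 𝔪 := Ideal.Quotient.mk 𝔪 T with htb
  have htbpow : tb ^ (n + 1) = tb := by
    have h1 : b = T ^ (n + 1) - T := Subtype.ext (by rw [hbt]; rfl)
    have h2 : Ideal.Quotient.mk 𝔪 (T ^ (n + 1) - T) = 0 := by
      rw [← h1]; exact Ideal.Quotient.eq_zero_iff_mem.mpr hb
    rw [map_sub, map_pow, sub_eq_zero] at h2
    exact h2
  let eb : Fin r → B ⧸ 𝔪 := fun i => Ideal.Quotient.mk 𝔪 ⟨e i, he i⟩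
  -- the finite generating set
  let G : Finset (B ⧸ 𝔪) := (Finset.univ ×ˢ Finset.range (n + 1)).image
    (fun ij : Fin r × ℕ => tb ^ ij.2 * eb ij.1)
  let S : Submodule R (B ⧸ 𝔪) := Submodule.span R (G : Set (B ⧸ 𝔪))
  have hG : ∀ (i : Fin r) (l : ℕ), tb ^ l * eb i ∈ S := by
    intro i l
    obtain ⟨j, hj, hjl⟩ := exists_le_pow_eq hn htbpow l
    rw [hjl]
    apply Submodule.subset_span
    exact Finset.mem_coe.mpr (Finset.mem_image.mpr
      ⟨(i, j), Finset.mem_product.mpr ⟨Finset.mem_univ _, Finset.mem_range.mpr (by omega)⟩, rfl⟩)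
  have htop : ∀ x : B ⧸ 𝔪, x ∈ S := by
    intro x
    obtain ⟨x, rfl⟩ := Ideal.Quotient.mk_surjective x
    obtain ⟨P, hP⟩ := hgen x x.2
    have hx : x = ∑ i, aeval T (P i) * ⟨e i, he i⟩ := by
      apply Subtype.ext
      rw [hP]
      push_cast
      refine Finset.sum_congr rfl fun i _ => ?_
      congr 1
    rw [hx, map_sum]
    refine Submodule.sum_mem _ fun i _ => ?_
    rw [map_mul]
    have h1 : Ideal.Quotient.mk 𝔪 (aeval T (P i)) = aeval tb (P i) := by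
      have := Polynomial.aeval_algHom_apply (Ideal.Quotient.mkₐ R 𝔪) T (P i)
      rw [Ideal.Quotient.mkₐ_eq_mk] at this
      exact this.symm
    rw [h1, aeval_eq_sum_range, Finset.sum_mul]
    refine Submodule.sum_mem _ fun l _ => ?_
    rw [smul_mul_assoc]
    exact Submodule.smul_mem _ _ (hG i l)
  -- `π` kills the quotient
  have hkill : ∀ a ∈ (Ideal.span {π} : Ideal R), ∀ y : B ⧸ 𝔪, a • y = 0 := by
    intro a ha y
    obtain ⟨c, rfl⟩ := Ideal.mem_span_singleton'.mp ha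
    obtain ⟨y, rfl⟩ := Ideal.Quotient.mk_surjective y
    have h1 : (c * π) • (Ideal.Quotient.mk 𝔪 y) = Ideal.Quotient.mk 𝔪 ((c * π) • y) := rfl
    rw [h1, Ideal.Quotient.eq_zero_iff_mem, Algebra.smul_def, map_mul, mul_assoc]
    exact 𝔪.mul_mem_left _ (𝔪.mul_mem_right _ hπ𝔪)
  -- a surjection from a finite set
  let Ψ : (G → R ⧸ (Ideal.span {π} : Ideal R)) → B ⧸ 𝔪 :=
    fun c => ∑ g : G, (Quotient.out (c g) : R) • (g : B ⧸ 𝔪)
  have hΨ : Function.Surjective Ψ := by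
    intro x
    obtain ⟨f, -, hf⟩ := Submodule.mem_span_finset.mp (htop x)
    refine ⟨fun g => Ideal.Quotient.mk _ (f g), ?_⟩
    show ∑ g : G, (Quotient.out (Ideal.Quotient.mk (Ideal.span {π}) (f g)) : R) • (g : B ⧸ 𝔪) = x
    rw [← hf, ← Finset.sum_coe_sort G (fun g => f g • g)]
    refine Finset.sum_congr rfl fun g _ => ?_
    have h1 : (Quotient.out (Ideal.Quotient.mk (Ideal.span {π}) (f g)) : R) - f g ∈
        (Ideal.span {π} : Ideal R) := by
      rw [← Ideal.Quotient.eq]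
      exact Quotient.out_eq _
    have h2 := hkill _ h1 (g : B ⧸ 𝔪)
    rw [sub_smul, sub_eq_zero] at h2
    exact h2
  exact Finite.of_surjective Ψ hΨ

end Finite

section Uniform

variable {B : Type*} [CommRing B]

/-- In a finite residue field of cardinality `Q`, `b ^ (m + 1) = b` whenever `Q - 1 ∣ m`. -/
theorem pow_succ_sub_mem {𝔪 : Ideal B} (h𝔪 : 𝔪.IsMaximal) [Finite (B ⧸ 𝔪)] {m : ℕ}
    (hm : (Nat.card (B ⧸ 𝔪) - 1) ∣ m) (b : B) : b ^ (m + 1) - b ∈ 𝔪 := by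
  classical
  letI : Field (B ⧸ 𝔪) := Ideal.Quotient.field 𝔪
  haveI : Fintype (B ⧸ 𝔪) := Fintype.ofFinite _
  rw [← Ideal.Quotient.eq_zero_iff_mem, map_sub, map_pow, sub_eq_zero]
  set x : B ⧸ 𝔪 := Ideal.Quotient.mk 𝔪 b
  by_cases hx : x = 0
  · rw [hx, zero_pow (Nat.succ_ne_zero m)]
  · obtain ⟨d, rfl⟩ := hm
    have h1 : x ^ (Fintype.card (B ⧸ 𝔪) - 1) = 1 := FiniteField.pow_card_sub_one_eq_one x hx
    rw [Nat.card_eq_fintype_card, pow_succ, pow_mul, h1, one_pow, one_mul]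

/-- The characteristic of a finite residue field divides its cardinality. -/
theorem dvd_card_quotient {𝔪 : Ideal B} (h𝔪 : 𝔪.IsMaximal) [Finite (B ⧸ 𝔪)] {p : ℕ}
    (hp : p.Prime) (hchar : (p : B) ∈ 𝔪) : p ∣ Nat.card (B ⧸ 𝔪) := by
  letI : Field (B ⧸ 𝔪) := Ideal.Quotient.field 𝔪
  have h1 : p • (1 : B ⧸ 𝔪) = 0 := by
    rw [nsmul_eq_mul, mul_one]
    have : ((p : B ⧸ 𝔪)) = Ideal.Quotient.mk 𝔪 (p : B) := by rw [map_natCast]
    rw [this]
    exact Ideal.Quotient.eq_zero_iff_mem.mpr hchar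
  haveI : Fact p.Prime := ⟨hp⟩
  have h2 : addOrderOf (1 : B ⧸ 𝔪) = p := addOrderOf_eq_prime h1 one_ne_zero
  rw [← h2]
  exact addOrderOf_dvd_natCard _

/-- **Uniform exponent**: finitely many closed points with finite residue fields of
characteristic `p`. -/
theorem exists_uniform_pow {s : Set (Ideal B)} (hs : s.Finite) (hmax : ∀ 𝔪 ∈ s, 𝔪.IsMaximal)
    (hfin : ∀ 𝔪 ∈ s, Finite (B ⧸ 𝔪)) {p : ℕ} (hp : p.Prime) (hchar : ∀ 𝔪 ∈ s, (p : B) ∈ 𝔪) :
    ∃ m : ℕ, 0 < m ∧ ¬ p ∣ m ∧ ∀ 𝔪 ∈ s, ∀ b : B, b ^ (m + 1) - b ∈ 𝔪 := by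
  classical
  have hQ : ∀ 𝔪 ∈ s, 2 ≤ Nat.card (B ⧸ 𝔪) := by
    intro 𝔪 h
    haveI := hfin 𝔪 h
    have hdvd := dvd_card_quotient (hmax 𝔪 h) hp (hchar 𝔪 h)
    have hpos : 0 < Nat.card (B ⧸ 𝔪) := Nat.card_pos
    exact le_trans hp.two_le (Nat.le_of_dvd hpos hdvd)
  refine ⟨∏ 𝔪 ∈ hs.toFinset, (Nat.card (B ⧸ 𝔪) - 1), ?_, ?_, ?_⟩
  · refine Finset.prod_pos fun 𝔪 h => ?_
    have := hQ 𝔪 (hs.mem_toFinset.mp h)
    omega
  · intro hdvd
    obtain ⟨𝔪, h, h1⟩ := (Prime.dvd_finsetProd_iff hp.prime _).mp hdvd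
    have hm := hs.mem_toFinset.mp h
    haveI := hfin 𝔪 hm
    have h2 := dvd_card_quotient (hmax 𝔪 hm) hp (hchar 𝔪 hm)
    have h3 := hQ 𝔪 hm
    have h4 : p ∣ 1 := by
      have : Nat.card (B ⧸ 𝔪) = (Nat.card (B ⧸ 𝔪) - 1) + 1 := by omega
      rw [this] at h2
      exact (Nat.dvd_add_right h1).mp h2
    exact hp.one_lt.ne' (Nat.dvd_one.mp h4)
  · intro 𝔪 hm b
    haveI := hfin 𝔪 hm
    exact pow_succ_sub_mem (hmax 𝔪 hm)
      (Finset.dvd_prod_of_mem (fun 𝔫 : Ideal B => Nat.card (B ⧸ 𝔫) - 1)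
        (hs.mem_toFinset.mpr hm)) b

end Uniform

end Fermat.Agent.M1.Base.ResFinite73
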