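/-
M1 (S44), chapter BASE (helper73), RAT-NODES part 4 (abstract): **rationality of the nodes after an
unramified cyclotomic enlargement of the base.**

* `exists_uniform_pow_nodes` : on a nodal two-chart model with `O1 ≠ O2` over a base with finite
  residue field of characteristic `p`, there is `m > 0` prime to `p` such that `b ^ (m + 1) ≡ b`
  modulo every node of both charts.
* `etaleBC_of_locint` : the bundle `RatNodes73.EtaleBC` for a chart, from `(LOC-INT)`.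
* `hrat_chart` : one chart, two bases `R₁ → R₂ ∋ ζ` (`ζ ^ m = 1`, `ζ ^ j - 1` units, `F₂ = F₁(ζ)`):
  every node of the chart over `R₂` is rational
  (= the literal `hrat` of `Base/ThickRat53.hres_of_residue`).
-/
import Mathlib
import Fermat.Agent.ES.N34.NumData13
import Fermat.Agent.M1.Car.NodeFin53
import Fermat.Agent.M1.Base.ChartBCAbs34
import Fermat.Agent.M1.Base.ResFinite73
import Fermat.Agent.M1.Base.RatNodes73
import Fermat.Agent.M1.Base.EtaleGen73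

set_option autoImplicit false
set_option linter.unusedSectionVars false
set_option linter.unusedVariables false
set_option linter.style.haveILetI false

namespace Fermat.Agent.M1.Base.RatNodesAbs73

open Polynomial
open Fermat.Agent.ES.N34.NodalCore13 Fermat.Agent.ES.N34.NumData13
open Fermat.Agent.M1.Car Fermat.Agent.M1.Base

/-! ### Multiples of an exponent -/

theorem pow_mul_succ_sub_mem {B : Type*} [CommRing B] {𝔪 : Ideal B} {m : ℕ}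
    (h : ∀ b : B, b ^ (m + 1) - b ∈ 𝔪) (k : ℕ) (b : B) : b ^ (m * k + 1) - b ∈ 𝔪 := by
  induction k with
  | zero =>
    have : b ^ (m * 0 + 1) - b = 0 := by simp
    rw [this]; exact 𝔪.zero_mem
  | succ k ih =>
    have : b ^ (m * (k + 1) + 1) - b = b ^ m * (b ^ (m * k + 1) - b) + (b ^ (m + 1) - b) := by
      ring
    rw [this]
    exact 𝔪.add_mem (𝔪.mul_mem_left _ ih) (h b)

/-! ### A uniform exponent at the nodes -/

section Uniform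

variable {R K F : Type*} [CommRing R] [Field K] [Field F] [Algebra R K] [Algebra K F]
  [Algebra R F] [IsScalarTower R K F]
variable {π : R} {t : F} {B0 B1 : Subalgebra R F} {O1 O2 : ValuationSubring F}

/-- **A uniform exponent at the nodes.** -/
theorem exists_uniform_pow_nodes (N : NodalNumData R K F π t B0 B1 O1 O2)
    [Finite (R ⧸ (Ideal.span {π} : Ideal R))] (hne : O1 ≠ O2)
    (fin1 : ∃ (r : ℕ) (e : Fin r → F), (∀ i, e i ∈ B1) ∧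
      ∀ x ∈ B1, ∃ P : Fin r → R[X], x = ∑ i, aeval t⁻¹ (P i) * e i)
    {p : ℕ} (hp : p.Prime) (hchar : π ∣ (p : R)) :
    ∃ m : ℕ, 0 < m ∧ ¬ p ∣ m ∧
      (∀ 𝔪 : Ideal B0, 𝔪.IsMaximal → algebraMap R B0 π ∈ 𝔪 → ¬ OffBranch π B0 O1 𝔪 →
        ¬ OffBranch π B0 O2 𝔪 → ∀ b : B0, b ^ (m + 1) - b ∈ 𝔪) ∧
      (∀ 𝔪 : Ideal B1, 𝔪.IsMaximal → algebraMap R B1 π ∈ 𝔪 → ¬ OffBranch π B1 O1 𝔪 →
        ¬ OffBranch π B1 O2 𝔪 → ∀ b : B1, b ^ (m + 1) - b ∈ 𝔪) := by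
  classical
  obtain ⟨hn0, hn1⟩ := NodeFin53.finite_nodes_of_numData N hne
  obtain ⟨hf0, hf1⟩ := ResidueFin53.hfin_of_numData N
  obtain ⟨c, hc⟩ := hchar
  have hp0 : ∀ 𝔪 : Ideal B0, algebraMap R B0 π ∈ 𝔪 → ((p : ℕ) : B0) ∈ 𝔪 := by
    intro 𝔪 h
    have : ((p : ℕ) : B0) = algebraMap R B0 π * algebraMap R B0 c := by
      rw [← map_mul, ← hc, map_natCast]
    rw [this]
    exact 𝔪.mul_mem_right _ h
  have hp1 : ∀ 𝔪 : Ideal B1, algebraMap R B1 π ∈ 𝔪 → ((p : ℕ) : B1) ∈ 𝔪 := by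
    intro 𝔪 h
    have : ((p : ℕ) : B1) = algebraMap R B1 π * algebraMap R B1 c := by
      rw [← map_mul, ← hc, map_natCast]
    rw [this]
    exact 𝔪.mul_mem_right _ h
  obtain ⟨m0, hm0, hpm0, h0⟩ := ResFinite73.exists_uniform_pow hn0 (fun 𝔪 h => h.1)
    (fun 𝔪 h => ResFinite73.finite_quotient N.model.t_mem N.model.fin0 𝔪 h.2.1
      (hf0 𝔪 h.1 h.2.1)) hp (fun 𝔪 h => hp0 𝔪 h.2.1)
  obtain ⟨m1, hm1, hpm1, h1⟩ := ResFinite73.exists_uniform_pow hn1 (fun 𝔪 h => h.1)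
    (fun 𝔪 h => ResFinite73.finite_quotient N.model.tinv_mem fin1 𝔪 h.2.1
      (hf1 𝔪 h.1 h.2.1)) hp (fun 𝔪 h => hp1 𝔪 h.2.1)
  refine ⟨m0 * m1, Nat.mul_pos hm0 hm1, ?_, ?_, ?_⟩
  · intro h
    rcases (Nat.Prime.dvd_mul hp).mp h with h | h
    · exact hpm0 h
    · exact hpm1 h
  · intro 𝔪 h𝔪 hπ𝔪 ho1 ho2 b
    exact pow_mul_succ_sub_mem (h0 𝔪 ⟨h𝔪, hπ𝔪, ho1, ho2⟩) m1 b
  · intro 𝔪 h𝔪 hπ𝔪 ho1 ho2 b
    rw [mul_comm]
    exact pow_mul_succ_sub_mem (h1 𝔪 ⟨h𝔪, hπ𝔪, ho1, ho2⟩) m0 b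

end Uniform

/-! ### One chart over two bases -/

section TwoBases

variable {R₁ R₂ F₁ F₂ : Type*} [CommRing R₁] [CommRing R₂] [Field F₁] [Field F₂] [Algebra R₁ R₂]
  [Algebra R₁ F₁] [Algebra R₂ F₂] [Algebra F₁ F₂] [Algebra R₁ F₂] [IsScalarTower R₁ F₁ F₂]
  [IsScalarTower R₁ R₂ F₂] [CharZero F₁]

/-- **The étale base-change bundle from `(LOC-INT)`.** -/
theorem etaleBC_of_locint {t : F₁} {B₁ : Subalgebra R₁ F₁} {B₂ : Subalgebra R₂ F₂}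
    (ht : t ∈ B₁) (int₁ : ∀ x ∈ B₁, IsIntegral (Algebra.adjoin R₁ {t}) x)
    (intcl₁ : ∀ x : F₁, IsIntegral B₁ x → x ∈ B₁)
    (frac₁ : ∀ x : F₁, ∃ a ∈ B₁, ∃ b ∈ B₁, b ≠ 0 ∧ x * b = a)
    (ht' : algebraMap F₁ F₂ t ∈ B₂)
    (int₂ : ∀ x ∈ B₂, IsIntegral (Algebra.adjoin R₂ {algebraMap F₁ F₂ t}) x)
    (intcl₂ : ∀ x : F₂, IsIntegral B₂ x → x ∈ B₂)
    {m : ℕ} (hmu : ∃ u ∈ B₁, (m : F₁) * u = 1)
    (ζ : R₂) (hζ : ζ ^ m = 1)
    (hgenF : IntermediateField.adjoin F₁ {algebraMap R₂ F₂ ζ} = ⊤)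
    (hlocint : ∀ z : F₂, IsIntegral (Algebra.adjoin R₂ {algebraMap F₁ F₂ t}) z →
      ∃ s : R₂, IsUnit s ∧ IsIntegral (Algebra.adjoin R₁ {t}) (algebraMap R₂ F₂ s * z)) :
    RatNodes73.EtaleBC (algebraMap F₁ F₂) (algebraMap R₁ R₂) B₁ B₂ := by
  refine ⟨fun r => ?_, fun b hb => ?_, fun z hz => ?_⟩
  · rw [← IsScalarTower.algebraMap_apply R₁ F₁ F₂, ← IsScalarTower.algebraMap_apply R₁ R₂ F₂]
  · exact ChartBCAbs34.mem_of_isIntegral_adjoin B₂ ht' intcl₂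
      (ChartDecomp34.isIntegral_adjoin_map (R₂ := R₂) (F₂ := F₂) t (int₁ b hb))
  · obtain ⟨s, hs, hsz⟩ := hlocint z (int₂ z hz)
    obtain ⟨s', hs'⟩ := hs.exists_left_inv
    have hle : Algebra.adjoin R₁ {t} ≤ B₁ := by
      rw [Algebra.adjoin_le_iff]
      intro x hx
      rw [Set.mem_singleton_iff.mp hx]
      exact ht
    exact EtaleGen73.mem_closure_of_isIntegral B₁ intcl₁ frac₁ ζ hζ hmu hgenF hs'
      (ChartDecomp34.isIntegral_subalgebra_mono (F₂ := F₂) hle hsz)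

/-- **Rationality of the nodes of one chart over the enlarged base.** -/
theorem hrat_chart {π₁ : R₁} {t : F₁} {B₁ : Subalgebra R₁ F₁} {B₂ : Subalgebra R₂ F₂}
    {O1 O2 : ValuationSubring F₁} {O1' O2' : ValuationSubring F₂}
    (ht : t ∈ B₁) (int₁ : ∀ x ∈ B₁, IsIntegral (Algebra.adjoin R₁ {t}) x)
    (intcl₁ : ∀ x : F₁, IsIntegral B₁ x → x ∈ B₁)
    (frac₁ : ∀ x : F₁, ∃ a ∈ B₁, ∃ b ∈ B₁, b ≠ 0 ∧ x * b = a)
    (ht' : algebraMap F₁ F₂ t ∈ B₂)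
    (int₂ : ∀ x ∈ B₂, IsIntegral (Algebra.adjoin R₂ {algebraMap F₁ F₂ t}) x)
    (intcl₂ : ∀ x : F₂, IsIntegral B₂ x → x ∈ B₂)
    (hmono1 : ∀ z ∈ O1, algebraMap F₁ F₂ z ∈ O1') (hmono2 : ∀ z ∈ O2, algebraMap F₁ F₂ z ∈ O2')
    (hmax₁ : (Ideal.span {π₁} : Ideal R₁).IsMaximal)
    (hmax₂ : (Ideal.span {algebraMap R₁ R₂ π₁} : Ideal R₂).IsMaximal)
    [Finite (R₂ ⧸ (Ideal.span {algebraMap R₁ R₂ π₁} : Ideal R₂))]
    {m : ℕ} (hm : 0 < m) (hmu : ∃ u ∈ B₁, (m : F₁) * u = 1)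
    (ζ : R₂) (hζ : ζ ^ m = 1) (hζu : ∀ j : ℕ, 0 < j → j < m → IsUnit (ζ ^ j - 1))
    (hgenF : IntermediateField.adjoin F₁ {algebraMap R₂ F₂ ζ} = ⊤)
    (hlocint : ∀ z : F₂, IsIntegral (Algebra.adjoin R₂ {algebraMap F₁ F₂ t}) z →
      ∃ s : R₂, IsUnit s ∧ IsIntegral (Algebra.adjoin R₁ {t}) (algebraMap R₂ F₂ s * z))
    (hpow : ∀ 𝔪₁ : Ideal B₁, 𝔪₁.IsMaximal → algebraMap R₁ B₁ π₁ ∈ 𝔪₁ →
      ¬ OffBranch π₁ B₁ O1 𝔪₁ → ¬ OffBranch π₁ B₁ O2 𝔪₁ → ∀ b : B₁, b ^ (m + 1) - b ∈ 𝔪₁)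
    (𝔪 : Ideal B₂) (h𝔪 : 𝔪.IsMaximal)
    (hπ𝔪 : algebraMap R₂ B₂ (algebraMap R₁ R₂ π₁) ∈ 𝔪)
    (h1 : ¬ OffBranch (algebraMap R₁ R₂ π₁) B₂ O1' 𝔪)
    (h2 : ¬ OffBranch (algebraMap R₁ R₂ π₁) B₂ O2' 𝔪) :
    ∀ z : B₂, ∃ r : R₂, z - algebraMap R₂ B₂ r ∈ 𝔪 := by
  classical
  have C := etaleBC_of_locint ht int₁ intcl₁ frac₁ ht' int₂ intcl₂ hmu ζ hζ hgenF hlocint
  haveI : 𝔪.IsPrime := h𝔪.isPrime
  haveI hdp : (RatNodes73.down C 𝔪).IsPrime := Ideal.comap_isPrime (RatNodes73.chartHom C) 𝔪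
  have hπd : algebraMap R₁ B₁ π₁ ∈ RatNodes73.down C 𝔪 := RatNodes73.pi_mem_down C hπ𝔪
  -- the point below is closed
  obtain ⟨n, hn, b, hb𝔪, hbt⟩ :=
    ResidueFin53.exists_pow_sub_mem_of_finite_base ht' int₂ hmax₂ 𝔪 h𝔪 hπ𝔪
  have hdmax : (RatNodes73.down C 𝔪).IsMaximal := by
    haveI : Nontrivial (R₁ ⧸ (Ideal.span {π₁} : Ideal R₁)) :=
      Ideal.Quotient.nontrivial_iff.mpr hmax₁.ne_top
    refine NodeFin53.isMaximal_of_relation ht int₁ hmax₁ (RatNodes73.down C 𝔪) hπd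
      (X ^ (n + 1) - X) ?_ ?_
    · intro h0
      have h1 := congrArg (fun P => Polynomial.coeff P (n + 1)) h0
      simp only [Polynomial.map_sub, Polynomial.map_pow, Polynomial.map_X, coeff_sub, coeff_X_pow,
        coeff_zero] at h1
      rw [if_pos trivial, coeff_X, if_neg (by omega), sub_zero] at h1
      exact one_ne_zero h1
    · rw [RatNodes73.mem_down]
      have : RatNodes73.chartHom C (aeval (⟨t, ht⟩ : B₁) (X ^ (n + 1) - X : R₁[X])) = b := by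
        apply Subtype.ext
        rw [hbt]
        simp
      rw [this]
      exact hb𝔪
  refine RatNodes73.hrat_up C hm
    (hpow _ hdmax hπd (RatNodes73.not_offBranch_down C hmono1 h1)
      (RatNodes73.not_offBranch_down C hmono2 h2)) ζ hζ ?_
  intro j hj hjm hmem
  exact h𝔪.ne_top (Ideal.eq_top_of_isUnit_mem _ hmem ((hζu j hj hjm).map (algebraMap R₂ B₂)))

end TwoBases

end Fermat.Agent.M1.Base.RatNodesAbs73
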