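/-
M1 (S44), chapter BASE (helper53): **thick nodes over a totally ramified base.**

The abstract middle layer between the chart-level base change input (`PointBC53.ChartBC`:
`B² = ι B¹ + π₂ B²`) and the local-ring-level bridge `Node/BridgeL25.thickNode_locSub`:

* `locSub_map_mem`, `locSub_decomp` : the local ring of `B²` at a closed point `𝔪` of the special
  fibre is `ι (B¹_{𝔪₁}) + π₂ B²_𝔪`, `𝔪₁ = down 𝔪`;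
* `locSub_le` : at a point of the branch `O` the local ring lies in `O`;
* `thickAt_up` : regular nodes of `B¹` with rational residue field give
  `NodeFrame58.ThickAt π₂ B² O1² O2² e` at every node of `B²` (one half of `ThickNodes`);
* `thickNodes_up` : `NodeFrame58.ThickNodes` over the ramified base.
-/
import Mathlib
import Fermat.Agent.M1.Base.PointBC53
import Fermat.Agent.M1.Node.BridgeL25
import Fermat.Agent.M1.Car.NodeFrame58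

set_option autoImplicit false
set_option linter.unusedSectionVars false
set_option linter.unusedVariables false
set_option linter.style.haveILetI false

namespace Fermat.Agent.M1.Base.ThickBC53

open Fermat.Agent.ES.N34.NodalCore13 Fermat.Agent.ES.N34.NodalSmooth13
  Fermat.Agent.ES.N34.NumData13 Fermat.Agent.M1.Node.Thick25 Fermat.Agent.M1.Node.BaseNode25
  Fermat.Agent.M1.Node.BridgeL25 Fermat.Agent.M1.Base.PointBC53 Fermat.Agent.M1.Car.NodeFrame58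

variable {R₁ R₂ F₁ F₂ : Type*} [CommRing R₁] [CommRing R₂] [Field F₁] [Field F₂]
  [Algebra R₁ F₁] [Algebra R₂ F₂] [Algebra F₁ F₂]
  {π₁ : R₁} {π₂ : R₂} {B₁ : Subalgebra R₁ F₁} {B₂ : Subalgebra R₂ F₂}

/-- the local ring over `K` maps to the local ring over `L`. -/
theorem locSub_map_mem (C : ChartBC (algebraMap F₁ F₂) π₁ π₂ B₁ B₂) {𝔪 : Ideal B₂}
    [h𝔪 : 𝔪.IsPrime] [h₁ : (down C 𝔪).IsPrime] :
    ∀ s ∈ locSub B₁ (down C 𝔪), algebraMap F₁ F₂ s ∈ locSub B₂ 𝔪 := by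
  rintro s ⟨a, d, hd, h⟩
  refine ⟨chartHom C a, chartHom C d, fun hh => hd hh, ?_⟩
  rw [coe_chartHom, coe_chartHom, ← map_mul, h]

/-- elements outside a prime are nonzero. -/
theorem coe_ne_zero' {R F : Type*} [CommRing R] [Field F] [Algebra R F] {B : Subalgebra R F}
    {𝔪 : Ideal B} {d : B} (hd : d ∉ 𝔪) : (d : F) ≠ 0 := by
  intro h0
  apply hd
  have : d = 0 := Subtype.ext h0
  rw [this]
  exact 𝔪.zero_mem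

/-- **`B²_𝔪 = ι (B¹_{𝔪₁}) + π₂ B²_𝔪`.** -/
theorem locSub_decomp (C : ChartBC (algebraMap F₁ F₂) π₁ π₂ B₁ B₂) {𝔪 : Ideal B₂}
    [h𝔪 : 𝔪.IsPrime] [h₁ : (down C 𝔪).IsPrime] (hπ : algebraMap R₂ B₂ π₂ ∈ 𝔪) :
    ∀ c ∈ locSub B₂ 𝔪, ∃ s ∈ locSub B₁ (down C 𝔪), ∃ c' ∈ locSub B₂ 𝔪,
      c = algebraMap F₁ F₂ s + algebraMap R₂ F₂ π₂ * c' := by
  rintro c ⟨a, d, hd, h⟩
  obtain ⟨a₁, a', ha⟩ := exists_down C a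
  obtain ⟨d₁, d', hd'⟩ := exists_down C d
  have hd₁ : d₁ ∉ down C 𝔪 := by
    intro hh
    apply hd
    rw [hd']
    exact 𝔪.add_mem hh (pi_mul_mem hπ d')
  have hd0 : (d : F₂) ≠ 0 := coe_ne_zero' hd
  have hd₁0 : (d₁ : F₁) ≠ 0 := coe_ne_zero' hd₁
  have hιd₁0 : algebraMap F₁ F₂ (d₁ : F₁) ≠ 0 := by
    intro h0
    exact hd₁0 ((map_eq_zero _).mp h0)
  have hA : (a : F₂) = algebraMap F₁ F₂ (a₁ : F₁) + algebraMap R₂ F₂ π₂ * (a' : F₂) := by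
    have := congrArg (fun z : B₂ => (z : F₂)) ha
    simpa using this
  have hD : (d : F₂) = algebraMap F₁ F₂ (d₁ : F₁) + algebraMap R₂ F₂ π₂ * (d' : F₂) := by
    have := congrArg (fun z : B₂ => (z : F₂)) hd'
    simpa using this
  have hdd : d * chartHom C d₁ ∉ 𝔪 := fun hh => (h𝔪.mem_or_mem hh).elim hd hd₁
  refine ⟨(a₁ : F₁) / (d₁ : F₁), ⟨a₁, d₁, hd₁, div_mul_cancel₀ _ hd₁0⟩,
    ((a' : F₂) * algebraMap F₁ F₂ (d₁ : F₁) - algebraMap F₁ F₂ (a₁ : F₁) * (d' : F₂)) /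
      ((d : F₂) * algebraMap F₁ F₂ (d₁ : F₁)),
    ⟨a' * chartHom C d₁ - chartHom C a₁ * d', d * chartHom C d₁, hdd, ?_⟩, ?_⟩
  · push_cast
    rw [coe_chartHom, coe_chartHom]
    exact div_mul_cancel₀ _ (mul_ne_zero hd0 hιd₁0)
  · have hc : c = (a : F₂) / (d : F₂) := by
      rw [eq_div_iff hd0]; exact h
    rw [hc, map_div₀, hA]
    field_simp
    rw [hD]
    ring

/-- at a point of the branch `O` the local ring of the chart lies in `O`. -/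
theorem locSub_le {R F : Type*} [CommRing R] [Field F] [Algebra R F] {π : R}
    {B : Subalgebra R F} {O : ValuationSubring F} (le : ∀ x ∈ B, x ∈ O)
    (unif : ∀ x ∈ O, x⁻¹ ∉ O → ∃ c ∈ O, x = algebraMap R F π * c)
    {𝔪 : Ideal B} [h𝔪 : 𝔪.IsPrime] (hon : ¬ OffBranch π B O 𝔪) :
    ∀ c ∈ locSub B 𝔪, c ∈ O := by
  rintro c ⟨a, d, hd, h⟩
  have hd0 : (d : F) ≠ 0 := coe_ne_zero' hd
  have hdinv : ((d : F))⁻¹ ∈ O := by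
    by_contra hni
    obtain ⟨c', hc', hdc⟩ := unif (d : F) (le _ d.2) hni
    exact hon ⟨d, hd, c', hc', hdc⟩
  have hc : c = (a : F) * ((d : F))⁻¹ := by
    rw [← h, mul_assoc, mul_inv_cancel₀ hd0, mul_one]
  rw [hc]
  exact O.mul_mem _ _ (le _ a.2) hdinv

variable {O1₁ O2₁ : ValuationSubring F₁} {O1₂ O2₂ : ValuationSubring F₂}

/-- **Thick nodes go up**: regular nodes of `B¹` with rational residue field give thick nodes of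
thickness `e` (`π₁ = u π₂ ^ e`) with rational residue field at every node of `B²`.
The conclusion is literally one half of `NodeFrame58.ThickNodes`. -/
theorem thickAt_up (C : ChartBC (algebraMap F₁ F₂) π₁ π₂ B₁ B₂)
    (compat1 : ∀ z : F₁, algebraMap F₁ F₂ z ∈ O1₂ ↔ z ∈ O1₁)
    (compat2 : ∀ z : F₁, algebraMap F₁ F₂ z ∈ O2₂ ↔ z ∈ O2₁)
    (le1 : ∀ x ∈ B₂, x ∈ O1₂) (le2 : ∀ x ∈ B₂, x ∈ O2₂)
    (nu1 : (algebraMap R₂ F₂ π₂)⁻¹ ∉ O1₂) (nu2 : (algebraMap R₂ F₂ π₂)⁻¹ ∉ O2₂)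
    (unif1 : ∀ x ∈ O1₁, x⁻¹ ∉ O1₁ → ∃ c ∈ O1₁, x = algebraMap R₁ F₁ π₁ * c)
    (unif2 : ∀ x ∈ O2₁, x⁻¹ ∉ O2₁ → ∃ c ∈ O2₁, x = algebraMap R₁ F₁ π₁ * c)
    (unif1' : ∀ x ∈ O1₂, x⁻¹ ∉ O1₂ → ∃ c ∈ O1₂, x = algebraMap R₂ F₂ π₂ * c)
    (unif2' : ∀ x ∈ O2₂, x⁻¹ ∉ O2₂ → ∃ c ∈ O2₂, x = algebraMap R₂ F₂ π₂ * c)
    {e : ℕ} (he : 0 < e) {u u' : F₂} (hu : u ∈ B₂) (hu' : u' ∈ B₂) (huu' : u * u' = 1)
    (heis : algebraMap F₁ F₂ (algebraMap R₁ F₁ π₁) = u * algebraMap R₂ F₂ π₂ ^ e)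
    (hR : ∀ r : R₁, ∃ r' : R₂, algebraMap F₁ F₂ (algebraMap R₁ F₁ r) = algebraMap R₂ F₂ r')
    (hK : ∀ 𝔪₁ : Ideal B₁, ∀ h : 𝔪₁.IsMaximal, algebraMap R₁ B₁ π₁ ∈ 𝔪₁ →
      ¬ OffBranch π₁ B₁ O1₁ 𝔪₁ → ¬ OffBranch π₁ B₁ O2₁ 𝔪₁ →
      (haveI := h.isPrime
       ∃ x y : F₁, RegNode (locSub B₁ 𝔪₁).toSubring O1₁ O2₁ (algebraMap R₁ F₁ π₁) x y ∧
        ∀ c ∈ locSub B₁ 𝔪₁, ∃ r : R₁, ∃ a ∈ locSub B₁ 𝔪₁, ∃ b ∈ locSub B₁ 𝔪₁,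
          ∃ d ∈ locSub B₁ 𝔪₁,
            c = algebraMap R₁ F₁ r + a * algebraMap R₁ F₁ π₁ + b * x + d * y)) :
    ∀ 𝔪 : Ideal B₂, ∀ h𝔪 : 𝔪.IsMaximal, algebraMap R₂ B₂ π₂ ∈ 𝔪 → ¬ OffBranch π₂ B₂ O1₂ 𝔪 →
      ¬ OffBranch π₂ B₂ O2₂ 𝔪 → (haveI := h𝔪.isPrime; ThickAt π₂ B₂ O1₂ O2₂ e 𝔪) := by
  intro 𝔪 h𝔪 hπ h1 h2
  haveI := h𝔪.isPrime
  have hmax₁ := down_isMaximal C h𝔪 hπ
  haveI := hmax₁.isPrime
  have hon1 : ¬ OffBranch π₁ B₁ O1₁ (down C 𝔪) :=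
    fun h => h1 ((offBranch_iff C compat1 le1 nu1 unif1 hπ).mpr h)
  have hon2 : ¬ OffBranch π₁ B₁ O2₁ (down C 𝔪) :=
    fun h => h2 ((offBranch_iff C compat2 le2 nu2 unif2 hπ).mpr h)
  obtain ⟨x, y, hS, hres⟩ := hK (down C 𝔪) hmax₁ (pi_mem_down C hπ) hon1 hon2
  have heis' : algebraMap R₂ F₂ π₂ ^ e = algebraMap F₁ F₂ (algebraMap R₁ F₁ π₁) * u' := by
    rw [heis, mul_comm u, mul_assoc, huu', mul_one]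
  have hT := thickNode_locSub hS π₂ B₂ O1₂ O2₂ 𝔪 hπ he
    (fun s hs => locSub_map_mem C s hs) (locSub_decomp C hπ)
    (locSub_le le1 unif1' h1) (locSub_le le2 unif2' h2) nu1 nu2 unif1' unif2' compat1 compat2
    ⟨u', le_locSub B₂ 𝔪 hu', u, le_locSub B₂ 𝔪 hu, by rw [mul_comm]; exact huu', heis'⟩
  refine ⟨algebraMap F₁ F₂ x, algebraMap F₁ F₂ y, hT, ?_⟩
  intro c hc
  obtain ⟨s, hs, c', hc', hcs⟩ := locSub_decomp C hπ c hc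
  obtain ⟨r, a, ha, b, hb, d, hd, hsr⟩ := hres s hs
  obtain ⟨r', hr'⟩ := hR r
  obtain ⟨e', rfl⟩ : ∃ e', e = e' + 1 := ⟨e - 1, by omega⟩
  have hπ₂ : algebraMap R₂ F₂ π₂ ∈ locSub B₂ 𝔪 := (locSub B₂ 𝔪).algebraMap_mem π₂
  refine ⟨r', algebraMap F₁ F₂ a * u * algebraMap R₂ F₂ π₂ ^ e' + c', ?_,
    algebraMap F₁ F₂ b, locSub_map_mem C b hb, algebraMap F₁ F₂ d, locSub_map_mem C d hd, ?_⟩
  · exact (locSub B₂ 𝔪).add_mem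
      ((locSub B₂ 𝔪).mul_mem ((locSub B₂ 𝔪).mul_mem (locSub_map_mem C a ha)
        (le_locSub B₂ 𝔪 hu)) ((locSub B₂ 𝔪).pow_mem hπ₂ e')) hc'
  · rw [hcs, hsr, map_add, map_add, map_add, map_mul, map_mul, map_mul, hr', heis, pow_succ]
    ring

/-- **`ThickNodes` over the ramified base.** -/
theorem thickNodes_up {B0₁ B1₁ : Subalgebra R₁ F₁} {B0₂ B1₂ : Subalgebra R₂ F₂}
    (C0 : ChartBC (algebraMap F₁ F₂) π₁ π₂ B0₁ B0₂)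
    (C1 : ChartBC (algebraMap F₁ F₂) π₁ π₂ B1₁ B1₂)
    (compat1 : ∀ z : F₁, algebraMap F₁ F₂ z ∈ O1₂ ↔ z ∈ O1₁)
    (compat2 : ∀ z : F₁, algebraMap F₁ F₂ z ∈ O2₂ ↔ z ∈ O2₁)
    (le1_0 : ∀ x ∈ B0₂, x ∈ O1₂) (le2_0 : ∀ x ∈ B0₂, x ∈ O2₂)
    (le1_1 : ∀ x ∈ B1₂, x ∈ O1₂) (le2_1 : ∀ x ∈ B1₂, x ∈ O2₂)
    (nu1 : (algebraMap R₂ F₂ π₂)⁻¹ ∉ O1₂) (nu2 : (algebraMap R₂ F₂ π₂)⁻¹ ∉ O2₂)
    (unif1 : ∀ x ∈ O1₁, x⁻¹ ∉ O1₁ → ∃ c ∈ O1₁, x = algebraMap R₁ F₁ π₁ * c)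
    (unif2 : ∀ x ∈ O2₁, x⁻¹ ∉ O2₁ → ∃ c ∈ O2₁, x = algebraMap R₁ F₁ π₁ * c)
    (unif1' : ∀ x ∈ O1₂, x⁻¹ ∉ O1₂ → ∃ c ∈ O1₂, x = algebraMap R₂ F₂ π₂ * c)
    (unif2' : ∀ x ∈ O2₂, x⁻¹ ∉ O2₂ → ∃ c ∈ O2₂, x = algebraMap R₂ F₂ π₂ * c)
    {e : ℕ} (he : 0 < e) {u u' : R₂} (huu' : u * u' = 1)
    (heis : algebraMap F₁ F₂ (algebraMap R₁ F₁ π₁) = algebraMap R₂ F₂ u * algebraMap R₂ F₂ π₂ ^ e)
    (hR : ∀ r : R₁, ∃ r' : R₂, algebraMap F₁ F₂ (algebraMap R₁ F₁ r) = algebraMap R₂ F₂ r')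
    (hK0 : ∀ 𝔪₁ : Ideal B0₁, ∀ h : 𝔪₁.IsMaximal, algebraMap R₁ B0₁ π₁ ∈ 𝔪₁ →
      ¬ OffBranch π₁ B0₁ O1₁ 𝔪₁ → ¬ OffBranch π₁ B0₁ O2₁ 𝔪₁ →
      (haveI := h.isPrime
       ∃ x y : F₁, RegNode (locSub B0₁ 𝔪₁).toSubring O1₁ O2₁ (algebraMap R₁ F₁ π₁) x y ∧
        ∀ c ∈ locSub B0₁ 𝔪₁, ∃ r : R₁, ∃ a ∈ locSub B0₁ 𝔪₁, ∃ b ∈ locSub B0₁ 𝔪₁,
          ∃ d ∈ locSub B0₁ 𝔪₁,
            c = algebraMap R₁ F₁ r + a * algebraMap R₁ F₁ π₁ + b * x + d * y))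
    (hK1 : ∀ 𝔪₁ : Ideal B1₁, ∀ h : 𝔪₁.IsMaximal, algebraMap R₁ B1₁ π₁ ∈ 𝔪₁ →
      ¬ OffBranch π₁ B1₁ O1₁ 𝔪₁ → ¬ OffBranch π₁ B1₁ O2₁ 𝔪₁ →
      (haveI := h.isPrime
       ∃ x y : F₁, RegNode (locSub B1₁ 𝔪₁).toSubring O1₁ O2₁ (algebraMap R₁ F₁ π₁) x y ∧
        ∀ c ∈ locSub B1₁ 𝔪₁, ∃ r : R₁, ∃ a ∈ locSub B1₁ 𝔪₁, ∃ b ∈ locSub B1₁ 𝔪₁,
          ∃ d ∈ locSub B1₁ 𝔪₁,
            c = algebraMap R₁ F₁ r + a * algebraMap R₁ F₁ π₁ + b * x + d * y)) :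
    ThickNodes π₂ B0₂ B1₂ O1₂ O2₂ e := by
  have huu'F : algebraMap R₂ F₂ u * algebraMap R₂ F₂ u' = 1 := by
    rw [← map_mul, huu', map_one]
  exact ⟨thickAt_up C0 compat1 compat2 le1_0 le2_0 nu1 nu2 unif1 unif2 unif1' unif2' he
      (B0₂.algebraMap_mem u) (B0₂.algebraMap_mem u') huu'F heis hR hK0,
    thickAt_up C1 compat1 compat2 le1_1 le2_1 nu1 nu2 unif1 unif2 unif1' unif2' he
      (B1₂.algebraMap_mem u) (B1₂.algebraMap_mem u') huu'F heis hR hK1⟩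

end Fermat.Agent.M1.Base.ThickBC53
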