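/-
M1 (S44), chapter BASE (helper53): **the rationality clause of `NodeFrame58.ThickAt` from
`B / 𝔪 = R / π`.**

`hres_of_residue` : at a regular node (`BaseNode25.RegNode` for the local ring `locSub B 𝔪`) whose
residue field is that of `R` (`∀ b : B, ∃ r : R, b - r ∈ 𝔪`), every element of the local ring is
`r + a π + b x + d y`.  This is the second conjunct of the hypothesis `hK` of
`ThickBC53.thickAt_up`; RAT-NODES only has to supply `B / 𝔪 = R / π`.
-/
import Mathlib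
import Fermat.Agent.ES.N34.NodalSmooth13
import Fermat.Agent.M1.Node.BaseNode25

set_option autoImplicit false
set_option linter.unusedSectionVars false
set_option linter.unusedVariables false
set_option linter.style.haveILetI false

namespace Fermat.Agent.M1.Base.ThickRat53

open Fermat.Agent.ES.N34.NodalCore13 Fermat.Agent.ES.N34.NodalSmooth13
  Fermat.Agent.M1.Node.Thick25 Fermat.Agent.M1.Node.BaseNode25

variable {R F : Type*} [CommRing R] [Field F] [Algebra R F]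

/-- a fraction with numerator in `𝔪` and denominator outside is not a unit of the local ring. -/
theorem inv_notMem_locSub {B : Subalgebra R F} {𝔪 : Ideal B} [h𝔪 : 𝔪.IsPrime] {z : F} {n d : B}
    (hn : n ∈ 𝔪) (hd : d ∉ 𝔪) (hz : z * (d : F) = (n : F)) (hz0 : z ≠ 0) :
    z⁻¹ ∉ locSub B 𝔪 := by
  rintro ⟨a₂, d₂, hd₂, h₂⟩
  have hd0 : (d : F) ≠ 0 := by
    intro h0
    apply hd
    have : d = 0 := Subtype.ext h0
    rw [this]; exact 𝔪.zero_mem
  -- `n a₂ = d d₂`
  have hF : (n : F) * (a₂ : F) = (d : F) * (d₂ : F) := by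
    rw [← hz, ← h₂]
    field_simp
  have hB : n * a₂ = d * d₂ := Subtype.ext (by push_cast; exact hF)
  have hmem : d * d₂ ∈ 𝔪 := by
    rw [← hB]; exact 𝔪.mul_mem_right _ hn
  exact (h𝔪.mem_or_mem hmem).elim hd hd₂

/-- **The rationality clause of `ThickAt` from `B / 𝔪 = R / π`.** -/
theorem hres_of_residue {π : R} {B : Subalgebra R F} {O1 O2 : ValuationSubring F} {q x y : F}
    {𝔪 : Ideal B} (h𝔪 : 𝔪.IsMaximal)
    (hS : (haveI := h𝔪.isPrime; RegNode (locSub B 𝔪).toSubring O1 O2 q x y))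
    (hrat : ∀ b : B, ∃ r : R, b - algebraMap R B r ∈ 𝔪) :
    (haveI := h𝔪.isPrime
     ∀ c ∈ locSub B 𝔪, ∃ r : R, ∃ a ∈ locSub B 𝔪, ∃ b ∈ locSub B 𝔪, ∃ d ∈ locSub B 𝔪,
       c = algebraMap R F r + a * algebraMap R F π + b * x + d * y) := by
  haveI := h𝔪.isPrime
  rintro c ⟨a, d, hd, h⟩
  obtain ⟨d'', i, hi, hdi⟩ := h𝔪.exists_inv hd
  have hdd : d'' * d - 1 ∈ 𝔪 := by
    have : d'' * d - 1 = -i := by rw [← hdi]; ring
    rw [this]; exact 𝔪.neg_mem hi
  obtain ⟨r, hr⟩ := hrat (a * d'')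
  have hd0 : (d : F) ≠ 0 := by
    intro h0
    apply hd
    have : d = 0 := Subtype.ext h0
    rw [this]; exact 𝔪.zero_mem
  -- the numerator `n = a - r d ∈ 𝔪`
  have hn : a - algebraMap R B r * d ∈ 𝔪 := by
    have h1 : a - algebraMap R B r * d =
        d * (a * d'' - algebraMap R B r) - a * (d'' * d - 1) := by ring
    rw [h1]
    exact 𝔪.sub_mem (𝔪.mul_mem_left _ hr) (𝔪.mul_mem_left _ hdd)
  have hz : (c - algebraMap R F r) * (d : F) = ((a - algebraMap R B r * d : B) : F) := by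
    push_cast
    rw [sub_mul, h]
  have h0mem : (0 : F) ∈ locSub B 𝔪 := (locSub B 𝔪).zero_mem
  by_cases hz0 : c - algebraMap R F r = 0
  · refine ⟨r, 0, h0mem, 0, h0mem, 0, h0mem, ?_⟩
    rw [zero_mul, zero_mul, zero_mul, add_zero, add_zero, add_zero]
    exact sub_eq_zero.mp hz0
  · have hcr : c - algebraMap R F r ∈ (locSub B 𝔪).toSubring :=
      ⟨a - algebraMap R B r * d, d, hd, hz⟩
    have hnu : (c - algebraMap R F r)⁻¹ ∉ (locSub B 𝔪).toSubring :=
      inv_notMem_locSub hn hd hz hz0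
    obtain ⟨a', ha', b', hb', hab⟩ := hS.nonunit _ hcr hnu
    refine ⟨r, 0, h0mem, a', ha', b', hb', ?_⟩
    rw [zero_mul, add_zero, add_assoc, ← hab]
    ring

/-- **The hypothesis `hK` of `ThickBC53.thickAt_up` at one node**, from the output of
`BridgeK25.regNode_of_nodeRegAt` and `B / 𝔪 = R / π`. -/
theorem hK_of_regNode_residue {π : R} {B : Subalgebra R F} {O1 O2 : ValuationSubring F}
    {𝔪 : Ideal B} (h𝔪 : 𝔪.IsMaximal)
    (hreg : (haveI := h𝔪.isPrime
      ∃ x y : B, x ∈ 𝔪 ∧ y ∈ 𝔪 ∧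
        RegNode (locSub B 𝔪).toSubring O1 O2 (algebraMap R F π) (x : F) (y : F)))
    (hrat : ∀ b : B, ∃ r : R, b - algebraMap R B r ∈ 𝔪) :
    (haveI := h𝔪.isPrime
     ∃ x y : F, RegNode (locSub B 𝔪).toSubring O1 O2 (algebraMap R F π) x y ∧
      ∀ c ∈ locSub B 𝔪, ∃ r : R, ∃ a ∈ locSub B 𝔪, ∃ b ∈ locSub B 𝔪, ∃ d ∈ locSub B 𝔪,
        c = algebraMap R F r + a * algebraMap R F π + b * x + d * y) := by
  haveI := h𝔪.isPrime
  obtain ⟨x, y, -, -, hS⟩ := hreg
  exact ⟨(x : F), (y : F), hS, hres_of_residue (π := π) h𝔪 hS hrat⟩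

end Fermat.Agent.M1.Base.ThickRat53
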